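/-
CFT / Pos : Claims 1, 2 and the counting part of Claim 3 of the "positivity" route to S55
(report #602), as statements on finite diagrams of vector spaces.

Dictionary (A a finite module, `0 → A' → I' → N' → 0`, dual `0 → N → I → A → 0`):
  `H2X = H²(G,X)`, `P2X = ⊕_v H²(D_v,X)`, `H0X = H⁰(G,X')`, `P0X = ⊕_v H⁰(D_v,X')`,
  `H1A' = H¹(G,A')`, `P1A' = ⊕_v H¹(D_v,A')`, `BX : P2X × P0X → F` the local pairings.
-/
import Fermat.Agent.CFT.Pos.LinAlg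

set_option autoImplicit false

namespace Fermat.Agent.CFT.Pos

open Module

variable {F : Type*} [Field F]

/-- `(X ∩ Y)^⊥ = X^⊥ + Y^⊥` in the shape needed for Claim 1:
`X = ker ρ`, `X^⊥ = range i₀`, `Y = range rI`, `Y^⊥ = range dI`. -/
theorem exists_eq_add_of_perp
    {P2I P0I P2A P0A H2I H0I : Type*}
    [AddCommGroup P2I] [Module F P2I] [AddCommGroup P0I] [Module F P0I]
    [AddCommGroup P2A] [Module F P2A] [AddCommGroup P0A] [Module F P0A]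
    [AddCommGroup H2I] [Module F H2I] [AddCommGroup H0I] [Module F H0I]
    (BI : P2I →ₗ[F] P0I →ₗ[F] F) (BA : P2A →ₗ[F] P0A →ₗ[F] F)
    (ρ : P2I →ₗ[F] P2A) (i₀ : P0A →ₗ[F] P0I) (rI : H2I →ₗ[F] P2I) (dI : H0I →ₗ[F] P0I)
    (hBIinj : ∀ μ, (∀ z, BI z μ = 0) → μ = 0)
    (hBIsurj : ∀ φ : Dual F P2I, ∃ μ, ∀ z, BI z μ = φ z)
    (hBAsurj : ∀ φ : Dual F P2A, ∃ α, ∀ z, BA z α = φ z)
    (hadj : ∀ z α, BA (ρ z) α = BI z (i₀ α))
    (hGE : ∀ μ, (∀ g, BI (rI g) μ = 0) → ∃ γ, dI γ = μ)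
    (μ : P0I) (hμ : ∀ g, ρ (rI g) = 0 → BI (rI g) μ = 0) :
    ∃ α γ, μ = i₀ α + dI γ := by
  classical
  have h1 : BI.flip μ ∈ (LinearMap.ker ρ ⊓ LinearMap.range rI).dualAnnihilator := by
    rw [Submodule.mem_dualAnnihilator]
    rintro z ⟨hz1, g, rfl⟩
    exact hμ g (LinearMap.mem_ker.1 hz1)
  rw [Subspace.dualAnnihilator_inf_eq, Submodule.mem_sup] at h1
  obtain ⟨φ₁, hφ₁, φ₂, hφ₂, hsum⟩ := h1
  rw [← LinearMap.range_dualMap_eq_dualAnnihilator_ker] at hφ₁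
  obtain ⟨ν, rfl⟩ := hφ₁
  obtain ⟨α, hα⟩ := hBAsurj ν
  obtain ⟨μ₂, hμ₂⟩ := hBIsurj φ₂
  obtain ⟨γ, rfl⟩ := hGE μ₂ (fun g => by
    rw [hμ₂]
    exact (Submodule.mem_dualAnnihilator _).1 hφ₂ _ ⟨g, rfl⟩)
  refine ⟨α, γ, ?_⟩
  rw [← sub_eq_zero]
  refine hBIinj _ fun z => ?_
  have h2 := LinearMap.congr_fun hsum z
  simp only [LinearMap.add_apply, LinearMap.dualMap_apply, LinearMap.flip_apply] at h2
  rw [map_sub, map_add, ← hadj, hα, hμ₂, h2, sub_self]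

/-- **Claim 1**: `dim Ш¹(A') ≤ dim Ш²(A)`. -/
theorem claim1
    {H2N H2I H2A P2N P2I P2A H0I H0N H1A' P0A P0I P0N P1A' : Type*}
    [AddCommGroup H2N] [Module F H2N] [AddCommGroup H2I] [Module F H2I]
    [AddCommGroup H2A] [Module F H2A] [AddCommGroup P2N] [Module F P2N]
    [AddCommGroup P2I] [Module F P2I] [AddCommGroup P2A] [Module F P2A]
    [AddCommGroup H0I] [Module F H0I] [AddCommGroup H0N] [Module F H0N]
    [AddCommGroup H1A'] [Module F H1A'] [AddCommGroup P0A] [Module F P0A]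
    [AddCommGroup P0I] [Module F P0I] [AddCommGroup P0N] [Module F P0N]
    [AddCommGroup P1A'] [Module F P1A'] [FiniteDimensional F H2A]
    -- global `H²(N) → H²(I) → H²(A)`
    (a₂ : H2N →ₗ[F] H2I) (b₂ : H2I →ₗ[F] H2A)
    (hab : ∀ g, b₂ g = 0 → ∃ n, a₂ n = g)
    -- local `P²(N) → P²(I) → P²(A)`
    (π : P2N →ₗ[F] P2I) (ρ : P2I →ₗ[F] P2A)
    -- localisation in degree 2
    (rN : H2N →ₗ[F] P2N) (rI : H2I →ₗ[F] P2I) (rA : H2A →ₗ[F] P2A)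
    (hrNI : ∀ n, rI (a₂ n) = π (rN n)) (hrIA : ∀ g, rA (b₂ g) = ρ (rI g))
    -- global `H⁰(I') → H⁰(N') → H¹(A')`
    (c₀ : H0I →ₗ[F] H0N) (δ : H0N →ₗ[F] H1A') (hδc : ∀ γ, δ (c₀ γ) = 0)
    -- local `P⁰(A') → P⁰(I') → P⁰(N') → P¹(A')`
    (i₀ : P0A →ₗ[F] P0I) (j₀ : P0I →ₗ[F] P0N) (δl : P0N →ₗ[F] P1A')
    (hji : ∀ α, j₀ (i₀ α) = 0)
    (hjδ : ∀ x, δl x = 0 → ∃ μ, j₀ μ = x)
    -- localisation in degrees 0 and 1
    (dI : H0I →ₗ[F] P0I) (dN : H0N →ₗ[F] P0N) (r₁ : H1A' →ₗ[F] P1A')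
    (hdIN : ∀ γ, dN (c₀ γ) = j₀ (dI γ)) (hr₁ : ∀ η, r₁ (δ η) = δl (dN η))
    (hdN : Function.Injective dN)
    -- pairings
    (BN : P2N →ₗ[F] P0N →ₗ[F] F) (BI : P2I →ₗ[F] P0I →ₗ[F] F)
    (hadjN : ∀ z μ, BI (π z) μ = BN z (j₀ μ))
    -- reciprocity for `N`
    (hGRN : ∀ n η, BN (rN n) (dN η) = 0)
    -- `(X ∩ Y)^⊥ = X^⊥ + Y^⊥` (see `exists_eq_add_of_perp`)
    (hperp : ∀ μ, (∀ g, ρ (rI g) = 0 → BI (rI g) μ = 0) → ∃ α γ, μ = i₀ α + dI γ)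
    -- `Ш¹(A')` is effaced by `I'`
    (heff : ∀ y, r₁ y = 0 → ∃ η, δ η = y) :
    finrank F (LinearMap.ker r₁) ≤ finrank F (LinearMap.ker rA) := by
  classical
  -- `W = ker (ρ ∘ rI)`, `Ξ = {(μ, η) | j₀ μ = dN η}`
  let W : Submodule F H2I := LinearMap.ker (ρ ∘ₗ rI)
  let Ξ : Submodule F (P0I × H0N) :=
    LinearMap.ker (j₀ ∘ₗ LinearMap.fst F P0I H0N - dN ∘ₗ LinearMap.snd F P0I H0N)
  have hΞ : ∀ x : Ξ, j₀ (x : P0I × H0N).1 = dN (x : P0I × H0N).2 := by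
    intro x
    have h := LinearMap.mem_ker.1 x.2
    rw [LinearMap.sub_apply, sub_eq_zero] at h
    exact h
  have hW : ∀ w : W, ρ (rI (w : H2I)) = 0 := fun w => LinearMap.mem_ker.1 w.2
  let β : W →ₗ[F] Ξ →ₗ[F] F :=
    ((BI ∘ₗ rI ∘ₗ W.subtype).compl₂ (LinearMap.fst F P0I H0N ∘ₗ Ξ.subtype))
  have hβ : ∀ (w : W) (x : Ξ), β w x = BI (rI (w : H2I)) (x : P0I × H0N).1 := fun _ _ => rfl
  let f : W →ₗ[F] H2A := b₂ ∘ₗ W.subtype
  let g : Ξ →ₗ[F] H1A' := δ ∘ₗ LinearMap.snd F P0I H0N ∘ₗ Ξ.subtype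
  obtain ⟨hfin, key⟩ := range_of_pairing β f g
    (by
      intro w hw x
      obtain ⟨n, hn⟩ := hab (w : H2I) hw
      rw [hβ, ← hn, hrNI, hadjN, hΞ, hGRN])
    (by
      intro x hx
      obtain ⟨α, γ, hαγ⟩ := hperp (x : P0I × H0N).1 (by
        intro g' hg'
        exact hx ⟨g', LinearMap.mem_ker.2 hg'⟩)
      have h1 : dN (x : P0I × H0N).2 = dN (c₀ γ) := by
        rw [← hΞ, hαγ, map_add, hji, zero_add, hdIN]
      have h2 := hdN h1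
      change δ (x : P0I × H0N).2 = 0
      rw [h2, hδc])
  have h1 : LinearMap.ker r₁ ≤ LinearMap.range g := by
    intro y hy
    obtain ⟨η, rfl⟩ := heff y (LinearMap.mem_ker.1 hy)
    have h2 : δl (dN η) = 0 := by rw [← hr₁]; exact LinearMap.mem_ker.1 hy
    obtain ⟨μ, hμ⟩ := hjδ _ h2
    refine ⟨⟨(μ, η), ?_⟩, rfl⟩
    refine LinearMap.mem_ker.2 ?_
    simp [hμ]
  have h2 : LinearMap.range f ≤ LinearMap.ker rA := by
    rintro _ ⟨w, rfl⟩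
    refine LinearMap.mem_ker.2 ?_
    change rA (b₂ (w : H2I)) = 0
    rw [hrIA, hW]
  calc finrank F (LinearMap.ker r₁) ≤ finrank F (LinearMap.range g) := Submodule.finrank_mono h1
    _ ≤ finrank F (LinearMap.range f) := key
    _ ≤ finrank F (LinearMap.ker rA) := Submodule.finrank_mono h2

/-- **Claim 2**: `dim G¹(A) + dim G¹(A') ≤ dim P¹(A)` where `G¹ = ` image of the global `H¹`
in the local `P¹`. -/
theorem claim2
    {H1A P1A H2N P2N P2I H0N H1A' P0I P0N P1A' : Type*}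
    [AddCommGroup H1A] [Module F H1A] [AddCommGroup P1A] [Module F P1A]
    [AddCommGroup H2N] [Module F H2N] [AddCommGroup P2N] [Module F P2N]
    [AddCommGroup P2I] [Module F P2I] [AddCommGroup H0N] [Module F H0N]
    [AddCommGroup H1A'] [Module F H1A'] [AddCommGroup P0I] [Module F P0I]
    [AddCommGroup P0N] [Module F P0N] [AddCommGroup P1A'] [Module F P1A']
    [FiniteDimensional F P1A]
    -- localisation `H¹(A) → P¹(A)`, connecting maps to `H²(N)`, `P²(N)`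
    (r : H1A →ₗ[F] P1A) (δg : H1A →ₗ[F] H2N) (δp : P1A →ₗ[F] P2N) (rN : H2N →ₗ[F] P2N)
    (hδr : ∀ h, rN (δg h) = δp (r h))
    -- `P¹(A) → P²(N) → P²(I)` exact
    (π : P2N →ₗ[F] P2I) (hπ : ∀ z, π z = 0 → ∃ x, δp x = z)
    -- dual side
    (δ : H0N →ₗ[F] H1A') (hδ : Function.Surjective δ)
    (j₀ : P0I →ₗ[F] P0N) (δl : P0N →ₗ[F] P1A') (hδj : ∀ μ, δl (j₀ μ) = 0)
    (dN : H0N →ₗ[F] P0N) (r₁ : H1A' →ₗ[F] P1A') (hr₁ : ∀ η, r₁ (δ η) = δl (dN η))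
    -- pairings
    (BN : P2N →ₗ[F] P0N →ₗ[F] F) (BI : P2I →ₗ[F] P0I →ₗ[F] F)
    (hadjN : ∀ z μ, BI (π z) μ = BN z (j₀ μ))
    (hBNinj : ∀ ξ, (∀ z, BN z ξ = 0) → ξ = 0)
    (hBIsurj : ∀ φ : Dual F P2I, ∃ μ, ∀ z, BI z μ = φ z)
    (hGRN : ∀ n η, BN (rN n) (dN η) = 0) :
    finrank F (LinearMap.range r) + finrank F (LinearMap.range r₁) ≤ finrank F P1A := by
  classical
  let β : P1A →ₗ[F] P0N →ₗ[F] F := BN ∘ₗ δp
  have key := finrank_add_finrank_map_le_of_orthogonal β (LinearMap.range r) (LinearMap.range dN) δl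
    (by
      rintro _ ⟨h, rfl⟩ _ ⟨η, rfl⟩
      change BN (δp (r h)) (dN η) = 0
      rw [← hδr, hGRN])
    (by
      intro ξ hξ
      -- `ξ` kills `ker π`
      have h1 : BN.flip ξ ∈ (LinearMap.ker π).dualAnnihilator := by
        rw [Submodule.mem_dualAnnihilator]
        intro z hz
        obtain ⟨x, rfl⟩ := hπ z (LinearMap.mem_ker.1 hz)
        exact hξ x
      rw [← LinearMap.range_dualMap_eq_dualAnnihilator_ker] at h1
      obtain ⟨ν, hν⟩ := h1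
      obtain ⟨μ, hμ⟩ := hBIsurj ν
      have h2 : ξ = j₀ μ := by
        rw [← sub_eq_zero]
        refine hBNinj _ fun z => ?_
        have h3 := LinearMap.congr_fun hν z
        simp only [LinearMap.dualMap_apply, LinearMap.flip_apply] at h3
        rw [map_sub, ← hadjN, hμ, h3, sub_self]
      rw [h2, hδj])
  have h1 : (LinearMap.range dN).map δl = LinearMap.range r₁ := by
    apply le_antisymm
    · rintro _ ⟨_, ⟨η, rfl⟩, rfl⟩
      exact ⟨δ η, hr₁ η⟩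
    · rintro _ ⟨y, rfl⟩
      obtain ⟨η, rfl⟩ := hδ y
      exact ⟨dN η, ⟨η, rfl⟩, (hr₁ η).symm⟩
  rw [h1] at key
  exact key

/-- Counting part of Claim 3: if `Y^⊥ = diag H⁰` then `dim Y + dim H⁰ = dim P²`. -/
theorem finrank_range_add_of_perp
    {H2 P2 H0 P0 : Type*}
    [AddCommGroup H2] [Module F H2] [AddCommGroup P2] [Module F P2]
    [AddCommGroup H0] [Module F H0] [AddCommGroup P0] [Module F P0]
    [FiniteDimensional F P2]
    (r : H2 →ₗ[F] P2) (d : H0 →ₗ[F] P0) (B : P2 →ₗ[F] P0 →ₗ[F] F)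
    (hd : Function.Injective d)
    (hBinj : ∀ μ, (∀ z, B z μ = 0) → μ = 0)
    (hBsurj : ∀ φ : Dual F P2, ∃ μ, ∀ z, B z μ = φ z)
    (hGR : ∀ g γ, B (r g) (d γ) = 0)
    (hGE : ∀ μ, (∀ g, B (r g) μ = 0) → ∃ γ, d γ = μ) :
    finrank F (LinearMap.range r) + finrank F H0 = finrank F P2 := by
  classical
  have h0 := Subspace.finrank_add_finrank_dualAnnihilator_eq (LinearMap.range r)
  -- `H0 ≃ (range r).dualAnnihilator`
  let e : H0 →ₗ[F] Dual F P2 := B.flip ∘ₗ d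
  have he : Function.Injective e := by
    rw [← LinearMap.ker_eq_bot, LinearMap.ker_eq_bot']
    intro γ hγ
    apply hd
    rw [map_zero]
    refine hBinj _ fun z => ?_
    exact LinearMap.congr_fun hγ z
  have hr : LinearMap.range e = (LinearMap.range r).dualAnnihilator := by
    apply le_antisymm
    · rintro _ ⟨γ, rfl⟩
      rw [Submodule.mem_dualAnnihilator]
      rintro _ ⟨g, rfl⟩
      exact hGR g γ
    · intro φ hφ
      obtain ⟨μ, hμ⟩ := hBsurj φ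
      obtain ⟨γ, rfl⟩ := hGE μ (fun g => by
        rw [hμ]; exact (Submodule.mem_dualAnnihilator _).1 hφ _ ⟨g, rfl⟩)
      refine ⟨γ, ?_⟩
      ext z
      exact hμ z
  have h1 : finrank F H0 = finrank F (LinearMap.range e) :=
    (LinearMap.finrank_range_of_inj he).symm
  rw [h1, hr]
  exact h0

/-- The final bookkeeping (Claims 1-4 combined).  `s1 = dim Ш¹(A)`, `s2 = dim Ш²(A)`, primes for
`A'`; `g, g'` the dimensions of the images of the global `H¹` in `P¹`; `p0,p1,p2` the dimensions of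
`P^i(A)` (and `dim P²(A') = p0`); `a0, a0'` the dimensions of `H⁰`. -/
theorem sha_eq_of_numerics
    (s1 s2 s1' s2' g g' p0 p1 p2 a0 a0' h1 h1' h2 h2' y y' : ℕ)
    (hh1 : h1 = s1 + g) (hh1' : h1' = s1' + g')
    (hh2 : h2 = s2 + y) (hh2' : h2' = s2' + y')
    (hy : y + a0' = p2) (hy' : y' + a0 = p0)
    (hu : g + g' ≤ p1) (hc1 : s1' ≤ s2) (hc1' : s1 ≤ s2')
    (hφ : ((a0 : ℤ) - h1 + h2) + ((a0' : ℤ) - h1' + h2') - ((p0 : ℤ) - p1 + p2) ≤ 0) :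
    s2 = s1' ∧ s2' = s1 ∧ g + g' = p1 := by
  omega

end Fermat.Agent.CFT.Pos
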