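/-
CFT / Pos : representation-theoretic dévissage, stated only with `G`-modules (helper78).

`tw H X = (G ⧸ H → X)` with the diagonal action (`= Ind_H^G Res_H X = X ⊗ k[G/H]`),
`perm H = tw H k`.
-/
import Mathlib

set_option autoImplicit false

noncomputable section

namespace Fermat.Agent.CFT.Pos

open Module CategoryTheory

variable {k : Type} [Field k] {G : Type} [Group G]

/-- short exact sequences of representations, by hand -/
structure IsSES {X₁ X₂ X₃ : Rep.{0} k G} (i : X₁ ⟶ X₂) (q : X₂ ⟶ X₃) : Prop where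
  inj : Function.Injective i.hom
  surj : Function.Surjective q.hom
  exact : ∀ x : X₂, q.hom x = 0 ↔ ∃ a : X₁, i.hom a = x

/-- `W` acts trivially on `X` -/
def TrivOn (W : Subgroup G) (X : Rep.{0} k G) : Prop := ∀ w ∈ W, ∀ x : X, X.ρ w x = x

/-- finite dimensional and trivial on `W` -/
def GoodW (W : Subgroup G) (X : Rep.{0} k G) : Prop := Module.Finite k X ∧ TrivOn W X

/-- the diagonal action on functions `G ⧸ H → X` -/
def twRho (H : Subgroup G) (X : Rep.{0} k G) : Representation k G (G ⧸ H → X) where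
  toFun g :=
    { toFun := fun F c => X.ρ g (F (g⁻¹ • c))
      map_add' := fun F F' => funext fun c => by simp
      map_smul' := fun a F => funext fun c => by simp }
  map_one' := LinearMap.ext fun F => funext fun c => by simp
  map_mul' g g' := LinearMap.ext fun F => funext fun c => by simp [mul_smul]

/-- `Ind_H^G Res_H X`, realised as `G ⧸ H → X` with the diagonal action -/
abbrev tw (H : Subgroup G) (X : Rep.{0} k G) : Rep.{0} k G := Rep.of (twRho H X)

@[simp] lemma tw_ρ_apply (H : Subgroup G) (X : Rep.{0} k G) (g : G) (F : G ⧸ H → X) (c : G ⧸ H) :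
    (tw H X).ρ g F c = X.ρ g (F (g⁻¹ • c)) := rfl

/-- functoriality of `tw` -/
def twMap (H : Subgroup G) {X Y : Rep.{0} k G} (φ : X ⟶ Y) : tw H X ⟶ tw H Y :=
  Rep.ofHom ⟨φ.hom.toLinearMap.compLeft (G ⧸ H), fun g => LinearMap.ext fun _ => funext fun _ =>
    Rep.hom_comm_apply φ g _⟩

@[simp] lemma twMap_apply (H : Subgroup G) {X Y : Rep.{0} k G} (φ : X ⟶ Y) (F : G ⧸ H → X)
    (c : G ⧸ H) : (twMap H φ).hom F c = φ.hom (F c) := rfl

/-- the permutation module on `G ⧸ H` -/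
abbrev perm (H : Subgroup G) : Rep.{0} k G := tw H (Rep.trivial k G k)


/-- constant functions -/
def twConst (H : Subgroup G) (X : Rep.{0} k G) : X ⟶ tw H X :=
  Rep.ofHom ⟨LinearMap.pi fun _ => LinearMap.id, fun _ => LinearMap.ext fun _ => funext fun _ =>
    rfl⟩

@[simp] lemma twConst_apply (H : Subgroup G) (X : Rep.{0} k G) (x : X) (c : G ⧸ H) :
    (twConst H X).hom x c = x := rfl

section Sum

variable (H : Subgroup G) [H.FiniteIndex]

local instance fintypeQuot : Fintype (G ⧸ H) := Fintype.ofFinite _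

/-- the sum over `G ⧸ H` as a linear map -/
def sumLin (X : Rep.{0} k G) : (G ⧸ H → X) →ₗ[k] X :=
  ∑ c : G ⧸ H, LinearMap.proj c

lemma sumLin_apply (X : Rep.{0} k G) (F : G ⧸ H → X) : sumLin H X F = ∑ c : G ⧸ H, F c := by
  simp [sumLin, LinearMap.sum_apply]

lemma sumLin_comm (X : Rep.{0} k G) (g : G) (F : G ⧸ H → X) :
    sumLin H X ((tw H X).ρ g F) = X.ρ g (sumLin H X F) := by
  rw [sumLin_apply, sumLin_apply, map_sum]
  exact Equiv.sum_comp (MulAction.toPerm (g⁻¹ : G)) fun c => X.ρ g (F c)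

/-- the sum map `tw H X ⟶ X` -/
def twSum (X : Rep.{0} k G) : tw H X ⟶ X :=
  Rep.ofHom ⟨sumLin H X, fun g => LinearMap.ext fun F => sumLin_comm H X g F⟩

lemma twSum_apply (X : Rep.{0} k G) (F : G ⧸ H → X) : (twSum H X).hom F = ∑ c : G ⧸ H, F c :=
  sumLin_apply H X F

/-- the normalised sum map `tw H X ⟶ X` -/
def twAvg (X : Rep.{0} k G) : tw H X ⟶ X :=
  Rep.ofHom ⟨((H.index : k)⁻¹) • sumLin H X, fun g => LinearMap.ext fun F => by
    simp only [LinearMap.comp_apply, LinearMap.smul_apply, map_smul]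
    rw [← sumLin_comm H X g F]⟩

lemma twAvg_apply (X : Rep.{0} k G) (F : G ⧸ H → X) :
    (twAvg H X).hom F = ((H.index : k)⁻¹) • ∑ c : G ⧸ H, F c := by
  rw [← sumLin_apply]; rfl

lemma twAvg_twConst (hH : (H.index : k) ≠ 0) (X : Rep.{0} k G) (x : X) :
    (twAvg H X).hom ((twConst H X).hom x) = x := by
  rw [twAvg_apply]
  have h1 : ∑ c : G ⧸ H, (twConst H X).hom x c = ∑ _c : G ⧸ H, x := rfl
  rw [h1, Finset.sum_const, Finset.card_univ, ← Nat.card_eq_fintype_card, ← Subgroup.index_eq_card, ← Nat.cast_smul_eq_nsmul k, smul_smul,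
    inv_mul_cancel₀ hH, one_smul]

lemma twSum_surjective (X : Rep.{0} k G) : Function.Surjective (twSum H X).hom := by
  classical
  intro x
  refine ⟨Pi.single ((1 : G) : G ⧸ H) x, ?_⟩
  rw [twSum_apply]
  exact Finset.sum_pi_single' _ _ _ |>.trans (by simp)

lemma twAvg_twMap {X Y : Rep.{0} k G} (φ : X ⟶ Y) (F : G ⧸ H → X) :
    (twAvg H Y).hom ((twMap H φ).hom F) = φ.hom ((twAvg H X).hom F) := by
  rw [twAvg_apply, twAvg_apply, map_smul, map_sum]
  rfl

end Sum

lemma twMap_twConst (H : Subgroup G) {X Y : Rep.{0} k G} (φ : X ⟶ Y) (x : X) :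
    (twMap H φ).hom ((twConst H X).hom x) = (twConst H Y).hom (φ.hom x) := rfl

/-- the swap `tw H (tw W X) ⟶ tw W (tw H X)` -/
def twSwap (H W : Subgroup G) (X : Rep.{0} k G) : tw H (tw W X) ⟶ tw W (tw H X) :=
  Rep.ofHom ⟨{ toFun := fun F c' c => F c c', map_add' := fun _ _ => rfl,
               map_smul' := fun _ _ => rfl }, fun _ => LinearMap.ext fun _ => rfl⟩

lemma twSwap_bijective (H W : Subgroup G) (X : Rep.{0} k G) :
    Function.Bijective (twSwap H W X).hom :=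
  ⟨fun _ _ h => funext fun c => funext fun c' => congrFun (congrFun h c') c,
    fun F => ⟨fun c c' => F c' c, rfl⟩⟩

lemma IsSES.tw (H : Subgroup G) {X₁ X₂ X₃ : Rep.{0} k G} {i : X₁ ⟶ X₂} {q : X₂ ⟶ X₃}
    (h : IsSES i q) : IsSES (twMap H i) (twMap H q) where
  inj F F' hF := funext fun c => h.inj (congrFun hF c)
  surj F := ⟨fun c => (h.surj (F c)).choose, funext fun c => (h.surj (F c)).choose_spec⟩
  exact F := by
    constructor
    · intro hF
      have h1 : ∀ c, ∃ a, i.hom a = F c := fun c => (h.exact (F c)).1 (congrFun hF c)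
      exact ⟨fun c => (h1 c).choose, funext fun c => (h1 c).choose_spec⟩
    · rintro ⟨A, rfl⟩
      exact funext fun c => (h.exact _).2 ⟨A c, rfl⟩


/-! ### The sub-representations `(tw H X)_B` -/

/-- `{F | F (gH) ∈ g B}` -/
def twSub (H : Subgroup G) (X : Rep.{0} k G) (B : Submodule k X) : Submodule k (tw H X) where
  carrier := {F | ∀ g : G, X.ρ g⁻¹ (F (g : G ⧸ H)) ∈ B}
  add_mem' := by
    intro F F' hF hF' g
    have : X.ρ g⁻¹ ((F + F') (g : G ⧸ H)) = X.ρ g⁻¹ (F (g : G ⧸ H)) + X.ρ g⁻¹ (F' (g : G ⧸ H)) :=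
      map_add _ _ _
    rw [this]
    exact B.add_mem (hF g) (hF' g)
  zero_mem' := by
    intro g
    have : X.ρ g⁻¹ ((0 : G ⧸ H → X) (g : G ⧸ H)) = 0 := map_zero _
    rw [this]
    exact B.zero_mem
  smul_mem' := by
    intro a F hF g
    have : X.ρ g⁻¹ ((a • F) (g : G ⧸ H)) = a • X.ρ g⁻¹ (F (g : G ⧸ H)) := map_smul _ _ _
    rw [this]
    exact B.smul_mem a (hF g)

lemma mem_twSub {H : Subgroup G} {X : Rep.{0} k G} {B : Submodule k X} {F : G ⧸ H → X} :
    F ∈ twSub H X B ↔ ∀ g : G, X.ρ g⁻¹ (F (g : G ⧸ H)) ∈ B := Iff.rfl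

lemma twSub_stable (H : Subgroup G) (X : Rep.{0} k G) (B : Submodule k X) (g : G) :
    twSub H X B ≤ (twSub H X B).comap ((tw H X).ρ g) := by
  intro F hF g'
  have h1 : X.ρ g'⁻¹ ((tw H X).ρ g F (g' : G ⧸ H))
      = X.ρ (g⁻¹ * g')⁻¹ (F ((g⁻¹ * g' : G) : G ⧸ H)) := by
    rw [tw_ρ_apply, ← Module.End.mul_apply, ← map_mul]
    congr 2
    group
  rw [h1]
  exact hF _

lemma twSub_mono (H : Subgroup G) (X : Rep.{0} k G) {B B' : Submodule k X} (h : B' ≤ B) :
    twSub H X B' ≤ twSub H X B := fun _ hF g => h (hF g)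

/-- `(tw H X)_B` as a representation -/
abbrev twB (H : Subgroup G) (X : Rep.{0} k G) (B : Submodule k X) : Rep.{0} k G :=
  Rep.subrepresentation (tw H X) (twSub H X B) (twSub_stable H X B)

lemma twB_ρ_coe (H : Subgroup G) (X : Rep.{0} k G) (B : Submodule k X) (g : G)
    (F : twSub H X B) : (((twB H X B).ρ g F : twSub H X B) : G ⧸ H → X) = (tw H X).ρ g F.1 := rfl

/-- inclusion `(tw H X)_{B'} ⟶ (tw H X)_B` -/
def twIncl (H : Subgroup G) (X : Rep.{0} k G) {B B' : Submodule k X} (h : B' ≤ B) :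
    twB H X B' ⟶ twB H X B :=
  Rep.ofHom ⟨Submodule.inclusion (twSub_mono H X h), fun _ => LinearMap.ext fun _ => rfl⟩

lemma twIncl_coe (H : Subgroup G) (X : Rep.{0} k G) {B B' : Submodule k X} (h : B' ≤ B)
    (F : twSub H X B') : (((twIncl H X h).hom F : twSub H X B) : G ⧸ H → X) = F.1 := rfl

/-- inclusion `(tw H X)_B ⟶ tw H X` -/
def twVal (H : Subgroup G) (X : Rep.{0} k G) (B : Submodule k X) : twB H X B ⟶ tw H X :=
  Rep.ofHom ⟨(twSub H X B).subtype, fun _ => LinearMap.ext fun _ => rfl⟩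

lemma twVal_top_bijective (H : Subgroup G) (X : Rep.{0} k G) :
    Function.Bijective (twVal H X ⊤).hom :=
  ⟨fun _ _ h => Subtype.ext h, fun F => ⟨⟨F, fun _ => Submodule.mem_top⟩, rfl⟩⟩

/-- The data for one step of the filtration. -/
structure StepData (H : Subgroup G) (X : Rep.{0} k G) (B : Submodule k X) where
  ℓ : X →ₗ[k] k
  b₀ : X
  hb₀ : b₀ ∈ B
  hℓb₀ : ℓ b₀ = 1
  stable : ∀ h ∈ H, ∀ b ∈ B, X.ρ h b ∈ B
  inv : ∀ h ∈ H, ∀ b ∈ B, ℓ (X.ρ h b) = ℓ b

namespace StepData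

variable {H : Subgroup G} {X : Rep.{0} k G} {B : Submodule k X} (D : StepData H X B)

/-- the linear map underlying `toPerm` -/
def toPermLin : twSub H X B →ₗ[k] (G ⧸ H → k) where
  toFun F c := D.ℓ (X.ρ (c.out)⁻¹ (F.1 c))
  map_add' F F' := funext fun c => by
    have : X.ρ (c.out)⁻¹ ((F + F').1 c) = X.ρ (c.out)⁻¹ (F.1 c) + X.ρ (c.out)⁻¹ (F'.1 c) :=
      map_add _ _ _
    simp only [this, map_add, Pi.add_apply]
  map_smul' a F := funext fun c => by
    have : X.ρ (c.out)⁻¹ ((a • F).1 c) = a • X.ρ (c.out)⁻¹ (F.1 c) := map_smul _ _ _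
    simp only [this, map_smul, Pi.smul_apply, RingHom.id_apply]

lemma toPermLin_mk (F : twSub H X B) (g : G) :
    D.toPermLin F (g : G ⧸ H) = D.ℓ (X.ρ g⁻¹ (F.1 (g : G ⧸ H))) := by
  obtain ⟨h, hh⟩ := QuotientGroup.mk_out_eq_mul H g
  change D.ℓ (X.ρ ((g : G ⧸ H).out)⁻¹ (F.1 (g : G ⧸ H))) = _
  rw [hh, mul_inv_rev, map_mul, Module.End.mul_apply]
  exact D.inv _ (H.inv_mem h.2) _ (F.2 g)

/-- `(tw H X)_B ⟶ perm H` -/
def toPerm : twB H X B ⟶ perm H :=
  Rep.ofHom ⟨D.toPermLin, fun g => LinearMap.ext fun F => funext fun c => by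
    induction c using QuotientGroup.induction_on with
    | H g' =>
      change D.toPermLin ((twB H X B).ρ g F) (g' : G ⧸ H) = D.toPermLin F (g⁻¹ • (g' : G ⧸ H))
      have h2 : g⁻¹ • (g' : G ⧸ H) = ((g⁻¹ * g' : G) : G ⧸ H) := rfl
      rw [h2, toPermLin_mk, toPermLin_mk, twB_ρ_coe, tw_ρ_apply, h2, ← Module.End.mul_apply,
        ← map_mul]
      congr 3
      group⟩

lemma toPerm_mk (F : twSub H X B) (g : G) :
    D.toPerm.hom F (g : G ⧸ H) = D.ℓ (X.ρ g⁻¹ (F.1 (g : G ⧸ H))) := D.toPermLin_mk F g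

/-- the (set-theoretic, linear) section -/
def secFun (φ : G ⧸ H → k) : G ⧸ H → X := fun c => φ c • X.ρ c.out D.b₀

lemma secFun_mem (φ : G ⧸ H → k) : D.secFun φ ∈ twSub H X B := by
  intro g
  obtain ⟨h, hh⟩ := QuotientGroup.mk_out_eq_mul H g
  have : X.ρ g⁻¹ (D.secFun φ (g : G ⧸ H)) = φ (g : G ⧸ H) • X.ρ h D.b₀ := by
    change X.ρ g⁻¹ (φ (g : G ⧸ H) • X.ρ (g : G ⧸ H).out D.b₀) = _
    rw [map_smul, ← Module.End.mul_apply, ← map_mul, hh]
    congr 3
    group
  rw [this]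
  exact B.smul_mem _ (D.stable _ h.2 _ D.hb₀)

lemma toPerm_secFun (φ : G ⧸ H → k) : D.toPerm.hom ⟨D.secFun φ, D.secFun_mem φ⟩ = φ := by
  funext c
  change D.ℓ (X.ρ (c.out)⁻¹ (φ c • X.ρ c.out D.b₀)) = φ c
  rw [map_smul, ← Module.End.mul_apply, ← map_mul, inv_mul_cancel, map_one, Module.End.one_apply,
    map_smul, D.hℓb₀, smul_eq_mul, mul_one]

/-- the smaller subspace -/
def B' : Submodule k X := B ⊓ LinearMap.ker D.ℓ

lemma B'_le : D.B' ≤ B := inf_le_left

theorem isSES : IsSES (twIncl H X D.B'_le) D.toPerm where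
  inj F F' h := Subtype.ext (congrArg (fun z : twSub H X B => z.1) h)
  surj φ := ⟨_, D.toPerm_secFun φ⟩
  exact F := by
    constructor
    · intro hF
      refine ⟨⟨F.1, fun g => ⟨F.2 g, ?_⟩⟩, rfl⟩
      have := congrFun hF (g : G ⧸ H)
      rw [toPerm_mk] at this
      exact this
    · rintro ⟨F', rfl⟩
      funext c
      induction c using QuotientGroup.induction_on with
      | H g =>
        rw [toPerm_mk]
        exact (F'.2 g).2

/-- if `b₀` is fixed by `H`, the sequence splits -/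
theorem exists_section (hfix : ∀ h ∈ H, X.ρ h D.b₀ = D.b₀) :
    ∃ s : perm H ⟶ twB H X B, ∀ φ, D.toPerm.hom (s.hom φ) = φ := by
  have hsec : ∀ (φ : G ⧸ H → k) (g : G), D.secFun φ (g : G ⧸ H) = φ (g : G ⧸ H) • X.ρ g D.b₀ := by
    intro φ g
    obtain ⟨h, hh⟩ := QuotientGroup.mk_out_eq_mul H g
    change φ (g : G ⧸ H) • X.ρ (g : G ⧸ H).out D.b₀ = _
    rw [hh, map_mul, Module.End.mul_apply, hfix _ h.2]
  refine ⟨Rep.ofHom ⟨{ toFun := fun φ => ⟨D.secFun φ, D.secFun_mem φ⟩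
                       map_add' := fun φ φ' => Subtype.ext (funext fun c => add_smul _ _ _)
                       map_smul' := fun a φ => Subtype.ext (funext fun c => mul_smul _ _ _) }, ?_⟩,
      fun φ => D.toPerm_secFun φ⟩
  intro g
  refine LinearMap.ext fun φ => Subtype.ext (funext fun c => ?_)
  induction c using QuotientGroup.induction_on with
  | H g' =>
    change D.secFun ((perm H).ρ g φ) (g' : G ⧸ H) = X.ρ g (D.secFun φ (g⁻¹ • (g' : G ⧸ H)))
    have h2 : g⁻¹ • (g' : G ⧸ H) = ((g⁻¹ * g' : G) : G ⧸ H) := rfl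
    rw [h2, hsec, hsec, map_smul, ← Module.End.mul_apply, ← map_mul, mul_inv_cancel_left]
    rfl

end StepData


/-! ### Fixed vectors of `p`-groups -/

theorem exists_fixed_ne_zero (p : ℕ) [Fact p.Prime] [CharP k p] {V : Type} [AddCommGroup V]
    [Module k V] [Finite V] [Nontrivial V] {Γ : Type} [Group Γ] (σ : Representation k Γ V)
    (hσ : ∀ g : Γ, ∃ n : ℕ, σ (g ^ p ^ n) = 1) : ∃ v : V, v ≠ 0 ∧ ∀ g, σ g v = v := by
  classical
  let Q : Subgroup (V →ₗ[k] V)ˣ := σ.asGroupHom.range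
  have hQ : IsPGroup p Q := by
    rintro ⟨_, g, rfl⟩
    obtain ⟨n, hn⟩ := hσ g
    refine ⟨n, Subtype.ext (Units.ext ?_)⟩
    change ((σ.asGroupHom g ^ p ^ n : (V →ₗ[k] V)ˣ) : V →ₗ[k] V) = 1
    rw [← map_pow, Representation.asGroupHom_apply, hn]
  have hcard : p ∣ Nat.card V := by
    obtain ⟨v, hv⟩ := exists_ne (0 : V)
    have h1 : addOrderOf v = p := by
      refine addOrderOf_eq_prime ?_ hv
      rw [← Nat.cast_smul_eq_nsmul k, CharP.cast_eq_zero, zero_smul]
    rw [← h1]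
    exact addOrderOf_dvd_natCard v
  have h0 : (0 : V) ∈ MulAction.fixedPoints Q V := by
    intro q
    change ((q : (V →ₗ[k] V)ˣ) : V →ₗ[k] V) 0 = 0
    exact map_zero _
  obtain ⟨b, hb, hb0⟩ := hQ.exists_fixed_point_of_prime_dvd_card_of_fixed_point V hcard h0
  refine ⟨b, fun h => hb0 h.symm, fun g => ?_⟩
  have := hb ⟨σ.asGroupHom g, g, rfl⟩
  change ((σ.asGroupHom g : (V →ₗ[k] V)ˣ) : V →ₗ[k] V) b = b at this
  rwa [Representation.asGroupHom_apply] at this

theorem exists_stepData (p : ℕ) [Fact p.Prime] [CharP k p] [Finite k] (H : Subgroup G)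
    (X : Rep.{0} k G) [Module.Finite k X] (B : Submodule k X) (hB : B ≠ ⊥)
    (stable : ∀ h ∈ H, ∀ b ∈ B, X.ρ h b ∈ B)
    (hp : ∀ h ∈ H, ∃ n : ℕ, ∀ x : X, X.ρ (h ^ p ^ n) x = x) : Nonempty (StepData H X B) := by
  classical
  let σ₀ : Representation k H B :=
    Representation.subrepresentation (X.ρ.comp H.subtype) B fun h b hb => stable h.1 h.2 b hb
  have hσ₀ : ∀ (h : H) (b : B), ((σ₀ h b : B) : X) = X.ρ h.1 b.1 := fun _ _ => rfl
  have : Nontrivial B := Submodule.nontrivial_iff_ne_bot.2 hB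
  have : Nontrivial (Dual k B) := by
    apply Module.nontrivial_of_finrank_pos (R := k)
    rw [Subspace.dual_finrank_eq]
    exact Module.finrank_pos
  have : Finite (Dual k B) := Module.finite_of_finite k
  obtain ⟨l, hl0, hl⟩ := exists_fixed_ne_zero p σ₀.dual (by
    intro h
    obtain ⟨n, hn⟩ := hp h.1 h.2
    refine ⟨n, LinearMap.ext fun f => LinearMap.ext fun b => ?_⟩
    change f (σ₀ (h ^ p ^ n)⁻¹ b) = f b
    congr 1
    refine Subtype.ext ?_
    rw [hσ₀]
    have h1 : X.ρ (((h ^ p ^ n)⁻¹ : H) : G) b.1 = X.ρ (h.1 ^ p ^ n)⁻¹ (X.ρ (h.1 ^ p ^ n) b.1) := by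
      rw [hn]; rfl
    rw [h1, ← Module.End.mul_apply, ← map_mul, inv_mul_cancel, map_one, Module.End.one_apply])
  obtain ⟨ℓ, hℓ⟩ := LinearMap.exists_extend l
  have hℓ' : ∀ b : B, ℓ b.1 = l b := fun b => LinearMap.congr_fun hℓ b
  obtain ⟨b, hb⟩ : ∃ b : B, l b ≠ 0 := by
    by_contra hcon
    push Not at hcon
    exact hl0 (LinearMap.ext hcon)
  refine ⟨⟨ℓ, (l b)⁻¹ • b.1, B.smul_mem _ b.2, ?_, stable, ?_⟩⟩
  · rw [map_smul, hℓ', smul_eq_mul, inv_mul_cancel₀ hb]
  · intro h hh b' hb'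
    have h1 := LinearMap.congr_fun (hl ⟨h, hh⟩⁻¹) ⟨b', hb'⟩
    change l (σ₀ (⟨h, hh⟩⁻¹)⁻¹ ⟨b', hb'⟩) = l ⟨b', hb'⟩ at h1
    rw [inv_inv] at h1
    rw [← hℓ' ⟨b', hb'⟩, ← hℓ'] at h1
    exact h1

lemma StepData.finrank_B' {H : Subgroup G} {X : Rep.{0} k G} [Module.Finite k X]
    {B : Submodule k X} (D : StepData H X B) : finrank k D.B' + 1 = finrank k B := by
  have h1 := LinearMap.finrank_range_add_finrank_ker (D.ℓ.domRestrict B)
  have h2 : LinearMap.range (D.ℓ.domRestrict B) = ⊤ := by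
    rw [LinearMap.range_eq_top]
    intro a
    refine ⟨⟨a • D.b₀, B.smul_mem _ D.hb₀⟩, ?_⟩
    change D.ℓ (a • D.b₀) = a
    rw [map_smul, D.hℓb₀, smul_eq_mul, mul_one]
  have h3 : LinearMap.ker (D.ℓ.domRestrict B) = Submodule.comap B.subtype D.B' := by
    ext b
    simp only [LinearMap.mem_ker, Submodule.mem_comap, StepData.B', Submodule.mem_inf]
    exact ⟨fun h => ⟨b.2, h⟩, fun h => h.2⟩
  rw [h2, finrank_top, finrank_self, h3,
    (Submodule.comapSubtypeEquivOfLe D.B'_le).finrank_eq] at h1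
  omega

lemma StepData.B'_stable {H : Subgroup G} {X : Rep.{0} k G} {B : Submodule k X}
    (D : StepData H X B) : ∀ h ∈ H, ∀ b ∈ D.B', X.ρ h b ∈ D.B' := by
  intro h hh b hb
  refine ⟨D.stable h hh b hb.1, ?_⟩
  change D.ℓ (X.ρ h b) = 0
  rw [D.inv h hh b hb.1]
  exact hb.2

/-! ### Goodness -/

lemma trivOn_tw {W H : Subgroup G} [W.Normal] (hWH : W ≤ H) {X : Rep.{0} k G} (hX : TrivOn W X) :
    TrivOn W (tw H X) := by
  intro w hw F
  funext c
  induction c using QuotientGroup.induction_on with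
  | H g =>
    rw [tw_ρ_apply, hX w hw]
    congr 1
    change ((w⁻¹ * g : G) : G ⧸ H) = (g : G ⧸ H)
    rw [QuotientGroup.eq]
    apply hWH
    have := (inferInstance : W.Normal).conj_mem w hw g⁻¹
    simpa [mul_assoc] using this

lemma goodW_tw {W H : Subgroup G} [W.Normal] [H.FiniteIndex] (hWH : W ≤ H) {X : Rep.{0} k G}
    (hX : GoodW W X) : GoodW W (tw H X) := by
  have := hX.1
  exact ⟨Module.Finite.pi, trivOn_tw hWH hX.2⟩

lemma goodW_twB {W H : Subgroup G} [W.Normal] [H.FiniteIndex] (hWH : W ≤ H) {X : Rep.{0} k G}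
    (hX : GoodW W X) (B : Submodule k X) : GoodW W (twB H X B) := by
  have h1 := goodW_tw (H := H) hWH hX
  have := h1.1
  refine ⟨inferInstanceAs (Module.Finite k (twSub H X B)), fun w hw F => Subtype.ext ?_⟩
  exact h1.2 w hw F.1

/-- **Filtration induction.** -/
theorem twB_induction (p : ℕ) [Fact p.Prime] [CharP k p] [Finite k] {W H : Subgroup G} [W.Normal]
    [H.FiniteIndex] (hWH : W ≤ H) (hp : ∀ h ∈ H, ∃ n : ℕ, h ^ p ^ n ∈ W)
    {X : Rep.{0} k G} (hX : GoodW W X) (M : Rep.{0} k G → ℕ → Prop)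
    (h0 : ∀ Z : Rep.{0} k G, Subsingleton Z → M Z 0)
    (hstep : ∀ (Y' Y : Rep.{0} k G) (i : Y' ⟶ Y) (q : Y ⟶ perm H) (n : ℕ), GoodW W Y' → GoodW W Y →
      IsSES i q → (TrivOn H X → ∃ s : perm H ⟶ Y, ∀ φ, q.hom (s.hom φ) = φ) → M Y' n → M Y (n + 1))
    (B : Submodule k X) (stable : ∀ h ∈ H, ∀ b ∈ B, X.ρ h b ∈ B) :
    M (twB H X B) (finrank k B) := by
  have := hX.1
  induction hn : finrank k B generalizing B with
  | zero =>
    have hB : B = ⊥ := Submodule.finrank_eq_zero.1 hn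
    subst hB
    refine h0 _ ⟨fun F F' => Subtype.ext (funext fun c => ?_)⟩
    have key : ∀ F : twSub H X ⊥, ∀ c, F.1 c = 0 := by
      intro F c
      induction c using QuotientGroup.induction_on with
      | H g =>
        have h1 := F.2 g
        rw [Submodule.mem_bot] at h1
        have h2 : X.ρ g (X.ρ g⁻¹ (F.1 (g : G ⧸ H))) = F.1 (g : G ⧸ H) := by
          rw [← Module.End.mul_apply, ← map_mul, mul_inv_cancel, map_one, Module.End.one_apply]
        rw [← h2, h1, map_zero]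
    exact (key F c).trans (key F' c).symm
  | succ n ih =>
    have hB : B ≠ ⊥ := by
      rintro rfl
      simp at hn
    obtain ⟨D⟩ := exists_stepData p H X B hB stable (fun h hh => by
      obtain ⟨n, hn⟩ := hp h hh
      exact ⟨n, fun x => hX.2 _ hn x⟩)
    have h1 := D.finrank_B'
    refine hstep _ _ _ _ n (goodW_twB hWH hX _) (goodW_twB hWH hX _) D.isSES
      (fun ht => D.exists_section fun h hh => ht h hh _) (ih D.B' D.B'_stable (by omega))


/-! ### Kernels, zero object, dimensions -/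

/-- the zero representation -/
abbrev zeroRep : Rep.{0} k G := Rep.trivial k G PUnit

lemma goodW_of_subsingleton (W : Subgroup G) (Z : Rep.{0} k G) [Subsingleton Z] : GoodW W Z :=
  ⟨inferInstance, fun _ _ _ => Subsingleton.elim _ _⟩

/-- the kernel of a morphism -/
abbrev kerRep {X Y : Rep.{0} k G} (q : X ⟶ Y) : Rep.{0} k G :=
  Rep.subrepresentation X (LinearMap.ker q.hom.toLinearMap) fun g x hx => by
    change q.hom (X.ρ g x) = 0
    rw [Rep.hom_comm_apply]
    have : q.hom x = 0 := hx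
    rw [this, map_zero]

/-- the inclusion of the kernel -/
def kerι {X Y : Rep.{0} k G} (q : X ⟶ Y) : kerRep q ⟶ X :=
  Rep.ofHom ⟨(LinearMap.ker q.hom.toLinearMap).subtype, fun _ => LinearMap.ext fun _ => rfl⟩

lemma isSES_ker {X Y : Rep.{0} k G} (q : X ⟶ Y) (hq : Function.Surjective q.hom) :
    IsSES (kerι q) q where
  inj _ _ h := Subtype.ext h
  surj := hq
  exact x := ⟨fun h => ⟨⟨x, h⟩, rfl⟩, by rintro ⟨a, rfl⟩; exact a.2⟩

lemma goodW_ker {W : Subgroup G} {X Y : Rep.{0} k G} (q : X ⟶ Y) (hX : GoodW W X) :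
    GoodW W (kerRep q) := by
  have := hX.1
  exact ⟨inferInstanceAs (Module.Finite k (LinearMap.ker q.hom.toLinearMap)),
    fun w hw x => Subtype.ext (hX.2 w hw x.1)⟩

lemma finrank_ker_add {X Y : Rep.{0} k G} [Module.Finite k X] (q : X ⟶ Y)
    (hq : Function.Surjective q.hom) : finrank k (kerRep q) + finrank k Y = finrank k X := by
  have h1 := LinearMap.finrank_range_add_finrank_ker q.hom.toLinearMap
  have h2 : LinearMap.range q.hom.toLinearMap = ⊤ := LinearMap.range_eq_top.2 hq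
  rw [h2, finrank_top] at h1
  have h3 : finrank k (kerRep q) = finrank k (LinearMap.ker q.hom.toLinearMap) := rfl
  omega

lemma finrank_tw (H : Subgroup G) [H.FiniteIndex] (X : Rep.{0} k G) [Module.Finite k X] :
    finrank k (tw H X) = H.index * finrank k X := by
  classical
  have : Fintype (G ⧸ H) := Fintype.ofFinite _
  have h1 : finrank k (tw H X) = finrank k (G ⧸ H → X) := rfl
  rw [h1, Module.finrank_pi_fintype, Finset.sum_const, Finset.card_univ, smul_eq_mul,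
    ← Nat.card_eq_fintype_card, ← Subgroup.index_eq_card]

lemma goodW_trivial (W : Subgroup G) : GoodW W (Rep.trivial k G k) :=
  ⟨inferInstanceAs (Module.Finite k k), fun _ _ _ => rfl⟩

lemma goodW_perm {W H : Subgroup G} [W.Normal] [H.FiniteIndex] (hWH : W ≤ H) :
    GoodW W (perm H : Rep.{0} k G) := goodW_tw hWH (goodW_trivial W)

lemma finrank_perm (H : Subgroup G) [H.FiniteIndex] :
    finrank k (perm H : Rep.{0} k G) = H.index := by
  have : Module.Finite k (Rep.trivial k G k) := inferInstanceAs (Module.Finite k k)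
  rw [finrank_tw]
  have : finrank k (Rep.trivial k G k) = 1 := finrank_self k
  rw [this, mul_one]

/-! ### Subadditive functions -/

/-- `f` is subadditive on short exact sequences of good modules and additive on split ones. -/
structure SubAdd (W : Subgroup G) (f : Rep.{0} k G → ℤ) : Prop where
  sub : ∀ {X₁ X₂ X₃ : Rep.{0} k G} (i : X₁ ⟶ X₂) (q : X₂ ⟶ X₃), GoodW W X₁ → GoodW W X₂ →
    GoodW W X₃ → IsSES i q → f X₂ ≤ f X₁ + f X₃
  split : ∀ {X₁ X₂ X₃ : Rep.{0} k G} (i : X₁ ⟶ X₂) (q : X₂ ⟶ X₃), GoodW W X₁ → GoodW W X₂ →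
    GoodW W X₃ → IsSES i q → (∃ s : X₃ ⟶ X₂, ∀ x, q.hom (s.hom x) = x) → f X₂ = f X₁ + f X₃

namespace SubAdd

variable {W : Subgroup G} {f : Rep.{0} k G → ℤ} (hf : SubAdd W f)

include hf

lemma zero (Z : Rep.{0} k G) [Subsingleton Z] : f Z = 0 := by
  have h := hf.split (𝟙 Z) (𝟙 Z) (goodW_of_subsingleton W Z) (goodW_of_subsingleton W Z)
    (goodW_of_subsingleton W Z)
    ⟨fun _ _ _ => Subsingleton.elim _ _, fun x => ⟨x, Subsingleton.elim _ _⟩,
      fun x => ⟨fun _ => ⟨x, Subsingleton.elim _ _⟩, fun _ => Subsingleton.elim _ _⟩⟩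
    ⟨𝟙 Z, fun _ => Subsingleton.elim _ _⟩
  omega

lemma iso {X Y : Rep.{0} k G} (e : X ⟶ Y) (he : Function.Bijective e.hom) (hX : GoodW W X)
    (hY : GoodW W Y) : f X = f Y := by
  have h := hf.split e (0 : Y ⟶ zeroRep) hX hY (goodW_of_subsingleton W _)
    ⟨he.1, fun x => ⟨0, Subsingleton.elim _ _⟩,
      fun x => ⟨fun _ => he.2 x, fun _ => Subsingleton.elim _ _⟩⟩
    ⟨0, fun _ => Subsingleton.elim _ _⟩
  have h0 : f (zeroRep : Rep.{0} k G) = 0 := hf.zero _
  omega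

variable (p : ℕ) [Fact p.Prime] [CharP k p] [Finite k] [W.Normal] {H : Subgroup G} [H.FiniteIndex]

/-- (D2) for the sub-representations `(tw H X)_B`. -/
theorem twB_le (hWH : W ≤ H) (hp : ∀ h ∈ H, ∃ n : ℕ, h ^ p ^ n ∈ W) {X : Rep.{0} k G}
    (hX : GoodW W X) (B : Submodule k X) (stable : ∀ h ∈ H, ∀ b ∈ B, X.ρ h b ∈ B) :
    f (twB H X B) ≤ finrank k B * f (perm H) := by
  refine twB_induction p hWH hp hX (fun Y n => f Y ≤ n * f (perm H)) (fun Z _ => ?_) ?_ B stable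
  · rw [hf.zero Z]; simp
  · intro Y' Y i q n hY' hY hs _ ih
    have := hf.sub i q hY' hY (goodW_perm hWH) hs
    push_cast
    linarith

/-- **(D2)** `f (Ind_H Res_H X) ≤ dim X * f (k[G/H])` when `H / W` is a `p`-group. -/
theorem tw_le (hWH : W ≤ H) (hp : ∀ h ∈ H, ∃ n : ℕ, h ^ p ^ n ∈ W) {X : Rep.{0} k G}
    (hX : GoodW W X) : f (tw H X) ≤ finrank k X * f (perm H) := by
  have h1 := hf.twB_le p hWH hp hX ⊤ (fun _ _ _ _ => Submodule.mem_top)
  rw [finrank_top] at h1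
  rwa [hf.iso (twVal H X ⊤) (twVal_top_bijective H X) (goodW_twB hWH hX _) (goodW_tw hWH hX)] at h1

/-- (D2') if `H` acts trivially on `X` then `tw H X` is a direct sum of copies of `perm H`. -/
theorem tw_eq_of_trivOn (hWH : W ≤ H) (hp : ∀ h ∈ H, ∃ n : ℕ, h ^ p ^ n ∈ W) {X : Rep.{0} k G}
    (hX : GoodW W X) (ht : TrivOn H X) : f (tw H X) = finrank k X * f (perm H) := by
  have h1 : f (twB H X ⊤) = finrank k (⊤ : Submodule k X) * f (perm H) := by
    refine twB_induction p hWH hp hX (fun Y n => f Y = n * f (perm H)) (fun Z _ => ?_) ?_ ⊤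
      (fun _ _ _ _ => Submodule.mem_top)
    · rw [hf.zero Z]; simp
    · intro Y' Y i q n hY' hY hs hsec ih
      have := hf.split i q hY' hY (goodW_perm hWH) hs (hsec ht)
      push_cast
      linarith
  rw [finrank_top] at h1
  rwa [hf.iso (twVal H X ⊤) (twVal_top_bijective H X) (goodW_twB hWH hX _) (goodW_tw hWH hX)] at h1

include p in
/-- `tw W Y` is free when `W` acts trivially on `Y`. -/
theorem tw_self_eq [W.FiniteIndex] {Y : Rep.{0} k G} (hY : GoodW W Y) :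
    f (tw W Y) = finrank k Y * f (perm W) :=
  hf.tw_eq_of_trivOn p le_rfl (fun h hh => ⟨0, by simpa using hh⟩) hY hY.2

/-- **(D5)** `[G:H] f (k[G/W]) ≤ [G:W] f (k[G/H])`, i.e. `f (k[G/W]) ≤ [H:W] f (k[G/H])`. -/
theorem perm_le [W.FiniteIndex] (hWH : W ≤ H) (hp : ∀ h ∈ H, ∃ n : ℕ, h ^ p ^ n ∈ W) :
    (H.index : ℤ) * f (perm W) ≤ (W.index : ℤ) * f (perm H) := by
  have h1 := hf.tw_le p hWH hp (goodW_perm (k := k) (le_refl W))
  have h2 := hf.tw_self_eq p (goodW_perm (k := k) hWH)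
  have h3 := hf.iso (twSwap H W (Rep.trivial k G k)) (twSwap_bijective _ _ _)
    (goodW_tw hWH (goodW_perm le_rfl)) (goodW_tw le_rfl (goodW_perm hWH))
  rw [finrank_perm] at h1 h2
  rw [← h2, ← h3]
  exact h1

/-- **(D3) = Lemma S.** -/
theorem tw_eq [W.FiniteIndex] (hWH : W ≤ H) (hp : ∀ h ∈ H, ∃ n : ℕ, h ^ p ^ n ∈ W)
    (hnum : (H.index : ℤ) * f (perm W) = (W.index : ℤ) * f (perm H)) {X : Rep.{0} k G}
    (hX : GoodW W X) : f (tw H X) = finrank k X * f (perm H) := by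
  have := hX.1
  refine le_antisymm (hf.tw_le p hWH hp hX) ?_
  -- the cover `tw W X → X`
  have hs := isSES_ker (twSum W X) (twSum_surjective W X)
  have hWX : GoodW W (tw W X) := goodW_tw le_rfl hX
  have hR : GoodW W (kerRep (twSum W X)) := goodW_ker _ hWX
  have := hWX.1
  have h1 := hf.sub _ _ (goodW_tw hWH hR) (goodW_tw hWH hWX) (goodW_tw hWH hX) (hs.tw H)
  have h2 := hf.tw_le p hWH hp hR
  have h3 := hf.iso (twSwap H W X) (twSwap_bijective _ _ _) (goodW_tw hWH hWX)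
    (goodW_tw le_rfl (goodW_tw hWH hX))
  have h4 := hf.tw_self_eq p (goodW_tw hWH hX)
  have h5 := finrank_ker_add (twSum W X) (twSum_surjective W X)
  rw [finrank_tw] at h4 h5
  have h6 : (finrank k (kerRep (twSum W X)) : ℤ) = W.index * finrank k X - finrank k X := by
    have : (finrank k (kerRep (twSum W X)) : ℤ) + finrank k X = W.index * finrank k X := by
      exact_mod_cast h5
    linarith
  rw [h6] at h2
  rw [h3, h4] at h1
  push_cast at h1
  have h7 : (H.index : ℤ) * (finrank k X : ℤ) * f (perm W)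
      = (finrank k X : ℤ) * ((W.index : ℤ) * f (perm H)) := by
    rw [← hnum]; ring
  rw [h7] at h1
  linarith

/-- **(D4) = Claim 4.** -/
theorem eq_zero_of_nonneg (hWH : W ≤ H) (hp : ∀ h ∈ H, ∃ n : ℕ, h ^ p ^ n ∈ W)
    (hH : (H.index : k) ≠ 0) (hpos : ∀ X : Rep.{0} k G, GoodW W X → 0 ≤ f X)
    (hperm : f (perm H) ≤ 0) {X : Rep.{0} k G} (hX : GoodW W X) : f X = 0 := by
  have hsurj : Function.Surjective (twAvg H X).hom := fun x => ⟨_, twAvg_twConst H hH X x⟩
  have h1 := hf.split _ _ (goodW_ker _ (goodW_tw hWH hX)) (goodW_tw hWH hX) hX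
    (isSES_ker (twAvg H X) hsurj) ⟨twConst H X, twAvg_twConst H hH X⟩
  have h2 := hf.tw_le p hWH hp hX
  have h3 := hpos _ (goodW_ker (twAvg H X) (goodW_tw hWH hX))
  have h4 := hpos _ hX
  have h5 : (finrank k X : ℤ) * f (perm H) ≤ 0 :=
    mul_nonpos_of_nonneg_of_nonpos (by positivity) hperm
  linarith

end SubAdd

/-- **(D1)** closure principle: a property which is closed under extensions and retracts and holds
for `perm H` holds for all good modules. -/
theorem closure_principle (p : ℕ) [Fact p.Prime] [CharP k p] [Finite k] {W H : Subgroup G}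
    [W.Normal] [H.FiniteIndex] (hWH : W ≤ H) (hp : ∀ h ∈ H, ∃ n : ℕ, h ^ p ^ n ∈ W)
    (hH : (H.index : k) ≠ 0) (P : Rep.{0} k G → Prop)
    (h0 : ∀ Z : Rep.{0} k G, Subsingleton Z → P Z)
    (hext : ∀ {X₁ X₂ X₃ : Rep.{0} k G} (i : X₁ ⟶ X₂) (q : X₂ ⟶ X₃), GoodW W X₁ → GoodW W X₂ →
      GoodW W X₃ → IsSES i q → P X₁ → P X₃ → P X₂)
    (hret : ∀ {X Y : Rep.{0} k G} (i : X ⟶ Y) (r : Y ⟶ X), GoodW W X → GoodW W Y →
      (∀ x, r.hom (i.hom x) = x) → P Y → P X)
    (hperm : P (perm H)) {X : Rep.{0} k G} (hX : GoodW W X) : P X := by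
  have h1 : P (twB H X ⊤) :=
    twB_induction p hWH hp hX (fun Y _ => P Y) h0
      (fun Y' Y i q _ hY' hY hs _ ih => hext i q hY' hY (goodW_perm hWH) hs ih hperm) ⊤
      (fun _ _ _ _ => Submodule.mem_top)
  have h2 : P (tw H X) :=
    hext (twVal H X ⊤) (0 : tw H X ⟶ zeroRep) (goodW_twB hWH hX _) (goodW_tw hWH hX)
      (goodW_of_subsingleton W _)
      ⟨(twVal_top_bijective H X).1, fun x => ⟨0, Subsingleton.elim _ _⟩,
        fun x => ⟨fun _ => (twVal_top_bijective H X).2 x, fun _ => Subsingleton.elim _ _⟩⟩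
      h1 (h0 _ inferInstance)
  exact hret (twConst H X) (twAvg H X) hX (goodW_tw hWH hX) (twAvg_twConst H hH X) h2

end Fermat.Agent.CFT.Pos

end
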