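/-
CFT / POS : definitions for the formal core (positivity route, reports 602, 651; target
`Top.Stmt_PT2`), on top of helper62's framework `Top/*` and helper78's `Pos/Dev.lean`.
-/
import Fermat.Agent.CFT.Top.Inputs2
import Fermat.Agent.CFT.Top.SCb
import Fermat.Agent.CFT.Top.DeltaNat
import Fermat.Agent.CFT.Top.Pi
import Fermat.Agent.CFT.Pos.Dev
import Fermat.Agent.CFT.Pos.Claims

set_option autoImplicit false

noncomputable section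

namespace Fermat.Agent.CFT.Pos

open _root_.Fermat.Agent.CFT.Top _root_.Fermat.Agent.CFT.Top.Cpx Module CategoryTheory

section Complexes

variable {k : Type} [Field k]

/-- `H⁰, H¹, H²` of a complex are finite dimensional. -/
def CFD (C : Cpx k) : Prop := ∀ n, n ≤ 2 → Module.Finite k (C.H n)

/-- the truncated Euler characteristic `h⁰ - h¹ + h²` of a complex. -/
def cchi (C : Cpx k) : ℤ :=
  (finrank k (C.H 0) : ℤ) - finrank k (C.H 1) + finrank k (C.H 2)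

end Complexes

section OneGroup

variable {k : Type} [Field k] {G : Type} [Group G] (𝒰 : LevelSys G)

/-- finite dimensional modules on which some level acts trivially. -/
def Good (X : Rep.{0} k G) : Prop := Module.Finite k X ∧ IsTrivOn 𝒰 X

/-- `H⁰, H¹, H²` are finite dimensional. -/
abbrev FD (X : Rep.{0} k G) : Prop := CFD (lcCpx 𝒰 X)

/-- `dim Hⁿ`. -/
abbrev hd (X : Rep.{0} k G) (n : ℕ) : ℕ := finrank k (Hlc 𝒰 X n)

/-- the truncated Euler characteristic `h⁰ - h¹ + h²`. -/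
abbrev chi (X : Rep.{0} k G) : ℤ := cchi (lcCpx 𝒰 X)

/-- the map induced on `Hⁿ` by a morphism. -/
abbrev HM {X Y : Rep.{0} k G} (f : X ⟶ Y) (n : ℕ) : Hlc 𝒰 X n →ₗ[k] Hlc 𝒰 Y n :=
  (lcCoeff 𝒰 f).mapH n

/-- the connecting homomorphism of a pair of morphisms. -/
abbrev dl {X₁ X₂ X₃ : Rep.{0} k G} (i : X₁ ⟶ X₂) (q : X₂ ⟶ X₃) (n : ℕ) :
    Hlc 𝒰 X₃ n →ₗ[k] Hlc 𝒰 X₁ (n + 1) :=
  Cpx.delta (lcCoeff 𝒰 i) (lcCoeff 𝒰 q) n

/-- the space of equivariant linear maps. -/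
def EqHom (X Y : Rep.{0} k G) : Submodule k (X →ₗ[k] Y) where
  carrier := {e | ∀ (g : G) (x : X), e (X.ρ g x) = Y.ρ g (e x)}
  add_mem' := by
    intro e e' he he' g x
    simp only [LinearMap.add_apply, map_add, he g x, he' g x]
  zero_mem' := by
    intro g x
    simp
  smul_mem' := by
    intro a e he g x
    simp only [LinearMap.smul_apply, map_smul, he g x]

lemma mem_EqHom {X Y : Rep.{0} k G} {e : X →ₗ[k] Y} :
    e ∈ EqHom X Y ↔ ∀ (g : G) (x : X), e (X.ρ g x) = Y.ρ g (e x) := Iff.rfl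

/-- a morphism as an equivariant linear map. -/
def toEq {X Y : Rep.{0} k G} (f : X ⟶ Y) : EqHom X Y :=
  ⟨f.hom.toLinearMap, fun g x => Rep.hom_comm_apply f g x⟩

/-- an equivariant linear map as a morphism. -/
def ofEq {X Y : Rep.{0} k G} (e : EqHom X Y) : X ⟶ Y :=
  Rep.ofHom ⟨e.1, fun g => LinearMap.ext fun x => e.2 g x⟩

/-- the map induced on `Hⁿ` by an equivariant linear map. -/
abbrev HE {X Y : Rep.{0} k G} (e : EqHom X Y) (n : ℕ) : Hlc 𝒰 X n →ₗ[k] Hlc 𝒰 Y n :=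
  (lcLin 𝒰 e.1 e.2).mapH n

lemma HE_toEq {X Y : Rep.{0} k G} (f : X ⟶ Y) (n : ℕ) : HE 𝒰 (toEq f) n = HM 𝒰 f n := rfl

lemma HE_add {X Y : Rep.{0} k G} (e e' : EqHom X Y) (n : ℕ) (z : Hlc 𝒰 X n) :
    HE 𝒰 (e + e') n z = HE 𝒰 e n z + HE 𝒰 e' n z := by
  obtain ⟨c, rfl⟩ := (lcCpx 𝒰 X).cls_surjective n z
  rfl

lemma HE_smul {X Y : Rep.{0} k G} (a : k) (e : EqHom X Y) (n : ℕ) (z : Hlc 𝒰 X n) :
    HE 𝒰 (a • e) n z = a • HE 𝒰 e n z := by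
  obtain ⟨c, rfl⟩ := (lcCpx 𝒰 X).cls_surjective n z
  rfl

/-- the tautological pairing `Hⁿ(Y) × Hom_G(Y, M) → Hⁿ(M)`, `(z, e) ↦ e_* z`. -/
def pairE (Y M : Rep.{0} k G) (n : ℕ) : Hlc 𝒰 Y n →ₗ[k] EqHom Y M →ₗ[k] Hlc 𝒰 M n :=
  LinearMap.mk₂ k (fun z e => HE 𝒰 e n z)
    (fun _ _ _ => map_add _ _ _) (fun _ _ _ => map_smul _ _ _)
    (fun z e e' => HE_add 𝒰 e e' n z) (fun a z e => HE_smul 𝒰 a e n z)

lemma pairE_apply (Y M : Rep.{0} k G) (n : ℕ) (z : Hlc 𝒰 Y n) (e : EqHom Y M) :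
    pairE 𝒰 Y M n z e = HE 𝒰 e n z := rfl

/-- the value in `X` of a class in `H⁰`. -/
def val0 (X : Rep.{0} k G) : Hlc 𝒰 X 0 →ₗ[k] X :=
  X.ρ.invariants.subtype ∘ₗ (H0Equiv 𝒰 X).symm.toLinearMap

lemma val0_cls0 (X : Rep.{0} k G) (m : X.ρ.invariants) : val0 𝒰 X (cls0 𝒰 X m) = m.1 := by
  have : (H0Equiv 𝒰 X).symm (cls0 𝒰 X m) = m := (H0Equiv 𝒰 X).symm_apply_apply m
  show ((H0Equiv 𝒰 X).symm (cls0 𝒰 X m)).1 = m.1
  rw [this]

/-- the value of a class in `H⁰` is invariant. -/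
lemma val0_invariant (X : Rep.{0} k G) (η : Hlc 𝒰 X 0) (g : G) :
    X.ρ g (val0 𝒰 X η) = val0 𝒰 X η := ((H0Equiv 𝒰 X).symm η).2 g

lemma val0_injective (X : Rep.{0} k G) : Function.Injective (val0 𝒰 X) :=
  Subtype.val_injective.comp (H0Equiv 𝒰 X).symm.injective

/-- an equivariant bilinear map `Y' × Y → M`. -/
def IsEquivar₂ (Y' Y M : Rep.{0} k G) (β : Y' →ₗ[k] Y →ₗ[k] M) : Prop :=
  ∀ g y' y, β (Y'.ρ g y') (Y.ρ g y) = M.ρ g (β y' y)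

/-- `H⁰(Y') → Hom_G(Y, M)` attached to an equivariant bilinear map `β : Y' × Y → M`. -/
def h0ToEq {Y' Y M : Rep.{0} k G} (β : Y' →ₗ[k] Y →ₗ[k] M) (hβ : IsEquivar₂ Y' Y M β) :
    Hlc 𝒰 Y' 0 →ₗ[k] EqHom Y M :=
  LinearMap.codRestrict _ (β ∘ₗ val0 𝒰 Y') (fun η g y => by
    have := hβ g (val0 𝒰 Y' η) y
    rwa [val0_invariant] at this)

/-- the pairing `Hⁿ(Y) × H⁰(Y') → Hⁿ(M)`, `(z, η) ↦ (β η)_* z`, attached to an equivariant bilinear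
map `β : Y' × Y → M`. -/
def pairB {Y' Y M : Rep.{0} k G} (β : Y' →ₗ[k] Y →ₗ[k] M) (hβ : IsEquivar₂ Y' Y M β)
    (n : ℕ) : Hlc 𝒰 Y n →ₗ[k] Hlc 𝒰 Y' 0 →ₗ[k] Hlc 𝒰 M n :=
  (pairE 𝒰 Y M n).compl₂ (h0ToEq 𝒰 β hβ)

lemma pairB_apply {Y' Y M : Rep.{0} k G} (β : Y' →ₗ[k] Y →ₗ[k] M)
    (hβ : IsEquivar₂ Y' Y M β) (n : ℕ) (z : Hlc 𝒰 Y n) (η : Hlc 𝒰 Y' 0) :
    pairB 𝒰 β hβ n z η = HE 𝒰 (h0ToEq 𝒰 β hβ η) n z := rfl

end OneGroup

section Dual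

variable {k : Type} [Field k] {G : Type} [Group G] (χ : G →* kˣ)

/-- the transpose of a morphism, `Y† ⟶ X†`. -/
def dag {X Y : Rep.{0} k G} (f : X ⟶ Y) : Y.dualTwist χ ⟶ X.dualTwist χ :=
  Rep.ofHom ⟨(f.hom.toLinearMap.dualMap : Module.Dual k Y →ₗ[k] Module.Dual k X), fun g => by
    apply LinearMap.ext
    intro e
    apply LinearMap.ext
    intro x
    show ((χ g : k) • ((e : Module.Dual k Y) ∘ₗ Y.ρ g⁻¹)) (f.hom x)
      = ((χ g : k) • (((e : Module.Dual k Y) ∘ₗ f.hom.toLinearMap) ∘ₗ X.ρ g⁻¹)) x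
    simp only [LinearMap.smul_apply, LinearMap.comp_apply]
    congr 2
    exact (Rep.hom_comm_apply f g⁻¹ x).symm⟩

lemma dag_apply {X Y : Rep.{0} k G} (f : X ⟶ Y) (e : Y.dualTwist χ) (x : X) :
    ((dag χ f).hom e : Module.Dual k X) x = (e : Module.Dual k Y) (f.hom x) := rfl

/-- the evaluation pairing `X† × X → μ`. -/
def evB (X : Rep.{0} k G) : X.dualTwist χ →ₗ[k] X →ₗ[k] muRep k χ :=
  (LinearMap.id : Module.Dual k X →ₗ[k] Module.Dual k X)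

lemma evB_equivar (X : Rep.{0} k G) : IsEquivar₂ (X.dualTwist χ) X (muRep k χ) (evB χ X) := by
  intro g e x
  show ((χ g : k) • ((e : Module.Dual k X) ∘ₗ X.ρ g⁻¹)) (X.ρ g x)
    = (χ g : k) • (e : Module.Dual k X) x
  have h : X.ρ g⁻¹ (X.ρ g x) = x := by
    rw [← Module.End.mul_apply, ← map_mul, inv_mul_cancel, map_one, Module.End.one_apply]
  simp only [LinearMap.smul_apply, LinearMap.comp_apply, h]

/-- the canonical map `X ⟶ X††`. -/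
def ddag (X : Rep.{0} k G) : X ⟶ (X.dualTwist χ).dualTwist χ :=
  Rep.ofHom ⟨(Module.Dual.eval k X : X →ₗ[k] Module.Dual k (Module.Dual k X)), fun g => by
    apply LinearMap.ext
    intro x
    apply LinearMap.ext
    intro e
    show (e : Module.Dual k X) (X.ρ g x)
      = (χ g : k) • ((χ g⁻¹ : k) • ((e : Module.Dual k X) ∘ₗ X.ρ g⁻¹⁻¹)) x
    simp only [LinearMap.smul_apply, LinearMap.comp_apply, inv_inv, smul_smul, map_inv]
    simp⟩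

end Dual

section DatumLevel

variable {p : ℕ} [Fact p.Prime] (D : Datum p)

/-- the Tate dual `X† = X^*(χ)`. -/
abbrev dg (X : Rep.{0} (ZMod p) D.G) : Rep.{0} (ZMod p) D.G := X.dualTwist D.χ

/-- `Pⁿ(X) = Hⁿ` of the product of the local complexes. -/
abbrev Pl (X : Rep.{0} (ZMod p) D.G) (n : ℕ) : Type := (D.locCpx X).H n

/-- localisation `Hⁿ(G,X) → Pⁿ(X)`. -/
abbrev locH (X : Rep.{0} (ZMod p) D.G) (n : ℕ) : Hlc D.𝒰 X n →ₗ[ZMod p] Pl D X n :=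
  (D.loc X).mapH n

/-- the component at `v` of a class in `Pⁿ(X)`. -/
abbrev prV (X : Rep.{0} (ZMod p) D.G) (v : D.ι) (n : ℕ) :
    Pl D X n →ₗ[ZMod p] (D.locCpxAt X v).H n :=
  (piProj (fun v => D.locCpxAt X v) v).mapH n

/-- the map of local complexes at `v` induced by a morphism. -/
abbrev Vmap {X Y : Rep.{0} (ZMod p) D.G} (f : X ⟶ Y) (v : D.ι) :
    Hom (D.locCpxAt X v) (D.locCpxAt Y v) :=
  lcCoeff (D.𝒰v v) (Rep.resMap (D.φ v) f)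

/-- the map induced on the products of the local complexes by a morphism. -/
def Pmap {X Y : Rep.{0} (ZMod p) D.G} (f : X ⟶ Y) : Hom (D.locCpx X) (D.locCpx Y) :=
  piLift fun v => (piProj (fun v => D.locCpxAt X v) v).comp (Vmap D f v)

/-- the map induced on `Pⁿ` by a morphism. -/
abbrev PM {X Y : Rep.{0} (ZMod p) D.G} (f : X ⟶ Y) (n : ℕ) : Pl D X n →ₗ[ZMod p] Pl D Y n :=
  (Pmap D f).mapH n

/-- the connecting homomorphism on `Pⁿ`. -/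
abbrev Pdl {X₁ X₂ X₃ : Rep.{0} (ZMod p) D.G} (i : X₁ ⟶ X₂) (q : X₂ ⟶ X₃) (n : ℕ) :
    Pl D X₃ n →ₗ[ZMod p] Pl D X₁ (n + 1) :=
  Cpx.delta (Pmap D i) (Pmap D q) n

/-- a family of linear forms on the `H²(G_v, μ)`. -/
abbrev Lam : Type := ∀ v : D.ι, (D.locCpxAt D.mu v).H 2 →ₗ[ZMod p] ZMod p

/-- the local pairing at `v`: `H²(G_v,X) × H⁰(G_v,X†) → H²(G_v,μ)`. -/
def pairV (X : Rep.{0} (ZMod p) D.G) (v : D.ι) :
    (D.locCpxAt X v).H 2 →ₗ[ZMod p] (D.locCpxAt (dg D X) v).H 0 →ₗ[ZMod p]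
      (D.locCpxAt D.mu v).H 2 :=
  pairB (D.𝒰v v) (Y' := Rep.res (D.φ v) (dg D X)) (Y := Rep.res (D.φ v) X)
    (M := Rep.res (D.φ v) D.mu) (evB D.χ X) (fun g e x => evB_equivar D.χ X (D.φ v g) e x) 2

/-- the sum of the local pairings `P²(X) × P⁰(X†) → 𝔽_p`. -/
def pairD (lam : Lam D) (X : Rep.{0} (ZMod p) D.G) :
    Pl D X 2 →ₗ[ZMod p] Pl D (dg D X) 0 →ₗ[ZMod p] ZMod p :=
  ∑ v : D.ι, ((pairV D X v).compr₂ (lam v)).compl₁₂ (prV D X v 2) (prV D (dg D X) v 0)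

lemma pairD_apply (lam : Lam D) (X : Rep.{0} (ZMod p) D.G) (z : Pl D X 2)
    (η : Pl D (dg D X) 0) :
    pairD D lam X z η = ∑ v : D.ι, lam v (pairV D X v (prV D X v 2 z) (prV D (dg D X) v 0 η)) := by
  simp [pairD, LinearMap.sum_apply]

/-- the local truncated Euler characteristic. -/
abbrev chiLoc (X : Rep.{0} (ZMod p) D.G) : ℤ := cchi (D.locCpx X)

/-- `φ(X) = χ(X) + χ(X†) - χ_loc(X)`. -/
def phi (X : Rep.{0} (ZMod p) D.G) : ℤ := chi D.𝒰 X + chi D.𝒰 (dg D X) - chiLoc D X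

/-- a level on which `χ` is trivial. -/
def GoodLevel (W : Subgroup D.G) : Prop := W ∈ D.𝒰.S ∧ ∀ w ∈ W, D.χ w = 1

end DatumLevel

end Fermat.Agent.CFT.Pos

end
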