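/-
CFT / POS : INTERFACE of the formal core (positivity route).  Target: `Top.Stmt_PT2`.

Every `Stmt_xxx` below is one work package: prove `theorem stmt_xxx : (deps →) Stmt_xxx` in the
file named in the task.  Vocabulary: `Pos/Defs.lean` (HM, dl, EqHom, pairE, pairB, dag, ddag, Pl,
locH, PM, Pdl, pairD, phi, ...), `Pos/Dev.lean` (helper78: IsSES, GoodW, tw, perm, twSum, twConst,
twAvg, kerRep, SubAdd, closure_principle, ...), `Top/*` (helper62).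
NB `perm H = permRep k H` and `tw W A = mapRep (G ⧸ W) A` hold by `rfl`.
-/
import Fermat.Agent.CFT.Pos.Defs
import Fermat.Agent.CFT.Top.Tool

set_option autoImplicit false

noncomputable section

namespace Fermat.Agent.CFT.Pos

open _root_.Fermat.Agent.CFT.Top _root_.Fermat.Agent.CFT.Top.Cpx Module CategoryTheory

/-! ## Block A : complexes -/

/-- A1. Euler characteristic of a short exact sequence of complexes, truncated in degree 2: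
`χ(A) + χ(C) - χ(B) = dim coker (H²(B) → H²(C))`.  [9-term exact sequence `Top.stmt_les`.] -/
def Stmt_euler : Prop :=
  ∀ (k : Type) [Field k] (A B C : Cpx k) (i : Hom A B) (q : Hom B C), Cpx.IsSES i q →
    CFD A → CFD B → CFD C →
    cchi A + cchi C - cchi B
      = (finrank k (C.H 2) : ℤ) - finrank k (LinearMap.range (q.mapH 2))

/-- A2. finiteness passes to the middle term. -/
def Stmt_fdExt : Prop :=
  ∀ (k : Type) [Field k] (A B C : Cpx k) (i : Hom A B) (q : Hom B C), Cpx.IsSES i q →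
    ∀ n, Module.Finite k (A.H n) → Module.Finite k (C.H n) → Module.Finite k (B.H n)

/-- cohomology of a product, as a linear equivalence. -/
def piHEquiv {k : Type} [Field k] {ι : Type} (C : ι → Cpx k) (n : ℕ) :
    (pi C).H n ≃ₗ[k] ∀ v, (C v).H n :=
  LinearEquiv.ofBijective (LinearMap.pi fun v => (piProj C v).mapH n) (stmt_piH k ι C n)

lemma piHEquiv_apply {k : Type} [Field k] {ι : Type} (C : ι → Cpx k) (n : ℕ) (x : (pi C).H n)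
    (v : ι) : piHEquiv C n x v = (piProj C v).mapH n x := rfl

/-- A3. finite products: finiteness and dimension. -/
def Stmt_fdPi : Prop :=
  ∀ (k : Type) [Field k] (ι : Type) [Fintype ι] (C : ι → Cpx k) (n : ℕ),
    (∀ v, Module.Finite k ((C v).H n)) →
    Module.Finite k ((pi C).H n) ∧ finrank k ((pi C).H n) = ∑ v, finrank k ((C v).H n)

/-! ## Block B : one group -/

/-- B1. short exact sequences of modules give short exact sequences of complexes.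
[`lcCoeff_isSES`.] -/
def Stmt_ses : Prop :=
  ∀ (k : Type) [Field k] (G : Type) [Group G] (𝒰 : LevelSys G) (X₁ X₂ X₃ : Rep.{0} k G)
    (i : X₁ ⟶ X₂) (q : X₂ ⟶ X₃), IsSES i q → IsDisc 𝒰 X₂ →
    Cpx.IsSES (lcCoeff 𝒰 i) (lcCoeff 𝒰 q)

/-- B2. functoriality of `HM`, in pointwise form. -/
def Stmt_HMfun : Prop :=
  ∀ (k : Type) [Field k] (G : Type) [Group G] (𝒰 : LevelSys G) (n : ℕ),
    (∀ (X : Rep.{0} k G) (f : X ⟶ X), (∀ x, f.hom x = x) → ∀ z, HM 𝒰 f n z = z) ∧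
    (∀ (X Y Z : Rep.{0} k G) (f : X ⟶ Y) (g : Y ⟶ Z) (h : X ⟶ Z),
      (∀ x, h.hom x = g.hom (f.hom x)) → ∀ z, HM 𝒰 h n z = HM 𝒰 g n (HM 𝒰 f n z)) ∧
    (∀ (X Y : Rep.{0} k G) (f g h : X ⟶ Y),
      (∀ x, h.hom x = f.hom x + g.hom x) → ∀ z, HM 𝒰 h n z = HM 𝒰 f n z + HM 𝒰 g n z) ∧
    (∀ (X Y : Rep.{0} k G) (f : X ⟶ Y), (∀ x, f.hom x = 0) → ∀ z, HM 𝒰 f n z = 0)

/-- B3. a bijective morphism has an inverse morphism. -/
def Stmt_inv : Prop :=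
  ∀ (k : Type) [Field k] (G : Type) [Group G] (X Y : Rep.{0} k G) (e : X ⟶ Y),
    Function.Bijective e.hom →
    ∃ e' : Y ⟶ X, (∀ x, e'.hom (e.hom x) = x) ∧ (∀ y, e.hom (e'.hom y) = y)

/-- B4. Sylow: above a normal subgroup `W` of finite index there is `H` with `H/W` a `p`-group and
`[G:H]` prime to `p`. -/
def Stmt_sylow : Prop :=
  ∀ (p : ℕ) [Fact p.Prime] (G : Type) [Group G] (W : Subgroup G) [W.Normal] [W.FiniteIndex],
    ∃ H : Subgroup G, W ≤ H ∧ H.FiniteIndex ∧ (∀ h ∈ H, ∃ n : ℕ, h ^ p ^ n ∈ W) ∧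
      ((H.index : ZMod p) ≠ 0)

/-- B4'. a character with values in `𝔽_pˣ` which is trivial on `W` is trivial on `H` if `H/W` is a
`p`-group. -/
def Stmt_charTriv : Prop :=
  ∀ (p : ℕ) [Fact p.Prime] (G : Type) [Group G] (χ : G →* (ZMod p)ˣ) (W H : Subgroup G),
    (∀ w ∈ W, χ w = 1) → (∀ h ∈ H, ∃ n : ℕ, h ^ p ^ n ∈ W) → ∀ h ∈ H, χ h = 1

/-- B5. finiteness of `H⁰,H¹,H²` of all good modules from the permutation modules.
[`closure_principle` with `P = FD`, B4, B4', A2, B1, retracts by B2, `H0Equiv`.] -/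
def Stmt_fdAll : Prop :=
  ∀ (p : ℕ) [Fact p.Prime] (G : Type) [Group G] (𝒰 : LevelSys G) (χ : G →* (ZMod p)ˣ),
    (∃ U ∈ 𝒰.S, ∀ u ∈ U, χ u = 1) →
    (∀ H : Subgroup G, 𝒰.IsOpen H → (∀ h ∈ H, χ h = 1) →
      Module.Finite (ZMod p) (Hlc 𝒰 (permRep (ZMod p) H) 1) ∧
      Module.Finite (ZMod p) (Hlc 𝒰 (permRep (ZMod p) H) 2)) →
    ∀ X : Rep.{0} (ZMod p) G, Good 𝒰 X → FD 𝒰 X

/-- B6. `χ` is subadditive.  [A1, B1; split case: `H²(q)` is onto by B2.] -/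
def Stmt_subAddChi : Prop :=
  ∀ (k : Type) [Field k] (G : Type) [Group G] (𝒰 : LevelSys G) (W : Subgroup G), W ∈ 𝒰.S →
    (∀ X : Rep.{0} k G, GoodW W X → FD 𝒰 X) → SubAdd W (chi (k := k) 𝒰)

/-- B7. RIGHT EXACTNESS OF `H²` FROM NUMERICS (Lemma S).  [`SubAdd.tw_eq` for `ker q, X₂, X₃` and A1
for `tw H` of the sequence show that `H²(tw H q)` is onto; then `z = avg_* (lift (const_* z))`,
`twAvg_twMap`, `twAvg_twConst`.] -/
def Stmt_rightExact : Prop :=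
  ∀ (p : ℕ) [Fact p.Prime] (G : Type) [Group G] (𝒰 : LevelSys G)
    (W H : Subgroup G) [W.Normal] [W.FiniteIndex] [H.FiniteIndex], W ∈ 𝒰.S → W ≤ H →
    (∀ h ∈ H, ∃ n : ℕ, h ^ p ^ n ∈ W) → ((H.index : ZMod p) ≠ 0) →
    (∀ X : Rep.{0} (ZMod p) G, GoodW W X → FD 𝒰 X) →
    (H.index : ℤ) * chi 𝒰 (perm W : Rep.{0} (ZMod p) G)
      = (W.index : ℤ) * chi 𝒰 (perm H : Rep.{0} (ZMod p) G) →
    ∀ (X₂ X₃ : Rep.{0} (ZMod p) G) (q : X₂ ⟶ X₃), GoodW W X₂ → GoodW W X₃ →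
      Function.Surjective q.hom → Function.Surjective (HM 𝒰 q 2)

/-- B8. closure under split extensions: `tw W X` is built from copies of `perm W` when `W` acts
trivially on `X`.  The splitting is given with all its maps.  [`twB_induction` with `H = W`.] -/
def Stmt_splitClosure : Prop :=
  ∀ (p : ℕ) [Fact p.Prime] (G : Type) [Group G] (W : Subgroup G) [W.Normal] [W.FiniteIndex]
    (P : Rep.{0} (ZMod p) G → Prop),
    (∀ Z : Rep.{0} (ZMod p) G, Subsingleton Z → P Z) →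
    (∀ (X₁ X₂ X₃ : Rep.{0} (ZMod p) G) (i : X₁ ⟶ X₂) (q : X₂ ⟶ X₃) (s : X₃ ⟶ X₂) (r : X₂ ⟶ X₁),
      GoodW W X₁ → GoodW W X₂ → GoodW W X₃ → (∀ x, r.hom (i.hom x) = x) →
      (∀ x, q.hom (s.hom x) = x) → (∀ x, i.hom (r.hom x) + s.hom (q.hom x) = x) →
      P X₁ → P X₃ → P X₂) →
    P (perm W) → ∀ X : Rep.{0} (ZMod p) G, GoodW W X → P (tw W X)

/-- B9. `h⁰(perm H) = 1`. -/
def Stmt_h0perm : Prop :=
  ∀ (k : Type) [Field k] (G : Type) [Group G] (𝒰 : LevelSys G) (H : Subgroup G) [H.FiniteIndex],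
    finrank k (Hlc 𝒰 (perm H : Rep.{0} k G) 0) = 1

/-- `M` is one dimensional with action through the character `χ`. -/
def IsMu {k : Type} [Field k] {G : Type} [Group G] (χ : G →* kˣ) (M : Rep.{0} k G) : Prop :=
  finrank k M = 1 ∧ ∀ (g : G) (m : M), M.ρ g m = (χ g : k) • m

/-- B10. `Hom_G(perm H, M) = M^H` is one dimensional and contains a surjection, if `χ|H = 1`.
[`e(F) = ∑_{c = gH} F(c) χ(g) m₀`.] -/
def Stmt_eqHomPerm : Prop :=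
  ∀ (k : Type) [Field k] (G : Type) [Group G] (χ : G →* kˣ) (M : Rep.{0} k G), IsMu χ M →
    ∀ (H : Subgroup G) [H.FiniteIndex], (∀ h ∈ H, χ h = 1) →
    finrank k (EqHom (perm H : Rep.{0} k G) M) = 1 ∧
      ∃ e : EqHom (perm H : Rep.{0} k G) M, Function.Surjective e.1

/-- B11. GENERALISED (D5): `f(perm W) ≤ [H:W] f(perm H)` for `W ◁ H` of `p`-power index, `W` not
necessarily normal in `G`; `W₀ ≤ W` normal in `G`.  [`perm W = Ind_H^G k[H/W] = twB H (perm W) B`,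
`B` = functions supported on `H/W`; filtration as in `twB_le`, with fixed vectors in `B`.] -/
def Stmt_permLe : Prop :=
  ∀ (p : ℕ) [Fact p.Prime] (G : Type) [Group G] (W₀ W H : Subgroup G) [W₀.Normal]
    [W₀.FiniteIndex] (f : Rep.{0} (ZMod p) G → ℤ), SubAdd W₀ f → W₀ ≤ W → W ≤ H →
    (W.subgroupOf H).Normal → (∃ m : ℕ, W.relIndex H = p ^ m) →
    f (perm W) ≤ (W.relIndex H : ℤ) * f (perm H)

/-! ## Block C : local duality for one group -/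

section LocalDuality

variable {k : Type} [Field k] {G : Type} [Group G] (𝒰 : LevelSys G)

/-- `α_Y : H²(Y) → Hom_G(Y, M)^*`, `z ↦ (e ↦ λ(e_* z))`. -/
def alphaE (M : Rep.{0} k G) (lam : Hlc 𝒰 M 2 →ₗ[k] k) (Y : Rep.{0} k G) :
    Hlc 𝒰 Y 2 →ₗ[k] Module.Dual k (EqHom Y M) :=
  (pairE 𝒰 Y M 2).compr₂ lam

lemma alphaE_apply (M : Rep.{0} k G) (lam : Hlc 𝒰 M 2 →ₗ[k] k) (Y : Rep.{0} k G)
    (z : Hlc 𝒰 Y 2) (e : EqHom Y M) : alphaE 𝒰 M lam Y z e = lam (HE 𝒰 e 2 z) := rfl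

/-- local duality for `Y`. -/
def PerfE (M : Rep.{0} k G) (lam : Hlc 𝒰 M 2 →ₗ[k] k) (Y : Rep.{0} k G) : Prop :=
  Function.Bijective (alphaE 𝒰 M lam Y)

/-- `H²` is right exact on good modules. -/
def Rex : Prop :=
  ∀ (X₂ X₃ : Rep.{0} k G) (q : X₂ ⟶ X₃), Good 𝒰 X₂ → Good 𝒰 X₃ →
    Function.Surjective q.hom → Function.Surjective (HM 𝒰 q 2)

end LocalDuality

/-- the numerical hypotheses on a "local" group. -/
structure LocHyp {p : ℕ} [Fact p.Prime] {G : Type} [Group G] (𝒰 : LevelSys G)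
    (χ : G →* (ZMod p)ˣ) : Prop where
  χtriv : ∃ U ∈ 𝒰.S, ∀ u ∈ U, χ u = 1
  num : ∃ ε : ℕ, ∀ H : Subgroup G, 𝒰.IsOpen H → (∀ h ∈ H, χ h = 1) →
    Module.Finite (ZMod p) (Hlc 𝒰 (permRep (ZMod p) H) 1) ∧
    finrank (ZMod p) (Hlc 𝒰 (permRep (ZMod p) H) 1) = 2 + ε * H.index ∧
    Module.Finite (ZMod p) (Hlc 𝒰 (permRep (ZMod p) H) 2) ∧
    finrank (ZMod p) (Hlc 𝒰 (permRep (ZMod p) H) 2) = 1

/-- C0. right exactness of `H²` for a local group.  [B4, B4', B5, B7, B9: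
`χ(perm H) = 1 - (2 + ε [G:H]) + 1`.] -/
def Stmt_locRex : Prop :=
  ∀ (p : ℕ) [Fact p.Prime] (G : Type) [Group G] (𝒰 : LevelSys G) (χ : G →* (ZMod p)ˣ),
    LocHyp 𝒰 χ → Rex (k := ZMod p) 𝒰

/-- C1. duality for `perm U`: both sides have dimension one, and `α ≠ 0` because a surjection
`e : perm U → M` is onto on `H²` and `λ ≠ 0`.  [B10.] -/
def Stmt_LDEperm : Prop :=
  ∀ (k : Type) [Field k] (G : Type) [Group G] (𝒰 : LevelSys G) (χ : G →* kˣ) (M : Rep.{0} k G)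
    (lam : Hlc 𝒰 M 2 →ₗ[k] k), IsMu χ M → lam ≠ 0 → Rex (k := k) 𝒰 →
    ∀ U ∈ 𝒰.S, (∀ u ∈ U, χ u = 1) → finrank k (Hlc 𝒰 (perm U : Rep.{0} k G) 2) = 1 →
      PerfE 𝒰 M lam (perm U)

/-- C2. duality is inherited by direct sums. -/
def Stmt_LDEsplit : Prop :=
  ∀ (k : Type) [Field k] (G : Type) [Group G] (𝒰 : LevelSys G) (M : Rep.{0} k G)
    (lam : Hlc 𝒰 M 2 →ₗ[k] k)
    (X₁ X₂ X₃ : Rep.{0} k G) (i : X₁ ⟶ X₂) (q : X₂ ⟶ X₃) (s : X₃ ⟶ X₂) (r : X₂ ⟶ X₁),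
    (∀ x, r.hom (i.hom x) = x) → (∀ x, q.hom (s.hom x) = x) →
    (∀ x, i.hom (r.hom x) + s.hom (q.hom x) = x) →
    PerfE 𝒰 M lam X₁ → PerfE 𝒰 M lam X₃ → PerfE 𝒰 M lam X₂

/-- C3. DEVISSAGE of local duality.  [`F = tw U Y → Y` (`twSum`), `K` its kernel.  `α_F` bijective
(B8 + C2).  `α` is onto for every good module (`Hom_G(Y,M) ↪ Hom_G(F,M)`).  Injectivity: four lemma
with `H²(K) → H²(F) → H²(Y) → 0` and `0 → Hom_G(Y,M) → Hom_G(F,M) → Hom_G(K,M)`.] -/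
def Stmt_LDE : Prop :=
  ∀ (p : ℕ) [Fact p.Prime] (G : Type) [Group G] (𝒰 : LevelSys G) (M : Rep.{0} (ZMod p) G)
    (lam : Hlc 𝒰 M 2 →ₗ[ZMod p] ZMod p), Rex (k := ZMod p) 𝒰 →
    (∀ U₀ ∈ 𝒰.S, ∃ U ∈ 𝒰.S, U ≤ U₀ ∧ PerfE 𝒰 M lam (perm U)) →
    ∀ Y : Rep.{0} (ZMod p) G, Good 𝒰 Y → PerfE 𝒰 M lam Y

/-- C4. `H⁰(Y') = Hom_G(Y, M)` for a perfect equivariant pairing `β : Y' × Y → M`. -/
def Stmt_bridgeB : Prop :=
  ∀ (k : Type) [Field k] (G : Type) [Group G] (𝒰 : LevelSys G) (Y' Y M : Rep.{0} k G)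
    (β : Y' →ₗ[k] Y →ₗ[k] M) (hβ : IsEquivar₂ Y' Y M β), Function.Bijective β →
    Function.Bijective (h0ToEq 𝒰 β hβ)

/-- C5. local duality in the form of a perfect pairing `H²(Y) × H⁰(Y') → k`.  [C4 + linear
algebra; `Hom_G(Y,M)` is finite dimensional.] -/
def Stmt_LDB : Prop :=
  ∀ (k : Type) [Field k] (G : Type) [Group G] (𝒰 : LevelSys G) (Y' Y M : Rep.{0} k G)
    (β : Y' →ₗ[k] Y →ₗ[k] M) (hβ : IsEquivar₂ Y' Y M β) (lam : Hlc 𝒰 M 2 →ₗ[k] k),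
    Function.Bijective β → Module.Finite k Y → Module.Finite k M → PerfE 𝒰 M lam Y →
    (∀ η : Hlc 𝒰 Y' 0, (∀ z, lam (pairB 𝒰 β hβ 2 z η) = 0) → η = 0) ∧
    (∀ φ : Module.Dual k (Hlc 𝒰 Y 2), ∃ η : Hlc 𝒰 Y' 0, ∀ z, lam (pairB 𝒰 β hβ 2 z η) = φ z)

/-! ## Block D : formal properties over a datum -/

section DatumDefs

variable {p : ℕ} [Fact p.Prime] (D : Datum p)

/-- everything we need from the local theory. -/
structure LocOK (lam : Lam D) : Prop where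
  fd : ∀ X : Rep.{0} (ZMod p) D.G, Good D.𝒰 X → CFD (D.locCpx X)
  rex : ∀ (X₂ X₃ : Rep.{0} (ZMod p) D.G) (q : X₂ ⟶ X₃), Good D.𝒰 X₂ → Good D.𝒰 X₃ →
    Function.Surjective q.hom → Function.Surjective (PM D q 2)
  inj : ∀ X : Rep.{0} (ZMod p) D.G, Good D.𝒰 X →
    ∀ η : Pl D (dg D X) 0, (∀ z, pairD D lam X z η = 0) → η = 0
  surj : ∀ X : Rep.{0} (ZMod p) D.G, Good D.𝒰 X →
    ∀ φ : Module.Dual (ZMod p) (Pl D X 2), ∃ η : Pl D (dg D X) 0, ∀ z, pairD D lam X z η = φ z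

/-- reciprocity for `μ`. -/
def GR0 (lam : Lam D) : Prop :=
  ∀ x : Hlc D.𝒰 D.mu 2, ∑ v, lam v ((lcRes (D.φ v) (D.cont v) D.mu).mapH 2 x) = 0

/-- reciprocity for `X`: the images of `H²(X)` and `H⁰(X†)` are orthogonal. -/
def GR (lam : Lam D) (X : Rep.{0} (ZMod p) D.G) : Prop :=
  ∀ (g : Hlc D.𝒰 X 2) (γ : Hlc D.𝒰 (dg D X) 0),
    pairD D lam X (locH D X 2 g) (locH D (dg D X) 0 γ) = 0

/-- exactness of `H²(X) → P²(X) → H⁰(X†)^*`. -/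
def GE (lam : Lam D) (X : Rep.{0} (ZMod p) D.G) : Prop :=
  ∀ z : Pl D X 2, (∀ γ : Hlc D.𝒰 (dg D X) 0, pairD D lam X z (locH D (dg D X) 0 γ) = 0) →
    ∃ g, locH D X 2 g = z

/-- the same, seen from the other side. -/
def GE' (lam : Lam D) (X : Rep.{0} (ZMod p) D.G) : Prop :=
  ∀ η : Pl D (dg D X) 0, (∀ g : Hlc D.𝒰 X 2, pairD D lam X (locH D X 2 g) η = 0) →
    ∃ γ, locH D (dg D X) 0 γ = η

/-- the context in which the global arguments take place. -/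
structure Ctx (lam : Lam D) : Prop where
  ne : Nonempty D.ι
  gfd : ∀ X : Rep.{0} (ZMod p) D.G, Good D.𝒰 X → FD D.𝒰 X
  loc : LocOK D lam

end DatumDefs

/-- D1. functoriality of `PM`, in pointwise form. -/
def Stmt_PMfun : Prop :=
  ∀ (p : ℕ) [Fact p.Prime] (D : Datum p) (n : ℕ),
    (∀ (X : Rep.{0} (ZMod p) D.G) (f : X ⟶ X), (∀ x, f.hom x = x) → ∀ z, PM D f n z = z) ∧
    (∀ (X Y Z : Rep.{0} (ZMod p) D.G) (f : X ⟶ Y) (g : Y ⟶ Z) (h : X ⟶ Z),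
      (∀ x, h.hom x = g.hom (f.hom x)) → ∀ z, PM D h n z = PM D g n (PM D f n z)) ∧
    (∀ (X Y : Rep.{0} (ZMod p) D.G) (f g h : X ⟶ Y),
      (∀ x, h.hom x = f.hom x + g.hom x) → ∀ z, PM D h n z = PM D f n z + PM D g n z) ∧
    (∀ (X Y : Rep.{0} (ZMod p) D.G) (f : X ⟶ Y), (∀ x, f.hom x = 0) → ∀ z, PM D f n z = 0)

/-- D2. localisation is natural. -/
def Stmt_locNat : Prop :=
  ∀ (p : ℕ) [Fact p.Prime] (D : Datum p) (X Y : Rep.{0} (ZMod p) D.G) (f : X ⟶ Y) (n : ℕ)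
    (x : Hlc D.𝒰 X n), locH D Y n (HM D.𝒰 f n x) = PM D f n (locH D X n x)

/-- D3. short exact sequences of local complexes.  [B1 at each `v`, `stmt_piSES`.] -/
def Stmt_Pses : Prop :=
  ∀ (p : ℕ) [Fact p.Prime] (D : Datum p) (X₁ X₂ X₃ : Rep.{0} (ZMod p) D.G)
    (i : X₁ ⟶ X₂) (q : X₂ ⟶ X₃), IsSES i q → IsTrivOn D.𝒰 X₂ →
    Cpx.IsSES (Pmap D i) (Pmap D q)

/-- D4. localisation commutes with connecting maps.  [`stmt_deltaNat`, B1, D3.] -/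
def Stmt_locDelta : Prop :=
  ∀ (p : ℕ) [Fact p.Prime] (D : Datum p) (X₁ X₂ X₃ : Rep.{0} (ZMod p) D.G)
    (i : X₁ ⟶ X₂) (q : X₂ ⟶ X₃), IsSES i q → IsTrivOn D.𝒰 X₂ → ∀ (n : ℕ) (x : Hlc D.𝒰 X₃ n),
    locH D X₁ (n + 1) (dl D.𝒰 i q n x) = Pdl D i q n (locH D X₃ n x)

/-- D5. adjunction. -/
def Stmt_adj : Prop :=
  ∀ (p : ℕ) [Fact p.Prime] (D : Datum p) (lam : Lam D) (X Y : Rep.{0} (ZMod p) D.G) (f : X ⟶ Y)
    (z : Pl D X 2) (α : Pl D (dg D Y) 0),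
    pairD D lam Y (PM D f 2 z) α = pairD D lam X z (PM D (dag D.χ f) 0 α)

/-- D6. reciprocity for all modules from reciprocity for `μ`.  [`γ` is a morphism `e : X → μ`;
`pairV (res_v g) (res_v γ) = res_v (e_* g)`.] -/
def Stmt_GR : Prop :=
  ∀ (p : ℕ) [Fact p.Prime] (D : Datum p) (lam : Lam D), GR0 D lam →
    ∀ X : Rep.{0} (ZMod p) D.G, GR D lam X

/-- D7. `H⁰(G, X) → P⁰(X)` is injective. -/
def Stmt_loc0inj : Prop :=
  ∀ (p : ℕ) [Fact p.Prime] (D : Datum p), Nonempty D.ι → ∀ X : Rep.{0} (ZMod p) D.G,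
    Function.Injective (locH D X 0)

/-- D8. the dual of a short exact sequence; the dual of a good module. -/
def Stmt_dual : Prop :=
  ∀ (k : Type) [Field k] (G : Type) [Group G] (χ : G →* kˣ),
    (∀ (X₁ X₂ X₃ : Rep.{0} k G) (i : X₁ ⟶ X₂) (q : X₂ ⟶ X₃), IsSES i q →
      IsSES (dag χ q) (dag χ i)) ∧
    (∀ (W : Subgroup G) (X : Rep.{0} k G), (∀ w ∈ W, χ w = 1) → GoodW W X →
      GoodW W (X.dualTwist χ)) ∧
    (∀ X : Rep.{0} k G, Module.Finite k X → Function.Bijective (ddag χ X).hom)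

/-- D9. `(perm H)† ≅ perm H` when `χ|H = 1`.  [`T(φ)(F) = ∑_{c = gH} χ(g) φ(c) F(c)`.] -/
def Stmt_permDual : Prop :=
  ∀ (k : Type) [Field k] (G : Type) [Group G] (χ : G →* kˣ) (H : Subgroup G) [H.FiniteIndex],
    (∀ h ∈ H, χ h = 1) →
    ∃ e : (perm H : Rep.{0} k G) ⟶ (perm H : Rep.{0} k G).dualTwist χ, Function.Bijective e.hom

/-- D10. invariance under isomorphisms.  [B2, B3, D1, D2.] -/
def Stmt_isoInv : Prop :=
  ∀ (p : ℕ) [Fact p.Prime] (D : Datum p) (X Y : Rep.{0} (ZMod p) D.G) (e : X ⟶ Y),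
    Function.Bijective e.hom → ∀ n : ℕ,
    Function.Bijective (HM D.𝒰 e n) ∧ Function.Bijective (PM D e n) ∧
    Nonempty (D.Sha X n ≃ₗ[ZMod p] D.Sha Y n) ∧
    Nonempty (LinearMap.range (locH D X n) ≃ₗ[ZMod p] LinearMap.range (locH D Y n))

/-- D11. `tw W (X†) → (tw W X)†`, `Φ ↦ (F ↦ ∑_c Φ(c)(F(c)))`, carries the constants to the
transpose of the sum map. -/
def Stmt_twDual : Prop :=
  ∀ (k : Type) [Field k] (G : Type) [Group G] (χ : G →* kˣ) (W : Subgroup G) [W.FiniteIndex]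
    (X : Rep.{0} k G),
    ∃ e : tw W (X.dualTwist χ) ⟶ (tw W X).dualTwist χ,
      ∀ a, e.hom ((twConst W (X.dualTwist χ)).hom a) = (dag χ (twSum W X)).hom a

/-- D12. EFFACEMENT: for a good `A` there is a good level `W`, acting trivially on `A`, such that
`H¹(A†) → H¹((tw W A)†)` is zero.  [`Top.Stmt_hasLevel` for the finite set `H¹(A†)`,
`Top.Stmt_efface`, D11, B2.] -/
def Stmt_effaceDual : Prop :=
  ∀ (p : ℕ) [Fact p.Prime] (D : Datum p) (A : Rep.{0} (ZMod p) D.G), Good D.𝒰 A →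
    Module.Finite (ZMod p) (Hlc D.𝒰 (dg D A) 1) →
    ∃ (W : Subgroup D.G) (_ : W.Normal) (_ : W.FiniteIndex), GoodLevel D W ∧ GoodW W A ∧
      ∀ y : Hlc D.𝒰 (dg D A) 1, HM D.𝒰 (dag D.χ (twSum W A)) 1 y = 0

/-! ## Block E : the local theory over a datum -/

/-- E1. the hypotheses `LocHyp` hold at every place. -/
def Stmt_locHyp : Prop :=
  ∀ (p : ℕ) [Fact p.Prime] (D : Datum p), D.Inputs2 → ∀ v : D.ι,
    LocHyp (D.𝒰v v) (D.χ.comp (D.φ v)) ∧ IsMu (D.χ.comp (D.φ v)) (Rep.res (D.φ v) D.mu)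

/-- E2. from the places to the product.  [`piHEquiv`, A3, C5 with `β = evB`; the restriction of a
good module is good by `D.cont`.] -/
def Stmt_locOK : Prop :=
  ∀ (p : ℕ) [Fact p.Prime] (D : Datum p) (lam : Lam D),
    (∀ (v : D.ι) (Y : Rep.{0} (ZMod p) (D.Gv v)), Good (D.𝒰v v) Y → FD (D.𝒰v v) Y) →
    (∀ v : D.ι, Rex (k := ZMod p) (D.𝒰v v)) →
    (∀ (v : D.ι) (Y : Rep.{0} (ZMod p) (D.Gv v)), Good (D.𝒰v v) Y →
      PerfE (D.𝒰v v) (Rep.res (D.φ v) D.mu) (lam v) Y) →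
    LocOK D lam

/-- E3. assembly of the local theory.  [E1, B5, C0, C1, C3, E2.] -/
def Stmt_local : Prop :=
  ∀ (p : ℕ) [Fact p.Prime] (D : Datum p), D.Inputs2 → ∀ lam : Lam D, (∀ v, lam v ≠ 0) →
    LocOK D lam

/-! ## Block F : global arguments -/

/-- F0. linear algebra: the two forms of (GE) are equivalent. -/
def Stmt_GEswap : Prop :=
  ∀ (p : ℕ) [Fact p.Prime] (D : Datum p) (lam : Lam D), LocOK D lam →
    ∀ X : Rep.{0} (ZMod p) D.G, Good D.𝒰 X → (GE D lam X ↔ GE' D lam X)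

/-- F1. `dim P²(X) = dim P⁰(X†)`. -/
def Stmt_p2p0 : Prop :=
  ∀ (p : ℕ) [Fact p.Prime] (D : Datum p) (lam : Lam D), LocOK D lam →
    ∀ X : Rep.{0} (ZMod p) D.G, Good D.𝒰 X →
      finrank (ZMod p) (Pl D X 2) = finrank (ZMod p) (Pl D (dg D X) 0)

/-- F2. `φ` is subadditive.  [B6 for `X` and for `X†` (D8), A1 + D3 + `LocOK.rex` for `χ_loc`.] -/
def Stmt_subAddPhi : Prop :=
  ∀ (p : ℕ) [Fact p.Prime] (D : Datum p) (lam : Lam D), Ctx D lam →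
    ∀ W : Subgroup D.G, GoodLevel D W → SubAdd W (phi D)

/-- F3. `φ(perm H) = 2 χ(perm H) - χ_loc(perm H)`, `p⁰(perm H) = p²(perm H)`,
`h⁰((perm H)†) = 1`.  [D9, D10, F1, B9.] -/
def Stmt_phiPerm : Prop :=
  ∀ (p : ℕ) [Fact p.Prime] (D : Datum p) (lam : Lam D), Ctx D lam →
    ∀ H : Subgroup D.G, D.Good H →
      phi D (perm H) = 2 * chi D.𝒰 (perm H : Rep.{0} (ZMod p) D.G) - chiLoc D (perm H) ∧
      finrank (ZMod p) (Pl D (perm H) 0) = finrank (ZMod p) (Pl D (perm H) 2) ∧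
      finrank (ZMod p) (Hlc D.𝒰 (dg D (perm H)) 0) = 1

/-- F4. the tower argument: `φ(perm H) ≥ 0`.  [F3 + (GN-): `φ(perm W) ≥ 2 - 2 p²(perm W)`;
B11 + F2: `φ(perm W) ≤ [H:W] φ(perm H)`; (TW).] -/
def Stmt_tower : Prop :=
  ∀ (p : ℕ) [Fact p.Prime] (D : Datum p) (lam : Lam D), Ctx D lam → D.InGNminus → D.InTW →
    ∀ H : Subgroup D.G, D.Good H → 0 ≤ phi D (perm H)

/-- F5. `dim P²(perm H) ≤ dim Y + 1`.  [F3, F4, (GN+), rank-nullity for `locH 2`.] -/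
def Stmt_yLower : Prop :=
  ∀ (p : ℕ) [Fact p.Prime] (D : Datum p) (lam : Lam D), Ctx D lam → D.InGNplus →
    ∀ H : Subgroup D.G, D.Good H → 0 ≤ phi D (perm H) →
      finrank (ZMod p) (Pl D (perm H) 2)
        ≤ finrank (ZMod p) (LinearMap.range (locH D (perm H) 2)) + 1

/-- F6. weak reciprocity implies strong reciprocity.  [`H = ker χ`, a surjection `perm H → μ`
(B10), `LocOK.rex`, D2: `codim Y_μ ≤ 1`; (GRw) + (LN3): `Y_μ` contains no `H²(G_v,μ)`.] -/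
def Stmt_GRs : Prop :=
  ∀ (p : ℕ) [Fact p.Prime] (D : Datum p), D.Inputs2 →
    (∀ H : Subgroup D.G, D.Good H →
      finrank (ZMod p) (Pl D (perm H) 2)
        ≤ finrank (ZMod p) (LinearMap.range (locH D (perm H) 2)) + 1) →
    (∀ (X₂ X₃ : Rep.{0} (ZMod p) D.G) (q : X₂ ⟶ X₃), Good D.𝒰 X₂ → Good D.𝒰 X₃ →
      Function.Surjective q.hom → Function.Surjective (PM D q 2)) →
    (∀ X : Rep.{0} (ZMod p) D.G, Good D.𝒰 X → CFD (D.locCpx X)) →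
    ∃ lam : Lam D, (∀ v, lam v ≠ 0) ∧ GR0 D lam

/-- F7. `dim Y_X + h⁰(X†) ≤ dim P²(X)` from reciprocity.  [D7, `LocOK`.] -/
def Stmt_yUpper : Prop :=
  ∀ (p : ℕ) [Fact p.Prime] (D : Datum p) (lam : Lam D), Ctx D lam →
    ∀ X : Rep.{0} (ZMod p) D.G, Good D.𝒰 X → GR D lam X →
      finrank (ZMod p) (LinearMap.range (locH D X 2)) + finrank (ZMod p) (Hlc D.𝒰 (dg D X) 0)
        ≤ finrank (ZMod p) (Pl D X 2)

/-- F8. `φ(perm H) ≤ 0`.  [F3, F7, (GN+).] -/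
def Stmt_phiPermUpper : Prop :=
  ∀ (p : ℕ) [Fact p.Prime] (D : Datum p) (lam : Lam D), Ctx D lam → D.InGNplus →
    ∀ H : Subgroup D.G, D.Good H → GR D lam (perm H) → phi D (perm H) ≤ 0

/-- F9. (GE) for `perm H`, by counting dimensions.  [F3, F5, D7, `LocOK`.] -/
def Stmt_GEperm : Prop :=
  ∀ (p : ℕ) [Fact p.Prime] (D : Datum p) (lam : Lam D), Ctx D lam →
    ∀ H : Subgroup D.G, D.Good H → GR D lam (perm H) →
      finrank (ZMod p) (Pl D (perm H) 2)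
        ≤ finrank (ZMod p) (LinearMap.range (locH D (perm H) 2)) + 1 →
      GE D lam (perm H)

/-- F10. (GE) is inherited by direct sums.  [D1, D2, D5.] -/
def Stmt_GEsplit : Prop :=
  ∀ (p : ℕ) [Fact p.Prime] (D : Datum p) (lam : Lam D)
    (X₁ X₂ X₃ : Rep.{0} (ZMod p) D.G) (i : X₁ ⟶ X₂) (q : X₂ ⟶ X₃) (s : X₃ ⟶ X₂) (r : X₂ ⟶ X₁),
    (∀ x, r.hom (i.hom x) = x) → (∀ x, q.hom (s.hom x) = x) →
    (∀ x, i.hom (r.hom x) + s.hom (q.hom x) = x) →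
    GE D lam X₁ → GE D lam X₃ → GE D lam X₂

/-- F11. (GE) for all good modules.  [`F = tw W X → X`, kernel `K`; (GE) for `F` by B8 + F10.  Let
`z ⊥ H⁰(X†)`; lift `z` to `z' ∈ P²(F)` (`LocOK.rex`).  The form `η ↦ ⟨z', loc η⟩` on `H⁰(F†)`
vanishes on `H⁰(X†)`, hence comes from a form on `H⁰(K†) ⊆ P⁰(K†)` (D8, `stmt_les`, D7), which is
`⟨z'', ·⟩` for some `z'' ∈ P²(K)` (`LocOK`).  Then `z' - i_* z'' ⊥ H⁰(F†)` (D5, D2).] -/
def Stmt_GEall : Prop :=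
  ∀ (p : ℕ) [Fact p.Prime] (D : Datum p) (lam : Lam D), Ctx D lam →
    (∀ W : Subgroup D.G, GoodLevel D W → GE D lam (perm W)) →
    ∀ X : Rep.{0} (ZMod p) D.G, Good D.𝒰 X → GE D lam X

/-- F12. CLAIM 1: `sha¹(A†) ≤ sha²(A)`.  [Instantiate `Pos.claim1` and `exists_eq_add_of_perp`
with `0 → N → I → A → 0`, `I = tw W A`, `W` from D12.] -/
def Stmt_claim1 : Prop :=
  ∀ (p : ℕ) [Fact p.Prime] (D : Datum p) (lam : Lam D), Ctx D lam →
    (∀ X : Rep.{0} (ZMod p) D.G, GR D lam X) →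
    (∀ X : Rep.{0} (ZMod p) D.G, Good D.𝒰 X → GE D lam X) →
    ∀ A : Rep.{0} (ZMod p) D.G, Good D.𝒰 A →
      finrank (ZMod p) (D.Sha (dg D A) 1) ≤ finrank (ZMod p) (D.Sha A 2)

/-- F13. CLAIM 2: `dim G¹(A) + dim G¹(A†) ≤ dim P¹(A)`.  [Instantiate `Pos.claim2`.] -/
def Stmt_claim2 : Prop :=
  ∀ (p : ℕ) [Fact p.Prime] (D : Datum p) (lam : Lam D), Ctx D lam →
    (∀ X : Rep.{0} (ZMod p) D.G, GR D lam X) →
    ∀ A : Rep.{0} (ZMod p) D.G, Good D.𝒰 A →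
      finrank (ZMod p) (LinearMap.range (locH D A 1))
        + finrank (ZMod p) (LinearMap.range (locH D (dg D A) 1)) ≤ finrank (ZMod p) (Pl D A 1)

/-- F14. CLAIM 3: the decomposition of `φ`.  [`finrank_range_add_of_perp` for `X` and `X†`, F0, F1,
D8 (`ddag`), D10, F12 for `X` and `X†`, F13, rank-nullity.] -/
def Stmt_phiDecomp : Prop :=
  ∀ (p : ℕ) [Fact p.Prime] (D : Datum p) (lam : Lam D), Ctx D lam →
    (∀ X : Rep.{0} (ZMod p) D.G, GR D lam X) →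
    (∀ X : Rep.{0} (ZMod p) D.G, Good D.𝒰 X → GE D lam X) →
    ∀ X : Rep.{0} (ZMod p) D.G, Good D.𝒰 X →
      ∃ u a b : ℕ, phi D X = u + a + b ∧
        finrank (ZMod p) (D.Sha X 2) = finrank (ZMod p) (D.Sha (dg D X) 1) + a

/-- F15. CLAIM 4 and the end.  [`SubAdd.eq_zero_of_nonneg` with `f = φ`, B4, B4', F2, F8, F14.] -/
def Stmt_end : Prop :=
  ∀ (p : ℕ) [Fact p.Prime] (D : Datum p) (lam : Lam D), Ctx D lam →
    (∀ H : Subgroup D.G, D.Good H → phi D (perm H) ≤ 0) →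
    (∀ X : Rep.{0} (ZMod p) D.G, Good D.𝒰 X →
      ∃ u a b : ℕ, phi D X = u + a + b ∧
        finrank (ZMod p) (D.Sha X 2) = finrank (ZMod p) (D.Sha (dg D X) 1) + a) →
    ∀ X : Rep.{0} (ZMod p) D.G, Good D.𝒰 X →
      finrank (ZMod p) (D.Sha X 2) = finrank (ZMod p) (D.Sha (dg D X) 1)

end Fermat.Agent.CFT.Pos

end
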