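/-
CFT / POS-F12, F13 : Claims 1 and 2 over a datum (instantiation of `Pos.claim1`, `Pos.claim2`).
-/
import Fermat.Agent.CFT.Pos.Interface

set_option autoImplicit false

noncomputable section

namespace Fermat.Agent.CFT.Pos

open _root_.Fermat.Agent.CFT.Top _root_.Fermat.Agent.CFT.Top.Cpx Module CategoryTheory

lemma Claim1I_good_of_goodW {p : ℕ} [Fact p.Prime] (D : Datum p) {W : Subgroup D.G}
    (hW : W ∈ D.𝒰.S) {X : Rep.{0} (ZMod p) D.G} (hX : GoodW W X) : Good D.𝒰 X :=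
  ⟨hX.1, W, hW, hX.2⟩

/-- a good module is `GoodW` for a good level. -/
lemma Claim1I_exists_level {p : ℕ} [Fact p.Prime] (D : Datum p) {X : Rep.{0} (ZMod p) D.G}
    (hX : Good D.𝒰 X) : ∃ W : Subgroup D.G, GoodLevel D W ∧ GoodW W X := by
  obtain ⟨hf, U, hU, hUX⟩ := hX
  obtain ⟨V, hV, hVχ⟩ := D.χtriv
  obtain ⟨W, hW, h1, h2⟩ := D.𝒰.dir U hU V hV
  exact ⟨W, ⟨hW, fun w hw => hVχ w (h2 hw)⟩, hf, fun w hw x => hUX w (h1 hw) x⟩

lemma Claim1I_good_dual (hdual : Stmt_dual) {p : ℕ} [Fact p.Prime] (D : Datum p)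
    {X : Rep.{0} (ZMod p) D.G} (hX : Good D.𝒰 X) : Good D.𝒰 (dg D X) := by
  obtain ⟨W, hW, hWX⟩ := Claim1I_exists_level D hX
  exact Claim1I_good_of_goodW D hW.1 ((hdual (ZMod p) D.G D.χ).2.1 W X hW.2 hWX)

theorem stmt_claim1 (hE : Stmt_effaceDual) (hdual : Stmt_dual) (hses : Stmt_ses)
    (hP : Stmt_Pses) (hnat : Stmt_locNat) (hdel : Stmt_locDelta) (hadj : Stmt_adj)
    (h0 : Stmt_loc0inj) (hsw : Stmt_GEswap) : Stmt_claim1 := by
  intro p _ D lam ctx gr ge A hA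
  have hA' : Good D.𝒰 (dg D A) := Claim1I_good_dual hdual D hA
  obtain ⟨W, hWn, hWf, hWlev, hWA, heff⟩ := hE p D A hA (ctx.gfd _ hA' 1 (by norm_num))
  have hs : IsSES (kerι (twSum W A)) (twSum W A) := isSES_ker _ (twSum_surjective W A)
  have hsd := (hdual (ZMod p) D.G D.χ).1 _ _ _ _ _ hs
  have gI : GoodW W (tw W A) := goodW_tw le_rfl hWA
  have gN : GoodW W (kerRep (twSum W A)) := goodW_ker _ gI
  have gI' := (hdual (ZMod p) D.G D.χ).2.1 W _ hWlev.2 gI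
  have GI := Claim1I_good_of_goodW D hWlev.1 gI
  have GN := Claim1I_good_of_goodW D hWlev.1 gN
  have GI' := Claim1I_good_of_goodW D hWlev.1 gI'
  have S := stmt_les _ _ _ _ _ _ (hses (ZMod p) D.G D.𝒰 _ _ _ _ _ hs GI.2.isDisc)
  have Sd := stmt_les _ _ _ _ _ _ (hses (ZMod p) D.G D.𝒰 _ _ _ _ _ hsd GI'.2.isDisc)
  have PSd := stmt_les _ _ _ _ _ _ (hP p D _ _ _ _ _ hsd GI'.2)
  have : FiniteDimensional (ZMod p) (Hlc D.𝒰 A 2) := ctx.gfd A hA 2 le_rfl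
  exact claim1 (F := ZMod p)
    (HM D.𝒰 (kerι (twSum W A)) 2) (HM D.𝒰 (twSum W A) 2)
    (fun g hg => (S.2.1 2 g).1 hg)
    (PM D (kerι (twSum W A)) 2) (PM D (twSum W A) 2)
    (locH D _ 2) (locH D _ 2) (locH D _ 2)
    (fun n => hnat p D _ _ _ 2 n) (fun g => hnat p D _ _ _ 2 g)
    (HM D.𝒰 (dag D.χ (kerι (twSum W A))) 0)
    (dl D.𝒰 (dag D.χ (twSum W A)) (dag D.χ (kerι (twSum W A))) 0)
    (fun γ => (Sd.2.2.1 0 _).2 ⟨γ, rfl⟩)
    (PM D (dag D.χ (twSum W A)) 0) (PM D (dag D.χ (kerι (twSum W A))) 0)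
    (Pdl D (dag D.χ (twSum W A)) (dag D.χ (kerι (twSum W A))) 0)
    (fun α => (PSd.2.1 0 _).2 ⟨α, rfl⟩)
    (fun x hx => (PSd.2.2.1 0 x).1 hx)
    (locH D _ 0) (locH D _ 0) (locH D _ 1)
    (fun γ => hnat p D _ _ _ 0 γ)
    (fun η => hdel p D _ _ _ _ _ hsd GI'.2 0 η)
    (h0 p D ctx.ne _)
    (pairD D lam _) (pairD D lam _)
    (fun z μ => hadj p D lam _ _ _ z μ)
    (fun n η => gr _ n η)
    (fun μ hμ => exists_eq_add_of_perp (F := ZMod p) (pairD D lam (tw W A)) (pairD D lam A)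
      (PM D (twSum W A) 2) (PM D (dag D.χ (twSum W A)) 0) (locH D _ 2) (locH D _ 0)
      (ctx.loc.inj _ GI) (ctx.loc.surj _ GI) (ctx.loc.surj _ hA)
      (fun z α => hadj p D lam _ _ _ z α)
      ((hsw p D lam ctx.loc _ GI).1 (ge _ GI)) μ hμ)
    (fun y _ => (Sd.2.2.2 0 y).1 (heff y))

theorem stmt_claim2 (hE : Stmt_effaceDual) (hdual : Stmt_dual) (hses : Stmt_ses)
    (hP : Stmt_Pses) (hdel : Stmt_locDelta) (hadj : Stmt_adj) : Stmt_claim2 := by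
  intro p _ D lam ctx gr A hA
  have hA' : Good D.𝒰 (dg D A) := Claim1I_good_dual hdual D hA
  obtain ⟨W, hWn, hWf, hWlev, hWA, heff⟩ := hE p D A hA (ctx.gfd _ hA' 1 (by norm_num))
  have hs : IsSES (kerι (twSum W A)) (twSum W A) := isSES_ker _ (twSum_surjective W A)
  have hsd := (hdual (ZMod p) D.G D.χ).1 _ _ _ _ _ hs
  have gI : GoodW W (tw W A) := goodW_tw le_rfl hWA
  have gN : GoodW W (kerRep (twSum W A)) := goodW_ker _ gI
  have gI' := (hdual (ZMod p) D.G D.χ).2.1 W _ hWlev.2 gI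
  have GI := Claim1I_good_of_goodW D hWlev.1 gI
  have GN := Claim1I_good_of_goodW D hWlev.1 gN
  have GI' := Claim1I_good_of_goodW D hWlev.1 gI'
  have Sd := stmt_les _ _ _ _ _ _ (hses (ZMod p) D.G D.𝒰 _ _ _ _ _ hsd GI'.2.isDisc)
  have PS := stmt_les _ _ _ _ _ _ (hP p D _ _ _ _ _ hs GI.2)
  have PSd := stmt_les _ _ _ _ _ _ (hP p D _ _ _ _ _ hsd GI'.2)
  have : FiniteDimensional (ZMod p) (Pl D A 1) := ctx.loc.fd A hA 1 (by norm_num)
  exact claim2 (F := ZMod p)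
    (locH D A 1) (dl D.𝒰 (kerι (twSum W A)) (twSum W A) 1)
    (Pdl D (kerι (twSum W A)) (twSum W A) 1) (locH D _ 2)
    (fun h => hdel p D _ _ _ _ _ hs GI.2 1 h)
    (PM D (kerι (twSum W A)) 2) (fun z hz => (PS.2.2.2 1 z).1 hz)
    (dl D.𝒰 (dag D.χ (twSum W A)) (dag D.χ (kerι (twSum W A))) 0)
    (fun y => (Sd.2.2.2 0 y).1 (heff y))
    (PM D (dag D.χ (kerι (twSum W A))) 0)
    (Pdl D (dag D.χ (twSum W A)) (dag D.χ (kerι (twSum W A))) 0)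
    (fun μ => (PSd.2.2.1 0 _).2 ⟨μ, rfl⟩)
    (locH D _ 0) (locH D _ 1)
    (fun η => hdel p D _ _ _ _ _ hsd GI'.2 0 η)
    (pairD D lam _) (pairD D lam _)
    (fun z μ => hadj p D lam _ _ _ z μ)
    (ctx.loc.inj _ GN) (ctx.loc.surj _ GI)
    (fun n η => gr _ n η)

end Fermat.Agent.CFT.Pos

end
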