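/-
CFT / Pos : elementary vocabulary for representations (short exact sequences given by linear maps,
sub/quotient representations, function representations, induced representations) used in
Claim 4 / Lemma S of the positivity route (report #602).
-/
import Mathlib

set_option autoImplicit false

namespace Fermat.Agent.CFT.Pos

open Module

variable {k : Type} [Field k] {G : Type} [Group G]

/-- A linear map between the underlying spaces of two representations is equivariant. -/
def IsEquivar (X Y : Rep.{0} k G) (f : X.V →ₗ[k] Y.V) : Prop :=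
  ∀ g x, f (X.ρ g x) = Y.ρ g (f x)

/-- A short exact sequence of representations, in elementwise form. -/
structure IsSES (X₁ X₂ X₃ : Rep.{0} k G) (i : X₁.V →ₗ[k] X₂.V) (q : X₂.V →ₗ[k] X₃.V) : Prop where
  i_comm : IsEquivar X₁ X₂ i
  q_comm : IsEquivar X₂ X₃ q
  inj : Function.Injective i
  surj : Function.Surjective q
  exact : ∀ x, q x = 0 ↔ ∃ y, i y = x

/-- A function on representations which is subadditive on short exact sequences and additive on
split ones (e.g. a truncated Euler characteristic `h⁰ - h¹ + h²`). -/
structure IsSubadditive (c : Rep.{0} k G → ℤ) : Prop where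
  sub : ∀ (X₁ X₂ X₃ : Rep.{0} k G) (i : X₁.V →ₗ[k] X₂.V) (q : X₂.V →ₗ[k] X₃.V),
    Module.Finite k X₂.V → IsSES X₁ X₂ X₃ i q → c X₂ ≤ c X₁ + c X₃
  split : ∀ (X₁ X₂ X₃ : Rep.{0} k G) (i : X₁.V →ₗ[k] X₂.V) (q : X₂.V →ₗ[k] X₃.V),
    Module.Finite k X₂.V → IsSES X₁ X₂ X₃ i q →
    (∃ s : X₃.V →ₗ[k] X₂.V, IsEquivar X₃ X₂ s ∧ ∀ x, q (s x) = x) → c X₂ = c X₁ + c X₃

/-- The restriction of a representation to an invariant subspace. -/
def subRepr {V : Type} [AddCommGroup V] [Module k V] (ρ : Representation k G V)
    (W : Submodule k V) (hW : ∀ g, ∀ w ∈ W, ρ g w ∈ W) : Representation k G W where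
  toFun g := (ρ g).restrict (hW g)
  map_one' := by ext; simp
  map_mul' g h := by ext; simp

@[simp] lemma subRepr_apply_coe {V : Type} [AddCommGroup V] [Module k V]
    (ρ : Representation k G V) (W : Submodule k V) (hW : ∀ g, ∀ w ∈ W, ρ g w ∈ W) (g : G) (w : W) :
    ((subRepr ρ W hW g w : W) : V) = ρ g w := rfl

/-- The quotient of a representation by an invariant subspace. -/
def quotRepr {V : Type} [AddCommGroup V] [Module k V] (ρ : Representation k G V)
    (W : Submodule k V) (hW : ∀ g, ∀ w ∈ W, ρ g w ∈ W) : Representation k G (V ⧸ W) where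
  toFun g := W.mapQ W (ρ g) (fun w hw => hW g w hw)
  map_one' := by
    ext x
    simp
  map_mul' g h := by
    ext x
    simp

@[simp] lemma quotRepr_mk {V : Type} [AddCommGroup V] [Module k V]
    (ρ : Representation k G V) (W : Submodule k V) (hW : ∀ g, ∀ w ∈ W, ρ g w ∈ W) (g : G) (v : V) :
    quotRepr ρ W hW g (Submodule.Quotient.mk v) = Submodule.Quotient.mk (ρ g v) := rfl

/-- Functions on a `G`-set with values in a vector space, `(g • f) x = f (g⁻¹ • x)`. -/
def funRepr (k : Type) [Field k] (G : Type) [Group G] (α : Type) [MulAction G α]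
    (V : Type) [AddCommGroup V] [Module k V] : Representation k G (α → V) where
  toFun g :=
    { toFun := fun f x => f (g⁻¹ • x)
      map_add' := fun _ _ => rfl
      map_smul' := fun _ _ => rfl }
  map_one' := by ext f x; simp
  map_mul' g h := by ext f x; simp [mul_smul]

@[simp] lemma funRepr_apply (α : Type) [MulAction G α] (V : Type) [AddCommGroup V] [Module k V]
    (g : G) (f : α → V) (x : α) : funRepr k G α V g f x = f (g⁻¹ • x) := rfl

variable (k G) in
/-- The trivial one-dimensional representation. -/
abbrev trivRep : Rep.{0} k G := Rep.trivial k G k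

variable (k G) in
/-- The regular representation, as functions on `G`. -/
abbrev regRep : Rep.{0} k G := Rep.of (funRepr k G G k)

variable (k) in
/-- The permutation representation on `G ⧸ P`, as functions. -/
abbrev permRep (P : Subgroup G) : Rep.{0} k G := Rep.of (funRepr k G (G ⧸ P) k)

/-- The underlying space of the (co)induced representation. -/
def indSubmodule (P : Subgroup G) (B : Rep.{0} k P) : Submodule k (G → B.V) where
  carrier := {f | ∀ (g : G) (u : P), f (g * u) = B.ρ u⁻¹ (f g)}
  add_mem' := by
    intro a b ha hb g u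
    simp [ha g u, hb g u]
  zero_mem' := by
    intro g u
    simp
  smul_mem' := by
    intro c a ha g u
    simp [ha g u]

lemma indSubmodule_stable (P : Subgroup G) (B : Rep.{0} k P) (g : G) (f : G → B.V)
    (hf : f ∈ indSubmodule P B) : funRepr k G G B.V g f ∈ indSubmodule P B := by
  intro x u
  have := hf (g⁻¹ * x) u
  simpa [mul_assoc] using this

/-- The representation of `G` (co)induced from a representation `B` of the subgroup `P`:
functions `f : G → B` with `f (g u) = u⁻¹ f g`, `G` acting by left translation. -/
abbrev indRep (P : Subgroup G) (B : Rep.{0} k P) : Rep.{0} k G :=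
  Rep.of (subRepr (funRepr k G G B.V) (indSubmodule P B) (indSubmodule_stable P B))

/-- The map induced on induced representations by a linear map. -/
def indMap (P : Subgroup G) (B B' : Rep.{0} k P) (f : B.V →ₗ[k] B'.V) (hf : IsEquivar B B' f) :
    (indRep P B).V →ₗ[k] (indRep P B').V where
  toFun φ := ⟨fun g => f (φ.1 g), by
    intro g u
    show f (φ.1 (g * u)) = B'.ρ u⁻¹ (f (φ.1 g))
    rw [φ.2 g u, hf]⟩
  map_add' _ _ := by
    ext g
    simp
  map_smul' _ _ := by
    ext g
    simp

@[simp] lemma indMap_apply (P : Subgroup G) (B B' : Rep.{0} k P) (f : B.V →ₗ[k] B'.V)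
    (hf : IsEquivar B B' f) (φ : (indRep P B).V) (g : G) :
    (indMap P B B' f hf φ).1 g = f (φ.1 g) := rfl

end Fermat.Agent.CFT.Pos
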