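/-
CFT / Pos : Lemma S of the positivity route (report #602).
A subadditive function on the finite-dimensional `𝔽_p`-representations of a `p`-group `P` satisfies
`c B ≤ dim B * c(triv)`; if moreover `|P| * c(triv) ≤ c(regular)` then equality holds.
-/
import Fermat.Agent.CFT.Pos.RepDefs

set_option autoImplicit false

namespace Fermat.Agent.CFT.Pos

open Module

section general

variable {k : Type} [Field k] {G : Type} [Group G]

lemma IsSubadditive.eq_zero_of_subsingleton {c : Rep.{0} k G → ℤ} (hc : IsSubadditive c)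
    (Z : Rep.{0} k G) [Subsingleton Z.V] : c Z = 0 := by
  have h := hc.split Z Z Z LinearMap.id LinearMap.id inferInstance
    { i_comm := fun _ _ => rfl
      q_comm := fun _ _ => rfl
      inj := Function.injective_id
      surj := Function.surjective_id
      exact := fun x => ⟨fun _ => ⟨x, rfl⟩, fun _ => Subsingleton.elim _ _⟩ }
    ⟨LinearMap.id, fun _ _ => rfl, fun _ => rfl⟩
  linarith

lemma IsSubadditive.eq_of_equiv {c : Rep.{0} k G → ℤ} (hc : IsSubadditive c)
    (X Y : Rep.{0} k G) [Module.Finite k X.V] (e : X.V ≃ₗ[k] Y.V)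
    (he : IsEquivar X Y e.toLinearMap) : c X = c Y := by
  have h0 : c (Rep.trivial k G PUnit) = 0 :=
    hc.eq_zero_of_subsingleton (Z := Rep.trivial k G PUnit)
  have h := hc.split (Rep.trivial k G PUnit) X Y 0 e.toLinearMap inferInstance
    { i_comm := fun g x => by simp
      q_comm := he
      inj := fun _ _ _ => Subsingleton.elim _ _
      surj := e.surjective
      exact := fun x => ⟨fun hx => ⟨0, by
          have : x = 0 := e.injective (by simpa using hx)
          simp [this]⟩, fun ⟨y, hy⟩ => by
          have : x = 0 := by rw [← hy]; rfl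
          simp [this]⟩ }
    ⟨e.symm.toLinearMap, fun g x => by
        apply e.injective
        have := he g (e.symm x)
        simp only [LinearEquiv.coe_coe, LinearEquiv.apply_symm_apply] at this ⊢
        exact this.symm, fun x => by simp⟩
  rw [h, h0, zero_add]

end general

section pgroup

variable {p : ℕ} [Fact p.Prime] {P : Type} [Group P]

/-- A `p`-group acting linearly on a nonzero finite-dimensional `𝔽_p`-space has a nonzero fixed
vector. -/
lemma exists_fixed_ne_zero (hP : IsPGroup p P) (B : Rep.{0} (ZMod p) P)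
    [Module.Finite (ZMod p) B.V] (hB : 0 < finrank (ZMod p) B.V) :
    ∃ v : B.V, v ≠ 0 ∧ ∀ g, B.ρ g v = v := by
  classical
  letI : MulAction P B.V :=
    { smul := fun g x => B.ρ g x
      one_smul := fun x => by change B.ρ 1 x = x; simp
      mul_smul := fun g h x => by change B.ρ (g * h) x = B.ρ g (B.ρ h x); simp }
  haveI : Finite B.V := Module.finite_of_finite (ZMod p)
  have hcard : p ∣ Nat.card B.V := by
    rw [Module.natCard_eq_pow_finrank (K := ZMod p), Nat.card_zmod]
    exact dvd_pow_self p hB.ne'
  have h0 : (0 : B.V) ∈ MulAction.fixedPoints P B.V := by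
    intro g
    change B.ρ g 0 = 0
    simp
  obtain ⟨b, hb, hne⟩ := hP.exists_fixed_point_of_prime_dvd_card_of_fixed_point B.V hcard h0
  exact ⟨b, fun h => hne h.symm, fun g => hb g⟩

/-- **Lemma S, upper bound.** -/
theorem lemmaS_le (hP : IsPGroup p P) (c : Rep.{0} (ZMod p) P → ℤ) (hc : IsSubadditive c) :
    ∀ (n : ℕ) (B : Rep.{0} (ZMod p) P), Module.Finite (ZMod p) B.V →
      finrank (ZMod p) B.V = n → c B ≤ n * c (trivRep (ZMod p) P) := by
  intro n
  induction n with
  | zero =>
    intro B hfin hB
    haveI : Subsingleton B.V := Module.finrank_zero_iff.1 hB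
    rw [hc.eq_zero_of_subsingleton B]
    simp
  | succ n ih =>
    intro B hfin hB
    obtain ⟨v, hv0, hv⟩ := exists_fixed_ne_zero hP B (by omega)
    let W : Submodule (ZMod p) B.V := Submodule.span (ZMod p) {v}
    have hW : ∀ g, ∀ w ∈ W, B.ρ g w ∈ W := by
      intro g w hw
      obtain ⟨a, rfl⟩ := Submodule.mem_span_singleton.1 hw
      rw [map_smul, hv]
      exact Submodule.mem_span_singleton.2 ⟨a, rfl⟩
    let Q : Rep.{0} (ZMod p) P := Rep.of (quotRepr B.ρ W hW)
    have hses : IsSES (trivRep (ZMod p) P) B Q (LinearMap.toSpanSingleton (ZMod p) B.V v) W.mkQ :=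
      { i_comm := fun g x => by
          change x • v = B.ρ g (x • v)
          rw [map_smul, hv]
        q_comm := fun g x => rfl
        inj := fun a b hab => by
          have : a • v = b • v := hab
          exact smul_left_injective (ZMod p) hv0 this
        surj := W.mkQ_surjective
        exact := fun x => by
          rw [Submodule.mkQ_apply, Submodule.Quotient.mk_eq_zero]
          exact Submodule.mem_span_singleton }
    have h1 := hc.sub _ _ _ _ _ hfin hses
    have hQ : finrank (ZMod p) Q.V = n := by
      have h2 := Submodule.finrank_quotient_add_finrank W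
      have h3 : finrank (ZMod p) W = 1 := finrank_span_singleton hv0
      change finrank (ZMod p) (B.V ⧸ W) = n
      omega
    have h2 := ih Q (inferInstanceAs (Module.Finite (ZMod p) (B.V ⧸ W))) hQ
    push_cast
    linarith

end pgroup

section free

variable {k : Type} [Field k] {G : Type} [Group G]

/-- `c (Fun(α, V)) = dim V * c (Fun(α, k))` for a finite `G`-set `α`. -/
theorem IsSubadditive.funRepr_eq {c : Rep.{0} k G → ℤ} (hc : IsSubadditive c)
    (α : Type) [MulAction G α] [Finite α] :
    ∀ (n : ℕ) (V : Type) [AddCommGroup V] [Module k V], Module.Finite k V → finrank k V = n →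
      c (Rep.of (funRepr k G α V)) = n * c (Rep.of (funRepr k G α k)) := by
  intro n
  induction n with
  | zero =>
    intro V _ _ hfin hV
    haveI : Subsingleton V := Module.finrank_zero_iff.1 hV
    haveI : Subsingleton (Rep.of (funRepr k G α V)).V := inferInstanceAs (Subsingleton (α → V))
    rw [hc.eq_zero_of_subsingleton]
    simp
  | succ n ih =>
    intro V _ _ hfin hV
    -- a vector `v₀` and a functional `l` with `l v₀ = 1`
    have hnt : Nontrivial V := Module.nontrivial_of_finrank_pos (R := k) (by omega)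
    obtain ⟨v, hv⟩ := exists_ne (0 : V)
    obtain ⟨l, hl⟩ := Module.Projective.exists_dual_ne_zero k hv
    let v₀ : V := (l v)⁻¹ • v
    have hlv : l v₀ = 1 := by
      simp [v₀, hl]
    let K : Submodule k V := LinearMap.ker l
    have hK : finrank k K = n := by
      have h1 := LinearMap.finrank_range_add_finrank_ker l
      have h2 : LinearMap.range l = ⊤ := by
        rw [LinearMap.range_eq_top]
        intro a
        exact ⟨a • v₀, by simp [hlv]⟩
      rw [h2, finrank_top, finrank_self] at h1
      change finrank k (LinearMap.ker l) = n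
      omega
    have hfinV : Module.Finite k (Rep.of (funRepr k G α V)).V :=
      inferInstanceAs (Module.Finite k (α → V))
    have h := hc.split (Rep.of (funRepr k G α K)) (Rep.of (funRepr k G α V))
      (Rep.of (funRepr k G α k)) (K.subtype.compLeft α) (l.compLeft α) hfinV
      { i_comm := fun g x => rfl
        q_comm := fun g x => rfl
        inj := fun a b hab => by
          funext x
          exact Subtype.ext (congrFun hab x)
        surj := fun f => ⟨fun x => f x • v₀, by
          funext x
          change l (f x • v₀) = f x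
          simp [hlv]⟩
        exact := fun f => ⟨fun hf => ⟨fun x => ⟨f x, congrFun hf x⟩, rfl⟩, fun ⟨y, hy⟩ => by
          funext x
          rw [← hy]
          exact (y x).2⟩ }
      ⟨(LinearMap.toSpanSingleton k V v₀).compLeft α, fun g x => rfl, fun f => by
          funext x
          change l (f x • v₀) = f x
          simp [hlv]⟩
    rw [h, ih K inferInstance hK]
    push_cast
    ring

end free

section pgroup2

variable {p : ℕ} [Fact p.Prime] {P : Type} [Group P]

/-- **Lemma S, lower bound.** -/
theorem lemmaS_ge (hP : IsPGroup p P) [Finite P] (c : Rep.{0} (ZMod p) P → ℤ)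
    (hc : IsSubadditive c)
    (hreg : (Nat.card P : ℤ) * c (trivRep (ZMod p) P) ≤ c (regRep (ZMod p) P))
    (B : Rep.{0} (ZMod p) P) [Module.Finite (ZMod p) B.V] :
    (finrank (ZMod p) B.V : ℤ) * c (trivRep (ZMod p) P) ≤ c B := by
  classical
  haveI := Fintype.ofFinite P
  let Fr : Rep.{0} (ZMod p) P := Rep.of (funRepr (ZMod p) P P B.V)
  have hfinF : Module.Finite (ZMod p) Fr.V := inferInstanceAs (Module.Finite (ZMod p) (P → B.V))
  -- the augmentation `σ f = ∑ u, u • f u`
  let σ : Fr.V →ₗ[ZMod p] B.V :=
    ∑ u : P, (B.ρ u) ∘ₗ (LinearMap.proj u : (P → B.V) →ₗ[ZMod p] B.V)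
  have hσ : ∀ f : P → B.V, σ f = ∑ u : P, B.ρ u (f u) := by
    intro f
    simp only [σ, LinearMap.sum_apply, LinearMap.comp_apply]
    rfl
  have hσcomm : IsEquivar Fr B σ := by
    intro w f
    change σ (fun x => f (w⁻¹ • x)) = B.ρ w (σ f)
    rw [hσ, hσ, map_sum]
    rw [← Equiv.sum_comp (Equiv.mulLeft w)]
    refine Finset.sum_congr rfl fun u _ => ?_
    simp
  have hσsurj : Function.Surjective σ := by
    intro b
    refine ⟨Pi.single 1 b, ?_⟩
    rw [hσ, Finset.sum_eq_single 1]
    · simp
    · intro u _ hu
      simp [Pi.single_eq_of_ne hu]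
    · intro h
      exact absurd (Finset.mem_univ _) h
  let K : Submodule (ZMod p) (P → B.V) := LinearMap.ker σ
  have hKst : ∀ g, ∀ w ∈ K, funRepr (ZMod p) P P B.V g w ∈ K := by
    intro g w hw
    have h1 := hσcomm g w
    have h2 : σ w = 0 := hw
    change σ (funRepr (ZMod p) P P B.V g w) = 0
    have h3 : σ (funRepr (ZMod p) P P B.V g w) = B.ρ g (σ w) := h1
    rw [h3, h2, map_zero]
  let R : Rep.{0} (ZMod p) P := Rep.of (subRepr (funRepr (ZMod p) P P B.V) K hKst)
  have hses : IsSES R Fr B K.subtype σ :=
    { i_comm := fun g x => rfl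
      q_comm := hσcomm
      inj := Subtype.val_injective
      surj := hσsurj
      exact := fun x => ⟨fun hx => ⟨⟨x, hx⟩, rfl⟩, fun ⟨y, hy⟩ => by rw [← hy]; exact y.2⟩ }
  have h1 := hc.sub _ _ _ _ _ hfinF hses
  have h2 : c Fr = (finrank (ZMod p) B.V : ℤ) * c (regRep (ZMod p) P) :=
    hc.funRepr_eq P (finrank (ZMod p) B.V) B.V inferInstance rfl
  have hfinR : Module.Finite (ZMod p) R.V := inferInstanceAs (Module.Finite (ZMod p) K)
  have h3 := lemmaS_le hP c hc _ R hfinR rfl
  have h4 : finrank (ZMod p) R.V + finrank (ZMod p) B.V = Nat.card P * finrank (ZMod p) B.V := by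
    have h5 := LinearMap.finrank_range_add_finrank_ker σ
    rw [LinearMap.range_eq_top.2 hσsurj, finrank_top] at h5
    have h6 : finrank (ZMod p) Fr.V = Nat.card P * finrank (ZMod p) B.V := by
      change finrank (ZMod p) (P → B.V) = _
      rw [Module.finrank_pi_fintype]
      simp [Nat.card_eq_fintype_card]
    change finrank (ZMod p) (LinearMap.ker σ) + _ = _
    omega
  have h4' : (finrank (ZMod p) R.V : ℤ) + finrank (ZMod p) B.V
      = Nat.card P * finrank (ZMod p) B.V := by exact_mod_cast h4
  set t := c (trivRep (ZMod p) P)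
  set d : ℤ := (finrank (ZMod p) B.V : ℤ)
  set r : ℤ := (finrank (ZMod p) R.V : ℤ)
  have hd : 0 ≤ d := by positivity
  have h7 : d * ((Nat.card P : ℤ) * t) ≤ d * c (regRep (ZMod p) P) :=
    mul_le_mul_of_nonneg_left hreg hd
  have h8 : r = Nat.card P * d - d := by linarith
  rw [h2] at h1
  rw [h8] at h3
  nlinarith

/-- **Lemma S.** -/
theorem lemmaS (hP : IsPGroup p P) [Finite P] (c : Rep.{0} (ZMod p) P → ℤ)
    (hc : IsSubadditive c)
    (hreg : (Nat.card P : ℤ) * c (trivRep (ZMod p) P) ≤ c (regRep (ZMod p) P))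
    (B : Rep.{0} (ZMod p) P) [hB : Module.Finite (ZMod p) B.V] :
    c B = (finrank (ZMod p) B.V : ℤ) * c (trivRep (ZMod p) P) :=
  le_antisymm (lemmaS_le hP c hc _ B hB rfl) (lemmaS_ge hP c hc hreg B)

/-- Consequence: `c` is additive on every short exact sequence ("all defects vanish"). -/
theorem lemmaS_additive (hP : IsPGroup p P) [Finite P] (c : Rep.{0} (ZMod p) P → ℤ)
    (hc : IsSubadditive c)
    (hreg : (Nat.card P : ℤ) * c (trivRep (ZMod p) P) ≤ c (regRep (ZMod p) P))
    (X₁ X₂ X₃ : Rep.{0} (ZMod p) P) (i : X₁.V →ₗ[ZMod p] X₂.V) (q : X₂.V →ₗ[ZMod p] X₃.V)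
    [Module.Finite (ZMod p) X₂.V] (h : IsSES X₁ X₂ X₃ i q) : c X₂ = c X₁ + c X₃ := by
  haveI : Module.Finite (ZMod p) X₁.V := Module.Finite.of_injective i h.inj
  haveI : Module.Finite (ZMod p) X₃.V := Module.Finite.of_surjective q h.surj
  rw [lemmaS hP c hc hreg X₁, lemmaS hP c hc hreg X₂, lemmaS hP c hc hreg X₃]
  have h1 := LinearMap.finrank_range_add_finrank_ker q
  rw [LinearMap.range_eq_top.2 h.surj, finrank_top] at h1
  have h2 : LinearMap.ker q = LinearMap.range i := by
    ext x
    rw [LinearMap.mem_ker, h.exact x, LinearMap.mem_range]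
  rw [h2, LinearMap.finrank_range_of_inj h.inj] at h1
  rw [← h1]
  push_cast
  ring

end pgroup2

end Fermat.Agent.CFT.Pos
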