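/-
CFT / Pos : the induction package for Claim 4 / Lemma S (report #602):
exactness of `indRep`, `Ind(triv) = Fun(G/P)`, `Ind(Fun P) = Fun(G)`.
-/
import Fermat.Agent.CFT.Pos.LemmaS

set_option autoImplicit false

namespace Fermat.Agent.CFT.Pos

open Module

variable {k : Type} [Field k] {G : Type} [Group G] (P : Subgroup G)

lemma indMap_equivar (B B' : Rep.{0} k P) (f : B.V →ₗ[k] B'.V) (hf : IsEquivar B B' f) :
    IsEquivar (indRep P B) (indRep P B') (indMap P B B' f hf) :=
  fun _ _ => rfl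

/-- the element `(out x)⁻¹ * g ∈ P` for `g` in the coset `x`. -/
noncomputable def cosetPart (g : G) : P :=
  ⟨((g : G ⧸ P).out)⁻¹ * g, by
    rw [← QuotientGroup.eq]
    exact QuotientGroup.out_eq' _⟩

lemma out_mul_cosetPart (g : G) : ((g : G ⧸ P).out) * (cosetPart P g : G) = g := by
  simp [cosetPart]

lemma cosetPart_mul (g : G) (u : P) : cosetPart P (g * u) = cosetPart P g * u := by
  apply Subtype.ext
  have h : ((g * u : G) : G ⧸ P) = (g : G ⧸ P) := by
    rw [QuotientGroup.eq]
    simp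
  simp [cosetPart, h, mul_assoc]

/-- An element of the induced representation from its values on the coset representatives. -/
noncomputable def indOfValues (B : Rep.{0} k P) (b : G ⧸ P → B.V) : (indRep P B).V :=
  ⟨fun g => B.ρ (cosetPart P g)⁻¹ (b (g : G ⧸ P)), by
    intro g u
    have h : ((g * u : G) : G ⧸ P) = (g : G ⧸ P) := by
      rw [QuotientGroup.eq]
      simp
    show B.ρ (cosetPart P (g * u))⁻¹ (b ((g * u : G) : G ⧸ P))
      = B.ρ u⁻¹ (B.ρ (cosetPart P g)⁻¹ (b (g : G ⧸ P)))
    rw [h, cosetPart_mul, mul_inv_rev, map_mul]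
    rfl⟩

lemma ind_eq_of_values (B : Rep.{0} k P) (φ : (indRep P B).V) (g : G) :
    φ.1 g = B.ρ (cosetPart P g)⁻¹ (φ.1 ((g : G ⧸ P).out)) := by
  have h := φ.2 ((g : G ⧸ P).out) (cosetPart P g)
  rw [out_mul_cosetPart] at h
  exact h

/-- evaluation on the coset representatives is injective. -/
noncomputable def indValues (B : Rep.{0} k P) : (indRep P B).V →ₗ[k] (G ⧸ P → B.V) where
  toFun φ x := φ.1 x.out
  map_add' _ _ := rfl
  map_smul' _ _ := rfl

lemma indValues_injective (B : Rep.{0} k P) : Function.Injective (indValues P B) := by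
  intro φ ψ h
  apply Subtype.ext
  funext g
  rw [ind_eq_of_values, ind_eq_of_values P B ψ]
  exact congrArg _ (congrFun h (g : G ⧸ P))

instance ind_finite [P.FiniteIndex] (B : Rep.{0} k P) [Module.Finite k B.V] :
    Module.Finite k (indRep P B).V := by
  haveI : Finite (G ⧸ P) := Subgroup.finite_quotient_of_finiteIndex
  exact Module.Finite.of_injective (indValues P B) (indValues_injective P B)

/-- Induction is exact. -/
theorem IsSES.ind {B₁ B₂ B₃ : Rep.{0} k P} {i : B₁.V →ₗ[k] B₂.V} {q : B₂.V →ₗ[k] B₃.V}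
    (h : IsSES B₁ B₂ B₃ i q) :
    IsSES (indRep P B₁) (indRep P B₂) (indRep P B₃) (indMap P B₁ B₂ i h.i_comm)
      (indMap P B₂ B₃ q h.q_comm) where
  i_comm := indMap_equivar P _ _ _ _
  q_comm := indMap_equivar P _ _ _ _
  inj := by
    intro φ ψ hφ
    apply Subtype.ext
    funext g
    apply h.inj
    exact congrFun (congrArg Subtype.val hφ) g
  surj := by
    intro ψ
    choose s hs using h.surj
    refine ⟨indOfValues P B₂ (fun x => s (ψ.1 x.out)), ?_⟩
    apply Subtype.ext
    funext g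
    show q (B₂.ρ (cosetPart P g)⁻¹ (s (ψ.1 ((g : G ⧸ P).out)))) = ψ.1 g
    rw [h.q_comm, hs, ← ind_eq_of_values]
  exact := by
    intro φ
    constructor
    · intro hφ
      have h1 : ∀ g, ∃ y, i y = φ.1 g := fun g =>
        (h.exact _).1 (congrFun (congrArg Subtype.val hφ) g)
      choose t ht using h1
      refine ⟨⟨t, ?_⟩, ?_⟩
      · intro g u
        apply h.inj
        rw [ht, h.i_comm, ht]
        exact φ.2 g u
      · apply Subtype.ext
        funext g
        exact ht g
    · rintro ⟨y, rfl⟩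
      apply Subtype.ext
      funext g
      exact (h.exact _).2 ⟨y.1 g, rfl⟩

/-- A subadditive function composed with induction is subadditive. -/
theorem IsSubadditive.comp_ind [P.FiniteIndex] {c : Rep.{0} k G → ℤ} (hc : IsSubadditive c) :
    IsSubadditive (fun B : Rep.{0} k P => c (indRep P B)) where
  sub := by
    intro X₁ X₂ X₃ i q hfin h
    exact hc.sub _ _ _ _ _ (ind_finite P X₂) (h.ind P)
  split := by
    rintro X₁ X₂ X₃ i q hfin h ⟨s, hs, hqs⟩
    refine hc.split _ _ _ _ _ (ind_finite P X₂) (h.ind P)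
      ⟨indMap P X₃ X₂ s hs, indMap_equivar P _ _ _ _, ?_⟩
    intro φ
    apply Subtype.ext
    funext g
    exact hqs _

/-- `Ind(triv) ≃ Fun(G/P, k)`. -/
noncomputable def indTrivEquiv : (indRep P (trivRep k P)).V ≃ₗ[k] (permRep k P).V where
  toFun φ := fun x => φ.1 x.out
  map_add' _ _ := rfl
  map_smul' _ _ := rfl
  invFun F := ⟨fun g => F (g : G ⧸ P), by
    intro g u
    have h : ((g * u : G) : G ⧸ P) = (g : G ⧸ P) := by
      rw [QuotientGroup.eq]
      simp
    show F ((g * u : G) : G ⧸ P) = F (g : G ⧸ P)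
    rw [h]⟩
  left_inv φ := by
    apply Subtype.ext
    funext g
    show φ.1 ((g : G ⧸ P).out) = φ.1 g
    rw [ind_eq_of_values P _ φ g]
    rfl
  right_inv F := by
    funext x
    show F ((x.out : G) : G ⧸ P) = F x
    rw [QuotientGroup.out_eq']

lemma indTriv_const (φ : (indRep P (trivRep k P)).V) (g : G) :
    φ.1 g = φ.1 ((g : G ⧸ P).out) := by
  rw [ind_eq_of_values P _ φ g]
  rfl

lemma indTrivEquiv_equivar :
    IsEquivar (indRep P (trivRep k P)) (permRep k P) (indTrivEquiv (k := k) P).toLinearMap := by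
  intro g φ
  funext x
  show φ.1 (g⁻¹ * x.out) = φ.1 ((g⁻¹ • x).out)
  rw [indTriv_const P φ (g⁻¹ * x.out)]
  congr 2
  conv_rhs => rw [← QuotientGroup.out_eq' x]
  rfl

/-- `Ind(Fun(P,k)) ≃ Fun(G,k)`. -/
def indRegEquiv : (indRep P (regRep k P)).V ≃ₗ[k] (regRep k G).V where
  toFun φ := fun g => φ.1 g 1
  map_add' _ _ := rfl
  map_smul' _ _ := rfl
  invFun F := ⟨fun g w => F (g * w), by
    intro g u
    funext w
    show F (g * u * w) = F (g * ((u⁻¹)⁻¹ • w : P))
    simp [mul_assoc]⟩
  left_inv φ := by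
    apply Subtype.ext
    funext g w
    show φ.1 (g * w) 1 = φ.1 g w
    rw [φ.2 g w]
    show φ.1 g ((w⁻¹)⁻¹ • (1 : P)) = φ.1 g w
    simp
  right_inv F := by
    funext g
    show F (g * ((1 : P) : G)) = F g
    simp

lemma indRegEquiv_equivar :
    IsEquivar (indRep P (regRep k P)) (regRep k G) (indRegEquiv (k := k) P).toLinearMap :=
  fun _ _ => rfl

end Fermat.Agent.CFT.Pos
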