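/-
CFT / Pos : Claim 4 of the positivity route (report #602) in finite-group form, and the
"all defects vanish" statement used for the local right exactness.
-/
import Fermat.Agent.CFT.Pos.Ind

set_option autoImplicit false

namespace Fermat.Agent.CFT.Pos

open Module

section retract

variable {k : Type} [Field k] {G : Type} [Group G] (P : Subgroup G)

/-- restriction to the subgroup `P`. -/
abbrev resRep (A : Rep.{0} k G) : Rep.{0} k P := Rep.res P.subtype A

/-- `A → Ind Res A`, `a ↦ (g ↦ g⁻¹ a)`. -/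
def indUnit (A : Rep.{0} k G) : A.V →ₗ[k] (indRep P (resRep P A)).V where
  toFun a := ⟨fun g => A.ρ g⁻¹ a, by
    intro g u
    show A.ρ (g * u)⁻¹ a = A.ρ ((u⁻¹ : P) : G) (A.ρ g⁻¹ a)
    rw [mul_inv_rev, map_mul]
    rfl⟩
  map_add' a b := by
    apply Subtype.ext
    funext g
    exact map_add _ _ _
  map_smul' c a := by
    apply Subtype.ext
    funext g
    exact map_smul _ _ _

lemma indUnit_equivar (A : Rep.{0} k G) :
    IsEquivar A (indRep P (resRep P A)) (indUnit P A) := by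
  intro h a
  apply Subtype.ext
  funext g
  show A.ρ g⁻¹ (A.ρ h a) = A.ρ (h⁻¹ * g)⁻¹ a
  rw [mul_inv_rev, inv_inv, map_mul]
  rfl

/-- the function `x = gP ↦ g • φ g`. -/
noncomputable def indTwist (A : Rep.{0} k G) :
    (indRep P (resRep P A)).V →ₗ[k] (G ⧸ P → A.V) where
  toFun φ x := A.ρ x.out (φ.1 x.out)
  map_add' a b := by
    funext x
    exact map_add _ _ _
  map_smul' c a := by
    funext x
    exact map_smul _ _ _

lemma indTwist_mk (A : Rep.{0} k G) (φ : (indRep P (resRep P A)).V) (g : G) :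
    indTwist P A φ (g : G ⧸ P) = A.ρ g (φ.1 g) := by
  show A.ρ ((g : G ⧸ P).out) (φ.1 ((g : G ⧸ P).out)) = A.ρ g (φ.1 g)
  rw [ind_eq_of_values P _ φ g]
  show _ = A.ρ g (A.ρ (((cosetPart P g)⁻¹ : P) : G) (φ.1 ((g : G ⧸ P).out)))
  have hg : g * (((cosetPart P g)⁻¹ : P) : G) = (g : G ⧸ P).out := by
    rw [Subgroup.coe_inv, mul_inv_eq_iff_eq_mul]
    exact (out_mul_cosetPart P g).symm
  rw [← LinearMap.comp_apply, ← Module.End.mul_eq_comp, ← map_mul, hg]

lemma indTwist_smul (A : Rep.{0} k G) (φ : (indRep P (resRep P A)).V) (h : G) (x : G ⧸ P) :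
    indTwist P A ((indRep P (resRep P A)).ρ h φ) x = A.ρ h (indTwist P A φ (h⁻¹ • x)) := by
  obtain ⟨g, rfl⟩ := QuotientGroup.mk_surjective x
  have h1 : h⁻¹ • (g : G ⧸ P) = ((h⁻¹ * g : G) : G ⧸ P) := rfl
  rw [h1, indTwist_mk, indTwist_mk]
  show A.ρ g (φ.1 (h⁻¹ * g)) = A.ρ h (A.ρ (h⁻¹ * g) (φ.1 (h⁻¹ * g)))
  rw [← LinearMap.comp_apply, ← Module.End.mul_eq_comp, ← map_mul]
  simp

variable [P.FiniteIndex]

/-- the averaging retraction `Ind Res A → A`. -/
noncomputable def indAvg (A : Rep.{0} k G) : (indRep P (resRep P A)).V →ₗ[k] A.V :=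
  haveI : Finite (G ⧸ P) := Subgroup.finite_quotient_of_finiteIndex
  haveI := Fintype.ofFinite (G ⧸ P)
  ((P.index : k)⁻¹) • ∑ x : G ⧸ P, (LinearMap.proj x : (G ⧸ P → A.V) →ₗ[k] A.V) ∘ₗ indTwist P A

lemma indAvg_apply (A : Rep.{0} k G) [Fintype (G ⧸ P)] (φ : (indRep P (resRep P A)).V) :
    indAvg P A φ = ((P.index : k)⁻¹) • ∑ x : G ⧸ P, indTwist P A φ x := by
  unfold indAvg
  simp only [LinearMap.smul_apply, LinearMap.sum_apply, LinearMap.comp_apply, LinearMap.proj_apply]
  congr 1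
  apply Finset.sum_congr
  · ext; simp
  · intros; rfl

lemma indAvg_equivar (A : Rep.{0} k G) :
    IsEquivar (indRep P (resRep P A)) A (indAvg P A) := by
  haveI : Finite (G ⧸ P) := Subgroup.finite_quotient_of_finiteIndex
  haveI := Fintype.ofFinite (G ⧸ P)
  intro h φ
  rw [indAvg_apply, indAvg_apply, map_smul, map_sum]
  congr 1
  rw [← Equiv.sum_comp (MulAction.toPerm h⁻¹ : Equiv.Perm (G ⧸ P))
    (fun y => A.ρ h (indTwist P A φ y))]
  refine Finset.sum_congr rfl fun x _ => ?_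
  exact indTwist_smul P A φ h x

lemma indAvg_unit (A : Rep.{0} k G) (hidx : (P.index : k) ≠ 0) (a : A.V) :
    indAvg P A (indUnit P A a) = a := by
  haveI : Finite (G ⧸ P) := Subgroup.finite_quotient_of_finiteIndex
  haveI := Fintype.ofFinite (G ⧸ P)
  rw [indAvg_apply]
  have h1 : ∀ x : G ⧸ P, indTwist P A (indUnit P A a) x = a := by
    intro x
    show A.ρ x.out (A.ρ (x.out)⁻¹ a) = a
    rw [← LinearMap.comp_apply, ← Module.End.mul_eq_comp, ← map_mul]
    simp
  simp only [h1, Finset.sum_const, Finset.card_univ]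
  rw [← Nat.card_eq_fintype_card, ← Subgroup.index_eq_card, ← Nat.cast_smul_eq_nsmul k, smul_smul,
    inv_mul_cancel₀ hidx, one_smul]

lemma indAvg_natural (A A' : Rep.{0} k G) (f : A.V →ₗ[k] A'.V) (hf : IsEquivar A A' f)
    (φ : (indRep P (resRep P A)).V) :
    indAvg P A' (indMap P (resRep P A) (resRep P A') f (fun u x => hf u x) φ)
      = f (indAvg P A φ) := by
  haveI : Finite (G ⧸ P) := Subgroup.finite_quotient_of_finiteIndex
  haveI := Fintype.ofFinite (G ⧸ P)
  rw [indAvg_apply, indAvg_apply, map_smul, map_sum]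
  congr 1
  refine Finset.sum_congr rfl fun x _ => ?_
  exact (hf _ _).symm

omit [P.FiniteIndex] in
lemma indUnit_natural (A A' : Rep.{0} k G) (f : A.V →ₗ[k] A'.V) (hf : IsEquivar A A' f)
    (a : A.V) :
    indMap P (resRep P A) (resRep P A') f (fun u x => hf u x) (indUnit P A a)
      = indUnit P A' (f a) := by
  apply Subtype.ext
  funext g
  exact hf _ _

/-- the complement of `A` in `Ind Res A`. -/
noncomputable abbrev indCompl (A : Rep.{0} k G) : Rep.{0} k G :=
  Rep.of (subRepr (indRep P (resRep P A)).ρ (LinearMap.ker (indAvg P A)) (by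
    intro g w hw
    rw [LinearMap.mem_ker] at hw ⊢
    rw [indAvg_equivar P A g w, hw, map_zero]))

lemma indCompl_isSES (A : Rep.{0} k G) (hidx : (P.index : k) ≠ 0) :
    IsSES (indCompl P A) (indRep P (resRep P A)) A (LinearMap.ker (indAvg P A)).subtype
      (indAvg P A) where
  i_comm := fun _ _ => rfl
  q_comm := indAvg_equivar P A
  inj := Subtype.val_injective
  surj := fun a => ⟨indUnit P A a, indAvg_unit P A hidx a⟩
  exact := fun x => ⟨fun hx => ⟨⟨x, hx⟩, rfl⟩, fun ⟨y, hy⟩ => by rw [← hy]; exact y.2⟩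

/-- `c (Ind Res A) = c (complement) + c A`. -/
lemma IsSubadditive.ind_res_eq {c : Rep.{0} k G → ℤ} (hc : IsSubadditive c) (A : Rep.{0} k G)
    [Module.Finite k A.V] (hidx : (P.index : k) ≠ 0) :
    c (indRep P (resRep P A)) = c (indCompl P A) + c A :=
  hc.split _ _ _ _ _ (ind_finite P (resRep P A)) (indCompl_isSES P A hidx)
    ⟨indUnit P A, indUnit_equivar P A, indAvg_unit P A hidx⟩

end retract

section main

variable {p : ℕ} [Fact p.Prime] {Γ : Type} [Group Γ] (P : Subgroup Γ) [P.FiniteIndex]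

omit [P.FiniteIndex] in
lemma index_ne_zero_of_not_dvd (hidx : ¬ p ∣ P.index) : (P.index : ZMod p) ≠ 0 := by
  rwa [Ne, ZMod.natCast_eq_zero_iff]

/-- **Claim 4** (finite group form): `ψ` subadditive and nonnegative, `P` a `p`-subgroup of index
prime to `p`.  Then `ψ A ≤ dim A * ψ (Fun(Γ/P, 𝔽_p))`. -/
theorem claim4 (hP : IsPGroup p P) (hidx : ¬ p ∣ P.index)
    (ψ : Rep.{0} (ZMod p) Γ → ℤ) (hψ : IsSubadditive ψ)
    (hpos : ∀ X : Rep.{0} (ZMod p) Γ, Module.Finite (ZMod p) X.V → 0 ≤ ψ X)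
    (A : Rep.{0} (ZMod p) Γ) [Module.Finite (ZMod p) A.V] :
    ψ A ≤ (finrank (ZMod p) A.V : ℤ) * ψ (permRep (ZMod p) P) := by
  have h1 := hψ.ind_res_eq P A (index_ne_zero_of_not_dvd P hidx)
  have hfin : Module.Finite (ZMod p) (indRep P (resRep P A)).V := ind_finite P (resRep P A)
  have h2 : 0 ≤ ψ (indCompl P A) :=
    hpos _ (inferInstanceAs (Module.Finite (ZMod p) (LinearMap.ker (indAvg P A))))
  have h3 := lemmaS_le hP _ (hψ.comp_ind P) _ (resRep P A)
    (inferInstanceAs (Module.Finite (ZMod p) A.V)) rfl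
  have h4 : ψ (indRep P (trivRep (ZMod p) P)) = ψ (permRep (ZMod p) P) :=
    hψ.eq_of_equiv _ _ (indTrivEquiv P) (indTrivEquiv_equivar P)
  rw [h4] at h3
  have h5 : finrank (ZMod p) (resRep P A).V = finrank (ZMod p) A.V := rfl
  rw [h5] at h3
  linarith

/-- **All defects vanish**: if `χ` is subadditive on `Γ`-representations and
`|P| * χ(Fun(Γ/P)) ≤ χ(Fun(Γ))` for a finite `p`-subgroup `P` of index prime to `p`, then `χ` is
additive on every short exact sequence of finite-dimensional `Γ`-representations. -/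
theorem additive_of_numerics (hP : IsPGroup p P) [Finite P] (hidx : ¬ p ∣ P.index)
    (χ : Rep.{0} (ZMod p) Γ → ℤ) (hχ : IsSubadditive χ)
    (hnum : (Nat.card P : ℤ) * χ (permRep (ZMod p) P) ≤ χ (regRep (ZMod p) Γ))
    (X₁ X₂ X₃ : Rep.{0} (ZMod p) Γ) (i : X₁.V →ₗ[ZMod p] X₂.V) (q : X₂.V →ₗ[ZMod p] X₃.V)
    [Module.Finite (ZMod p) X₂.V] (h : IsSES X₁ X₂ X₃ i q) : χ X₂ = χ X₁ + χ X₃ := by
  have hidx' := index_ne_zero_of_not_dvd P hidx
  haveI : Module.Finite (ZMod p) X₁.V := Module.Finite.of_injective i h.inj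
  haveI : Module.Finite (ZMod p) X₃.V := Module.Finite.of_surjective q h.surj
  have hc := hχ.comp_ind P
  have h4 : χ (indRep P (trivRep (ZMod p) P)) = χ (permRep (ZMod p) P) :=
    hχ.eq_of_equiv _ _ (indTrivEquiv P) (indTrivEquiv_equivar P)
  have h5 : χ (indRep P (regRep (ZMod p) P)) = χ (regRep (ZMod p) Γ) := by
    haveI : Module.Finite (ZMod p) (regRep (ZMod p) P).V :=
      inferInstanceAs (Module.Finite (ZMod p) (P → ZMod p))
    exact hχ.eq_of_equiv _ _ (indRegEquiv P) (indRegEquiv_equivar P)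
  -- the restricted sequence
  have hres : IsSES (resRep P X₁) (resRep P X₂) (resRep P X₃) i q :=
    { i_comm := fun u x => h.i_comm u x
      q_comm := fun u x => h.q_comm u x
      inj := h.inj
      surj := h.surj
      exact := h.exact }
  haveI : Module.Finite (ZMod p) (resRep P X₂).V := inferInstanceAs (Module.Finite (ZMod p) X₂.V)
  have hadd := lemmaS_additive hP _ hc (by rw [h4, h5]; exact hnum)
    (resRep P X₁) (resRep P X₂) (resRep P X₃) i q hres
  have e1 := hχ.ind_res_eq P X₁ hidx'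
  have e2 := hχ.ind_res_eq P X₂ hidx'
  have e3 := hχ.ind_res_eq P X₃ hidx'
  have s1 := hχ.sub _ _ _ _ _ inferInstance h
  -- the sequence of complements
  let I := indMap P (resRep P X₁) (resRep P X₂) i hres.i_comm
  let Q := indMap P (resRep P X₂) (resRep P X₃) q hres.q_comm
  have hind := hres.ind P
  have hI : ∀ φ, indAvg P X₂ (I φ) = i (indAvg P X₁ φ) := indAvg_natural P X₁ X₂ i h.i_comm
  have hQ : ∀ φ, indAvg P X₃ (Q φ) = q (indAvg P X₂ φ) := indAvg_natural P X₂ X₃ q h.q_comm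
  let Ic : (indCompl P X₁).V →ₗ[ZMod p] (indCompl P X₂).V :=
    I.restrict (p := LinearMap.ker (indAvg P X₁)) (q := LinearMap.ker (indAvg P X₂)) (by
      intro φ hφ
      rw [LinearMap.mem_ker] at hφ ⊢
      rw [hI, hφ, map_zero])
  let Qc : (indCompl P X₂).V →ₗ[ZMod p] (indCompl P X₃).V :=
    Q.restrict (p := LinearMap.ker (indAvg P X₂)) (q := LinearMap.ker (indAvg P X₃)) (by
      intro φ hφ
      rw [LinearMap.mem_ker] at hφ ⊢
      rw [hQ, hφ, map_zero])
  have hcs : IsSES (indCompl P X₁) (indCompl P X₂) (indCompl P X₃) Ic Qc :=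
    { i_comm := fun g x => Subtype.ext (hind.i_comm g x.1)
      q_comm := fun g x => Subtype.ext (hind.q_comm g x.1)
      inj := by
        intro a b hab
        apply Subtype.ext
        apply hind.inj
        exact congrArg Subtype.val hab
      surj := by
        intro c₃
        obtain ⟨f₂, hf₂⟩ := hind.surj c₃.1
        have hc₃ : indAvg P X₃ c₃.1 = 0 := c₃.2
        refine ⟨⟨f₂ - indUnit P X₂ (indAvg P X₂ f₂), ?_⟩, ?_⟩
        · rw [LinearMap.mem_ker, map_sub, indAvg_unit P X₂ hidx', sub_self]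
        · apply Subtype.ext
          show Q (f₂ - indUnit P X₂ (indAvg P X₂ f₂)) = c₃.1
          have h6 : Q (indUnit P X₂ (indAvg P X₂ f₂)) = indUnit P X₃ (q (indAvg P X₂ f₂)) :=
            indUnit_natural P X₂ X₃ q h.q_comm _
          have h7 : Q f₂ = c₃.1 := hf₂
          rw [map_sub, h6, ← hQ, h7, hc₃, map_zero, sub_zero]
      exact := by
        intro c₂
        constructor
        · intro hc₂
          obtain ⟨f₁, hf₁⟩ := (hind.exact c₂.1).1 (congrArg Subtype.val hc₂)
          refine ⟨⟨f₁, ?_⟩, Subtype.ext hf₁⟩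
          rw [LinearMap.mem_ker]
          apply h.inj
          have h8 : I f₁ = c₂.1 := hf₁
          rw [← hI, h8, map_zero]
          exact c₂.2
        · rintro ⟨y, rfl⟩
          apply Subtype.ext
          exact (hind.exact _).2 ⟨y.1, rfl⟩ }
  have hfin2 : Module.Finite (ZMod p) (indRep P (resRep P X₂)).V := ind_finite P (resRep P X₂)
  have s2 := hχ.sub _ _ _ _ _
    (inferInstanceAs (Module.Finite (ZMod p) (LinearMap.ker (indAvg P X₂)))) hcs
  linarith

end main

end Fermat.Agent.CFT.Pos
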