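/-
CFT / Pos : instantiation of Claims 1 and 2 (`Pos/Claims.lean`) with `Hlc` for a `Datum`.
The local pairings `P²(X) × P⁰(X') → 𝔽_p` are kept abstract (hypotheses: adjointness, (GR), (LD),
(GE)); everything cohomological (exactness, commuting squares) is proved here.
-/
import Fermat.Agent.CFT.Pos.Claims
import Fermat.Agent.CFT.Top.PTStmts
import Fermat.Agent.CFT.Top.Inputs2
import Fermat.Agent.CFT.Top.LES
import Fermat.Agent.CFT.Top.DeltaNat
import Fermat.Agent.CFT.Top.Pi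
import Fermat.Agent.CFT.Top.SCa
import Fermat.Agent.CFT.Top.SCb

set_option autoImplicit false

noncomputable section

namespace Fermat.Agent.CFT.Pos.Inst

open Fermat.Agent.CFT.Top Fermat.Agent.CFT.Top.Cpx Module CategoryTheory

variable {p : ℕ} [Fact p.Prime] (D : Datum p)

/-- restriction to a local group of a module trivial on a level is trivial on a level -/
lemma isTrivOn_res {X : Rep.{0} (ZMod p) D.G} (h : IsTrivOn D.𝒰 X) (v : D.ι) :
    IsTrivOn (D.𝒰v v) (Rep.res (D.φ v) X) := by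
  obtain ⟨U, hU, hX⟩ := h
  obtain ⟨V, hV, hVU⟩ := D.cont v U hU
  exact ⟨V, hV, fun u hu m => hX _ (hVU hu) m⟩

section SES

variable {X₁ X₂ X₃ : Rep.{0} (ZMod p) D.G} (i : X₁ ⟶ X₂) (q : X₂ ⟶ X₃)

/-- global short exact sequence of complexes -/
lemma gSES (h : IsShortExact i q) (ht : IsTrivOn D.𝒰 X₂) :
    IsSES (lcCoeff D.𝒰 i) (lcCoeff D.𝒰 q) :=
  lcCoeff_isSES D.𝒰 i q h.1 h.2.1 h.2.2 ht.isDisc

/-- local short exact sequence of complexes -/
lemma lSES (h : IsShortExact i q) (ht : IsTrivOn D.𝒰 X₂) :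
    IsSES (D.locMap i) (D.locMap q) :=
  stmt_piSES (ZMod p) D.ι _ _ _ _ _ fun v =>
    lcCoeff_isSES (D.𝒰v v) (Rep.resMap (D.φ v) i) (Rep.resMap (D.φ v) q) h.1 h.2.1 h.2.2
      (isTrivOn_res D ht v).isDisc

end SES

/-- localisation commutes with coefficient maps -/
lemma loc_coeff {X Y : Rep.{0} (ZMod p) D.G} (f : X ⟶ Y) (n : ℕ) (x : Hlc D.𝒰 X n) :
    (D.loc Y).mapH n ((lcCoeff D.𝒰 f).mapH n x) = (D.locMap f).mapH n ((D.loc X).mapH n x) := by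
  obtain ⟨z, rfl⟩ := (lcCpx D.𝒰 X).cls_surjective n x
  rfl

/-- localisation commutes with connecting homomorphisms -/
lemma loc_delta {X₁ X₂ X₃ : Rep.{0} (ZMod p) D.G} (i : X₁ ⟶ X₂) (q : X₂ ⟶ X₃)
    (h : IsShortExact i q) (ht : IsTrivOn D.𝒰 X₂) (n : ℕ) (x : Hlc D.𝒰 X₃ n) :
    delta (D.locMap i) (D.locMap q) n ((D.loc X₃).mapH n x)
      = (D.loc X₁).mapH (n + 1) (delta (lcCoeff D.𝒰 i) (lcCoeff D.𝒰 q) n x) :=
  stmt_deltaNat stmt_delta (ZMod p) _ _ _ _ _ _ _ _ _ _ (D.loc X₁) (D.loc X₂) (D.loc X₃)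
    (gSES D i q h ht) (lSES D i q h ht) (fun _ _ => rfl) (fun _ _ => rfl) n x

/-- the twisted dual of a short exact sequence is short exact -/
lemma dual_isShortExact {G : Type} [Group G] (χ : G →* (ZMod p)ˣ) {X₁ X₂ X₃ : Rep.{0} (ZMod p) G}
    (i : X₁ ⟶ X₂) (q : X₂ ⟶ X₃) (h : IsShortExact i q) :
    IsShortExact (dualTwistMap χ q) (dualTwistMap χ i) := by
  obtain ⟨hi, hq, hex⟩ := h
  refine ⟨fun a b hab => ?_, fun n => ?_, fun b => ⟨fun hb => ?_, ?_⟩⟩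
  · refine LinearMap.ext fun x => ?_
    obtain ⟨y, rfl⟩ := hq x
    exact LinearMap.congr_fun hab y
  · have hinj : LinearMap.ker i.hom.toLinearMap = ⊥ := LinearMap.ker_eq_bot.2 hi
    obtain ⟨g, hg⟩ := LinearMap.exists_leftInverse_of_injective i.hom.toLinearMap hinj
    refine ⟨(show Module.Dual (ZMod p) X₁ from n).comp g, ?_⟩
    refine LinearMap.ext fun x => ?_
    show (show Module.Dual (ZMod p) X₁ from n) (g (i.hom x)) = _
    have := LinearMap.congr_fun hg x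
    simp only [LinearMap.comp_apply, LinearMap.id_apply] at this
    erw [this]
  · -- `b` vanishes on the image of `i`, hence factors through `q`
    have hker : LinearMap.ker q.hom.toLinearMap ≤ LinearMap.ker (show Module.Dual (ZMod p) X₂ from b) := by
      intro x hx
      obtain ⟨a, rfl⟩ := (hex x).1 hx
      exact LinearMap.congr_fun hb a
    have hsurj : LinearMap.range q.hom.toLinearMap = ⊤ := LinearMap.range_eq_top.2 hq
    obtain ⟨g, hg⟩ := LinearMap.exists_rightInverse_of_surjective q.hom.toLinearMap hsurj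
    refine ⟨(show Module.Dual (ZMod p) X₂ from b).comp g, ?_⟩
    refine LinearMap.ext fun x => ?_
    show (show Module.Dual (ZMod p) X₂ from b) (g (q.hom x)) = (show Module.Dual (ZMod p) X₂ from b) x
    have h1 : g (q.hom x) - x ∈ LinearMap.ker q.hom.toLinearMap := by
      rw [LinearMap.mem_ker, map_sub]
      have := LinearMap.congr_fun hg (q.hom x)
      simp only [LinearMap.comp_apply, LinearMap.id_apply] at this
      erw [this]
      exact sub_self _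
    have h2 := hker h1
    rw [LinearMap.mem_ker, map_sub, sub_eq_zero] at h2
    exact h2
  · rintro ⟨a, rfl⟩
    refine LinearMap.ext fun x => ?_
    show (show Module.Dual (ZMod p) X₃ from a) (q.hom (i.hom x)) = 0
    rw [(hex (i.hom x)).2 ⟨x, rfl⟩, map_zero]

/-- twisted dual of a module trivial on a level -/
lemma isTrivOn_dual {X : Rep.{0} (ZMod p) D.G} (h : IsTrivOn D.𝒰 X) :
    IsTrivOn D.𝒰 (X.dualTwist D.χ) := by
  obtain ⟨U, hU, hX⟩ := h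
  obtain ⟨V, hV, hχ⟩ := D.χtriv
  obtain ⟨W, hW, h1, h2⟩ := D.𝒰.dir U hU V hV
  refine ⟨W, hW, fun u hu n => ?_⟩
  rw [Rep.dualTwist_ρ_apply, hχ u (h2 hu)]
  refine LinearMap.ext fun x => ?_
  show ((1 : (ZMod p)ˣ) : ZMod p) • (show Module.Dual (ZMod p) X from n) (X.ρ u⁻¹ x) = _
  rw [hX u⁻¹ (U.inv_mem (h1 hu)) x, Units.val_one, one_smul]

/-- `H⁰(G, X) → ∏_v H⁰(G_v, X)` is injective. -/
lemma loc_zero_injective [Nonempty D.ι] (X : Rep.{0} (ZMod p) D.G) :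
    Function.Injective ((D.loc X).mapH 0) := by
  rw [injective_iff_map_eq_zero]
  intro x hx
  obtain ⟨z, rfl⟩ := (lcCpx D.𝒰 X).cls_surjective 0 x
  rw [Hom.mapH_cls, cls_eq_zero_iff, mem_B_zero] at hx
  rw [cls_eq_zero_iff, mem_B_zero]
  obtain ⟨v⟩ := (inferInstance : Nonempty D.ι)
  have h1 := congrFun hx v
  have h2 : (show ↥(lcCochains (D.𝒰v v) (Rep.res (D.φ v) X) 0) from
      ((D.loc X).f 0 z.1 : ∀ v, (D.locCpxAt X v).X 0) v).1 = 0 := congrArg Subtype.val h1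
  refine Subtype.ext (funext fun g => ?_)
  have h3 := congrFun h2 default
  have h4 : g = fun i => D.φ v ((default : Fin 0 → D.Gv v) i) := Subsingleton.elim _ _
  rw [h4]
  exact h3

section Claims

variable {N I A : Rep.{0} (ZMod p) D.G} (i : N ⟶ I) (q : I ⟶ A)

/-- notation: `X' = X^*(χ)` -/
local notation X "′" => Rep.dualTwist X D.χ

/-- **Claim 1 for a datum**, pairings abstract. -/
theorem claim1 [Nonempty D.ι] (h : IsShortExact i q) (ht : IsTrivOn D.𝒰 I)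
    [FiniteDimensional (ZMod p) (Hlc D.𝒰 A 2)]
    (BN : (D.locCpx N).H 2 →ₗ[ZMod p] (D.locCpx (N′)).H 0 →ₗ[ZMod p] ZMod p)
    (BI : (D.locCpx I).H 2 →ₗ[ZMod p] (D.locCpx (I′)).H 0 →ₗ[ZMod p] ZMod p)
    (hadjN : ∀ z μ, BI ((D.locMap i).mapH 2 z) μ
      = BN z ((D.locMap (dualTwistMap D.χ i)).mapH 0 μ))
    (hGRN : ∀ n η, BN ((D.loc N).mapH 2 n) ((D.loc (N′)).mapH 0 η) = 0)
    (hperp : ∀ μ, (∀ g, (D.locMap q).mapH 2 ((D.loc I).mapH 2 g) = 0 →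
        BI ((D.loc I).mapH 2 g) μ = 0) →
      ∃ α γ, μ = (D.locMap (dualTwistMap D.χ q)).mapH 0 α + (D.loc (I′)).mapH 0 γ)
    (heff : ∀ y : Hlc D.𝒰 (A′) 1, (lcCoeff D.𝒰 (dualTwistMap D.χ q)).mapH 1 y = 0) :
    D.shadim (A′) 1 ≤ D.shadim A 2 := by
  have hd := dual_isShortExact D.χ i q h
  have htd := isTrivOn_dual D ht
  have g1 := stmt_les (ZMod p) _ _ _ _ _ (gSES D i q h ht)
  have g2 := stmt_les (ZMod p) _ _ _ _ _ (gSES D _ _ hd htd)
  have l2 := stmt_les (ZMod p) _ _ _ _ _ (lSES D _ _ hd htd)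
  exact Pos.claim1 (F := ZMod p)
    ((lcCoeff D.𝒰 i).mapH 2) ((lcCoeff D.𝒰 q).mapH 2)
    (fun g hg => (g1.2.1 2 g).1 hg)
    ((D.locMap i).mapH 2) ((D.locMap q).mapH 2)
    ((D.loc N).mapH 2) ((D.loc I).mapH 2) ((D.loc A).mapH 2)
    (fun n => loc_coeff D i 2 n) (fun g => loc_coeff D q 2 g)
    ((lcCoeff D.𝒰 (dualTwistMap D.χ i)).mapH 0)
    (delta (lcCoeff D.𝒰 (dualTwistMap D.χ q)) (lcCoeff D.𝒰 (dualTwistMap D.χ i)) 0)
    (fun γ => (g2.2.2.1 0 _).2 ⟨γ, rfl⟩)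
    ((D.locMap (dualTwistMap D.χ q)).mapH 0) ((D.locMap (dualTwistMap D.χ i)).mapH 0)
    (delta (D.locMap (dualTwistMap D.χ q)) (D.locMap (dualTwistMap D.χ i)) 0)
    (fun α => (l2.2.1 0 _).2 ⟨α, rfl⟩)
    (fun x hx => (l2.2.2.1 0 x).1 hx)
    ((D.loc (I′)).mapH 0) ((D.loc (N′)).mapH 0) ((D.loc (A′)).mapH 1)
    (fun γ => loc_coeff D _ 0 γ)
    (fun η => (loc_delta D _ _ hd htd 0 η).symm)
    (loc_zero_injective D _)
    BN BI hadjN hGRN hperp
    (fun y _ => (g2.2.2.2 0 y).1 (heff y))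

/-- **Claim 2 for a datum**, pairings abstract. -/
theorem claim2 (h : IsShortExact i q) (ht : IsTrivOn D.𝒰 I)
    [FiniteDimensional (ZMod p) ((D.locCpx A).H 1)]
    (BN : (D.locCpx N).H 2 →ₗ[ZMod p] (D.locCpx (N′)).H 0 →ₗ[ZMod p] ZMod p)
    (BI : (D.locCpx I).H 2 →ₗ[ZMod p] (D.locCpx (I′)).H 0 →ₗ[ZMod p] ZMod p)
    (hadjN : ∀ z μ, BI ((D.locMap i).mapH 2 z) μ
      = BN z ((D.locMap (dualTwistMap D.χ i)).mapH 0 μ))
    (hBNinj : ∀ ξ, (∀ z, BN z ξ = 0) → ξ = 0)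
    (hBIsurj : ∀ φ : Dual (ZMod p) ((D.locCpx I).H 2), ∃ μ, ∀ z, BI z μ = φ z)
    (hGRN : ∀ n η, BN ((D.loc N).mapH 2 n) ((D.loc (N′)).mapH 0 η) = 0)
    (heff : ∀ y : Hlc D.𝒰 (A′) 1, (lcCoeff D.𝒰 (dualTwistMap D.χ q)).mapH 1 y = 0) :
    finrank (ZMod p) (LinearMap.range ((D.loc A).mapH 1))
      + finrank (ZMod p) (LinearMap.range ((D.loc (A′)).mapH 1)) ≤ D.pdim A 1 := by
  have hd := dual_isShortExact D.χ i q h
  have htd := isTrivOn_dual D ht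
  have l1 := stmt_les (ZMod p) _ _ _ _ _ (lSES D i q h ht)
  have g2 := stmt_les (ZMod p) _ _ _ _ _ (gSES D _ _ hd htd)
  have l2 := stmt_les (ZMod p) _ _ _ _ _ (lSES D _ _ hd htd)
  exact Pos.claim2 (F := ZMod p)
    ((D.loc A).mapH 1) (delta (lcCoeff D.𝒰 i) (lcCoeff D.𝒰 q) 1)
    (delta (D.locMap i) (D.locMap q) 1) ((D.loc N).mapH 2)
    (fun x => (loc_delta D i q h ht 1 x).symm)
    ((D.locMap i).mapH 2) (fun z hz => (l1.2.2.2 1 z).1 hz)
    (delta (lcCoeff D.𝒰 (dualTwistMap D.χ q)) (lcCoeff D.𝒰 (dualTwistMap D.χ i)) 0)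
    (fun y => (g2.2.2.2 0 y).1 (heff y))
    ((D.locMap (dualTwistMap D.χ i)).mapH 0)
    (delta (D.locMap (dualTwistMap D.χ q)) (D.locMap (dualTwistMap D.χ i)) 0)
    (fun μ => (l2.2.2.1 0 _).2 ⟨μ, rfl⟩)
    ((D.loc (N′)).mapH 0) ((D.loc (A′)).mapH 1)
    (fun η => (loc_delta D _ _ hd htd 0 η).symm)
    BN BI hadjN hBNinj hBIsurj hGRN

end Claims

end Fermat.Agent.CFT.Pos.Inst

end
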