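/-
CFT / Pos : the pairing `pairD` : adjointness, (GR) for all modules, and the final forms of
Claims 1, 2 for a `Datum`.
-/
import Fermat.Agent.CFT.Pos.Defs
import Fermat.Agent.CFT.Pos.Inst

set_option autoImplicit false

noncomputable section

namespace Fermat.Agent.CFT.Pos

open _root_.Fermat.Agent.CFT.Top _root_.Fermat.Agent.CFT.Top.Cpx Module CategoryTheory

variable {p : ℕ} [Fact p.Prime] (D : Datum p)

lemma Pmap_eq_locMap {X Y : Rep.{0} (ZMod p) D.G} (f : X ⟶ Y) : Pmap D f = D.locMap f := rfl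

lemma dag_eq_dualTwistMap {X Y : Rep.{0} (ZMod p) D.G} (f : X ⟶ Y) :
    dag D.χ f = dualTwistMap D.χ f := rfl

/-- components of `PM` -/
lemma prV_PM {X Y : Rep.{0} (ZMod p) D.G} (f : X ⟶ Y) (v : D.ι) (n : ℕ) (z : Pl D X n) :
    prV D Y v n (PM D f n z) = (Vmap D f v).mapH n (prV D X v n z) := by
  obtain ⟨c, rfl⟩ := (D.locCpx X).cls_surjective n z
  rfl

/-- components of the localisation -/
lemma prV_locH (X : Rep.{0} (ZMod p) D.G) (v : D.ι) (n : ℕ) (x : Hlc D.𝒰 X n) :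
    prV D X v n (locH D X n x) = (lcRes (D.φ v) (D.cont v) X).mapH n x := by
  obtain ⟨c, rfl⟩ := (lcCpx D.𝒰 X).cls_surjective n x
  rfl

section OneGroup

variable {k : Type} [Field k] {G : Type} [Group G] (𝒰 : LevelSys G)

/-- `val0` is natural -/
lemma val0_HM {X Y : Rep.{0} k G} (f : X ⟶ Y) (η : Hlc 𝒰 X 0) :
    val0 𝒰 Y (HM 𝒰 f 0 η) = f.hom (val0 𝒰 X η) := by
  obtain ⟨m, rfl⟩ := (H0Equiv 𝒰 X).surjective η
  have h1 : HM 𝒰 f 0 (H0Equiv 𝒰 X m)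
      = cls0 𝒰 Y ⟨f.hom m.1, map_mem_invariants (MonoidHom.id G) f.hom.toLinearMap
          (fun g m => Rep.hom_comm_apply f g m) m.2⟩ := rfl
  rw [h1, val0_cls0]
  show f.hom m.1 = f.hom (val0 𝒰 X (cls0 𝒰 X m))
  rw [val0_cls0]

/-- functoriality of `HE` -/
lemma HE_comp {X Y Z : Rep.{0} k G} (e : EqHom X Y) (e' : EqHom Y Z) (e'' : EqHom X Z)
    (h : ∀ x, e''.1 x = e'.1 (e.1 x)) (n : ℕ) (z : Hlc 𝒰 X n) :
    HE 𝒰 e'' n z = HE 𝒰 e' n (HE 𝒰 e n z) := by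
  obtain ⟨c, rfl⟩ := (lcCpx 𝒰 X).cls_surjective n z
  have : e''.1 = e'.1 ∘ₗ e.1 := LinearMap.ext h
  obtain ⟨e1, he1⟩ := e''
  simp only at this
  subst this
  rfl

end OneGroup

/-- the equivariant map `Res_v X → Res_v μ` attached to a class in `H⁰(G_v, X†)`. -/
def etaV (X : Rep.{0} (ZMod p) D.G) (v : D.ι) (η : (D.locCpxAt (dg D X) v).H 0) :
    EqHom (Rep.res (D.φ v) X) (Rep.res (D.φ v) D.mu) :=
  h0ToEq (D.𝒰v v) (Y' := Rep.res (D.φ v) (dg D X)) (Y := Rep.res (D.φ v) X)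
    (M := Rep.res (D.φ v) D.mu) (evB D.χ X) (fun g e x => evB_equivar D.χ X (D.φ v g) e x) η

lemma pairV_apply (X : Rep.{0} (ZMod p) D.G) (v : D.ι) (z : (D.locCpxAt X v).H 2)
    (η : (D.locCpxAt (dg D X) v).H 0) :
    pairV D X v z η = HE (D.𝒰v v) (etaV D X v η) 2 z := rfl

lemma etaV_apply (X : Rep.{0} (ZMod p) D.G) (v : D.ι) (η : (D.locCpxAt (dg D X) v).H 0) (x : X) :
    (etaV D X v η).1 x
      = (show Module.Dual (ZMod p) X from val0 (D.𝒰v v) (Rep.res (D.φ v) (dg D X)) η) x := rfl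

/-- **adjointness** of the local pairing at `v`. -/
lemma pairV_adj {X Y : Rep.{0} (ZMod p) D.G} (f : X ⟶ Y) (v : D.ι)
    (z : (D.locCpxAt X v).H 2) (η : (D.locCpxAt (dg D Y) v).H 0) :
    pairV D Y v ((Vmap D f v).mapH 2 z) η = pairV D X v z ((Vmap D (dag D.χ f) v).mapH 0 η) := by
  rw [pairV_apply, pairV_apply]
  symm
  refine HE_comp (D.𝒰v v) (toEq (Rep.resMap (D.φ v) f)) _ _ (fun x => ?_) 2 z
  rw [etaV_apply]
  have := val0_HM (D.𝒰v v) (Rep.resMap (D.φ v) (dag D.χ f)) η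
  erw [this]
  rfl

/-- **adjointness** of `pairD`. -/
theorem pairD_adj (lam : Lam D) {X Y : Rep.{0} (ZMod p) D.G} (f : X ⟶ Y) (z : Pl D X 2)
    (η : Pl D (dg D Y) 0) :
    pairD D lam Y (PM D f 2 z) η = pairD D lam X z (PM D (dag D.χ f) 0 η) := by
  rw [pairD_apply, pairD_apply]
  refine Finset.sum_congr rfl fun v _ => ?_
  rw [prV_PM, prV_PM, pairV_adj]

/-- `val0` commutes with restriction to the local groups -/
lemma val0_res (X : Rep.{0} (ZMod p) D.G) (v : D.ι) (η : Hlc D.𝒰 X 0) :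
    val0 (D.𝒰v v) (Rep.res (D.φ v) X) ((lcRes (D.φ v) (D.cont v) X).mapH 0 η)
      = val0 D.𝒰 X η := by
  obtain ⟨m, rfl⟩ := (H0Equiv D.𝒰 X).surjective η
  have h1 : (lcRes (D.φ v) (D.cont v) X).mapH 0 (H0Equiv D.𝒰 X m)
      = cls0 (D.𝒰v v) (Rep.res (D.φ v) X) ⟨m.1, fun g => m.2 (D.φ v g)⟩ := rfl
  rw [h1, val0_cls0]
  show m.1 = val0 D.𝒰 X (cls0 D.𝒰 X m)
  rw [val0_cls0]

/-- the equivariant map `X → μ` attached to a class in `H⁰(G, X†)`. -/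
def etaG (X : Rep.{0} (ZMod p) D.G) (η : Hlc D.𝒰 (dg D X) 0) : EqHom X D.mu :=
  h0ToEq D.𝒰 (evB D.χ X) (evB_equivar D.χ X) η

/-- restriction commutes with `HE`. -/
lemma res_HE {X Y : Rep.{0} (ZMod p) D.G} (e : EqHom X Y) (v : D.ι)
    (e' : EqHom (Rep.res (D.φ v) X) (Rep.res (D.φ v) Y)) (h : e'.1 = e.1) (n : ℕ)
    (x : Hlc D.𝒰 X n) :
    HE (D.𝒰v v) e' n ((lcRes (D.φ v) (D.cont v) X).mapH n x)
      = (lcRes (D.φ v) (D.cont v) Y).mapH n (HE D.𝒰 e n x) := by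
  obtain ⟨c, rfl⟩ := (lcCpx D.𝒰 X).cls_surjective n x
  obtain ⟨e1, he1⟩ := e'
  simp only at h
  subst h
  rfl

/-- the local pairing of two global classes is the restriction of the global pairing. -/
lemma pairV_res (X : Rep.{0} (ZMod p) D.G) (v : D.ι) (x : Hlc D.𝒰 X 2)
    (η : Hlc D.𝒰 (dg D X) 0) :
    pairV D X v ((lcRes (D.φ v) (D.cont v) X).mapH 2 x)
        ((lcRes (D.φ v) (D.cont v) (dg D X)).mapH 0 η)
      = (lcRes (D.φ v) (D.cont v) D.mu).mapH 2 (HE D.𝒰 (etaG D X η) 2 x) := by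
  rw [pairV_apply]
  refine res_HE D (etaG D X η) v _ (LinearMap.ext fun y => ?_) 2 x
  rw [etaV_apply, val0_res]
  rfl

/-- **(GR) for all modules.** -/
theorem pairD_GR (lam : Lam D)
    (hlam : ∀ x : Hlc D.𝒰 D.mu 2, ∑ v, lam v ((lcRes (D.φ v) (D.cont v) D.mu).mapH 2 x) = 0)
    (X : Rep.{0} (ZMod p) D.G) (x : Hlc D.𝒰 X 2) (η : Hlc D.𝒰 (dg D X) 0) :
    pairD D lam X (locH D X 2 x) (locH D (dg D X) 0 η) = 0 := by
  rw [pairD_apply, ← hlam (HE D.𝒰 (etaG D X η) 2 x)]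
  refine Finset.sum_congr rfl fun v _ => ?_
  rw [prV_locH, prV_locH, pairV_res]

end Fermat.Agent.CFT.Pos

end
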