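/-
CFT / POS : work packages D3, D4, D5, D6, D7, D8 of `Pos/Interface.lean`.
-/
import Fermat.Agent.CFT.Pos.Interface
import Fermat.Agent.CFT.Pos.Inst2

set_option autoImplicit false

noncomputable section

namespace Fermat.Agent.CFT.Pos

open _root_.Fermat.Agent.CFT.Top _root_.Fermat.Agent.CFT.Top.Cpx Module CategoryTheory

/-- the two notions of short exact sequences coincide. -/
lemma IsSES.isShortExact {k : Type} [Field k] {G : Type} [Group G] {X₁ X₂ X₃ : Rep.{0} k G}
    {i : X₁ ⟶ X₂} {q : X₂ ⟶ X₃} (h : IsSES i q) : IsShortExact i q :=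
  ⟨h.inj, h.surj, h.exact⟩

/-- D3. -/
theorem stmt_Pses : Stmt_Pses := by
  intro p _ D X₁ X₂ X₃ i q h ht
  exact Inst.lSES D i q h.isShortExact ht

/-- D4. -/
theorem stmt_locDelta : Stmt_locDelta := by
  intro p _ D X₁ X₂ X₃ i q h ht n x
  exact (Inst.loc_delta D i q h.isShortExact ht n x).symm

/-- D5. -/
theorem stmt_adj : Stmt_adj := by
  intro p _ D lam X Y f z α
  exact pairD_adj D lam f z α

/-- D6. -/
theorem stmt_GR : Stmt_GR := by
  intro p _ D lam h X g γ
  exact pairD_GR D lam h X g γ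

/-- D7. -/
theorem stmt_loc0inj : Stmt_loc0inj := by
  intro p _ D hne X
  exact Inst.loc_zero_injective D X

/-- the twisted dual of a short exact sequence is short exact. -/
lemma IsSES.dag {k : Type} [Field k] {G : Type} [Group G] (χ : G →* kˣ) {X₁ X₂ X₃ : Rep.{0} k G}
    {i : X₁ ⟶ X₂} {q : X₂ ⟶ X₃} (h : IsSES i q) : IsSES (dag χ q) (dag χ i) := by
  obtain ⟨hi, hq, hex⟩ := h
  refine ⟨fun a b hab => ?_, fun n => ?_, fun b => ⟨fun hb => ?_, ?_⟩⟩
  · refine LinearMap.ext fun x => ?_
    obtain ⟨y, rfl⟩ := hq x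
    exact LinearMap.congr_fun hab y
  · have hinj : LinearMap.ker i.hom.toLinearMap = ⊥ := LinearMap.ker_eq_bot.2 hi
    obtain ⟨g, hg⟩ := LinearMap.exists_leftInverse_of_injective i.hom.toLinearMap hinj
    refine ⟨(show Module.Dual k X₁ from n).comp g, ?_⟩
    refine LinearMap.ext fun x => ?_
    show (show Module.Dual k X₁ from n) (g (i.hom x)) = _
    have := LinearMap.congr_fun hg x
    simp only [LinearMap.comp_apply, LinearMap.id_apply] at this
    erw [this]
  · have hker : LinearMap.ker q.hom.toLinearMap ≤ LinearMap.ker (show Module.Dual k X₂ from b) := by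
      intro x hx
      obtain ⟨a, rfl⟩ := (hex x).1 hx
      exact LinearMap.congr_fun hb a
    have hsurj : LinearMap.range q.hom.toLinearMap = ⊤ := LinearMap.range_eq_top.2 hq
    obtain ⟨g, hg⟩ := LinearMap.exists_rightInverse_of_surjective q.hom.toLinearMap hsurj
    refine ⟨(show Module.Dual k X₂ from b).comp g, ?_⟩
    refine LinearMap.ext fun x => ?_
    show (show Module.Dual k X₂ from b) (g (q.hom x)) = (show Module.Dual k X₂ from b) x
    have h1 : g (q.hom x) - x ∈ LinearMap.ker q.hom.toLinearMap := by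
      rw [LinearMap.mem_ker, map_sub]
      have := LinearMap.congr_fun hg (q.hom x)
      simp only [LinearMap.comp_apply, LinearMap.id_apply] at this
      erw [this]
      exact sub_self _
    have h2 := hker h1
    rw [LinearMap.mem_ker, map_sub, sub_eq_zero] at h2
    exact h2
  · rintro ⟨a, rfl⟩
    refine LinearMap.ext fun x => ?_
    show (show Module.Dual k X₃ from a) (q.hom (i.hom x)) = 0
    rw [(hex (i.hom x)).2 ⟨x, rfl⟩, map_zero]

/-- the twisted dual of a good module is good. -/
lemma GoodW.dual {k : Type} [Field k] {G : Type} [Group G] (χ : G →* kˣ) {W : Subgroup G}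
    {X : Rep.{0} k G} (hχ : ∀ w ∈ W, χ w = 1) (h : GoodW W X) : GoodW W (X.dualTwist χ) := by
  obtain ⟨hf, ht⟩ := h
  refine ⟨inferInstanceAs (Module.Finite k (Module.Dual k X)), fun w hw e => ?_⟩
  apply LinearMap.ext
  intro x
  show ((χ w : k) • ((e : Module.Dual k X) ∘ₗ X.ρ w⁻¹)) x = (e : Module.Dual k X) x
  rw [hχ w hw]
  simp only [Units.val_one, one_smul, LinearMap.comp_apply]
  rw [ht w⁻¹ (W.inv_mem hw)]

/-- biduality. -/
lemma ddag_bijective {k : Type} [Field k] {G : Type} [Group G] (χ : G →* kˣ) (X : Rep.{0} k G)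
    [Module.Finite k X] : Function.Bijective (ddag χ X).hom :=
  Module.bijective_dual_eval k X

/-- D8. -/
theorem stmt_dual : Stmt_dual := by
  intro k _ G _ χ
  exact ⟨fun _ _ _ _ _ h => h.dag χ, fun _ _ hχ h => h.dual χ hχ, fun X _ => ddag_bijective χ X⟩

end Fermat.Agent.CFT.Pos

end
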