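/-
CFT / POS, packages D11, D12: `tw W (X†) → (tw W X)†` and the effacement of `H¹(A†)`.
-/
import Fermat.Agent.CFT.Pos.Interface
import Fermat.Agent.CFT.Top.ToolColim
import Fermat.Agent.CFT.Top.ToolEfface

set_option autoImplicit false

noncomputable section

namespace Fermat.Agent.CFT.Pos

open _root_.Fermat.Agent.CFT.Top _root_.Fermat.Agent.CFT.Top.Cpx Module CategoryTheory

attribute [local instance] fintypeQuot

section TwDual

variable {k : Type} [Field k] {G : Type} [Group G] (χ : G →* kˣ) (W : Subgroup G) [W.FiniteIndex]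
  (X : Rep.{0} k G)

/-- `Φ ↦ (F ↦ ∑_c Φ(c)(F(c)))`. -/
def effaceLin : (G ⧸ W → Module.Dual k X) →ₗ[k] Module.Dual k (G ⧸ W → X) :=
  ∑ c : G ⧸ W, (LinearMap.proj c : (G ⧸ W → X) →ₗ[k] X).dualMap ∘ₗ
    (LinearMap.proj c : (G ⧸ W → Module.Dual k X) →ₗ[k] Module.Dual k X)

lemma effaceLin_apply (Φ : G ⧸ W → Module.Dual k X) (F : G ⧸ W → X) :
    effaceLin W X Φ F = ∑ c : G ⧸ W, Φ c (F c) := by
  simp [effaceLin, LinearMap.sum_apply]

lemma effaceLin_comm (g : G) (Φ : G ⧸ W → Module.Dual k X) :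
    effaceLin W X ((tw W (X.dualTwist χ)).ρ g Φ) = ((tw W X).dualTwist χ).ρ g (effaceLin W X Φ) := by
  apply LinearMap.ext
  intro F
  have h1 : effaceLin W X ((tw W (X.dualTwist χ)).ρ g Φ) F
      = ∑ c : G ⧸ W, (χ g : k) * Φ (g⁻¹ • c) (X.ρ g⁻¹ (F c)) := by
    rw [effaceLin_apply]
    rfl
  have h2 : (((tw W X).dualTwist χ).ρ g (effaceLin W X Φ) : Module.Dual k (G ⧸ W → X)) F
      = (χ g : k) * ∑ c : G ⧸ W, Φ c (X.ρ g⁻¹ (F (g⁻¹⁻¹ • c))) := by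
    have : (((tw W X).dualTwist χ).ρ g (effaceLin W X Φ) : Module.Dual k (G ⧸ W → X)) F
      = (χ g : k) * effaceLin W X Φ ((tw W X).ρ g⁻¹ F) := rfl
    rw [this, effaceLin_apply]
    rfl
  rw [h1, h2, Finset.mul_sum]
  refine (Equiv.sum_comp (MulAction.toPerm (g⁻¹ : G))
    (fun c : G ⧸ W => (χ g : k) * Φ c (X.ρ g⁻¹ (F (g⁻¹⁻¹ • c))))).symm.trans ?_ |>.symm
  refine Finset.sum_congr rfl fun c _ => ?_
  simp [MulAction.toPerm_apply]

/-- the morphism `tw W (X†) ⟶ (tw W X)†`. -/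
def effaceHom : tw W (X.dualTwist χ) ⟶ (tw W X).dualTwist χ :=
  Rep.ofHom ⟨effaceLin W X, fun g => LinearMap.ext fun Φ => effaceLin_comm χ W X g Φ⟩

end TwDual

/-- **D11.** -/
theorem stmt_twDual : Stmt_twDual := by
  intro k _ G _ χ W _ X
  refine ⟨effaceHom χ W X, fun a => ?_⟩
  apply LinearMap.ext
  intro F
  have h1 : ((effaceHom χ W X).hom ((twConst W (X.dualTwist χ)).hom a) :
      Module.Dual k (G ⧸ W → X)) F = ∑ c : G ⧸ W, (a : Module.Dual k X) (F c) :=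
    effaceLin_apply W X _ F
  have h2 : ((dag χ (twSum W X)).hom a : Module.Dual k (G ⧸ W → X)) F
      = (a : Module.Dual k X) ((twSum W X).hom F) := rfl
  rw [h1, h2, twSum_apply, map_sum]

/-- **D12.** effacement of `H¹(A†)`. -/
theorem stmt_effaceDual (hF : Stmt_HMfun) : Stmt_effaceDual := by
  intro p _ D A hA hfin
  obtain ⟨U₁, hU₁, hχ⟩ := D.χtriv
  obtain ⟨U₂, hU₂, hAtriv⟩ := hA.2
  obtain ⟨U₀, hU₀, h01, h02⟩ := D.𝒰.dir U₁ hU₁ U₂ hU₂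
  have hfinite : Finite (Hlc D.𝒰 (dg D A) 1) := Module.finite_of_finite (ZMod p)
  obtain ⟨W, hW, hWU, hlev⟩ := tool_hasLevel (ZMod p) D.G D.𝒰 (dg D A) 1 Set.univ
    (Set.toFinite _) U₀ hU₀
  have hWn := D.𝒰.normal W hW
  have hWf := D.𝒰.fin W hW
  refine ⟨W, hWn, hWf, ⟨hW, fun w hw => hχ w (h01 (hWU hw))⟩,
    ⟨hA.1, fun w hw x => hAtriv w (h02 (hWU hw)) x⟩, fun y => ?_⟩
  obtain ⟨z, rfl, hz⟩ := hlev y (Set.mem_univ _)
  have h0 : HM D.𝒰 (twConst W (dg D A)) 1 ((lcCpx D.𝒰 (dg D A)).cls 1 z) = 0 :=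
    tool_efface (ZMod p) D.G D.𝒰 (dg D A) W hW 0 z hz
  obtain ⟨e, he⟩ := stmt_twDual (ZMod p) D.G D.χ W A
  rw [(hF (ZMod p) D.G D.𝒰 1).2.1 _ _ _ (twConst W (dg D A)) e (dag D.χ (twSum W A))
    (fun x => (he x).symm), h0, map_zero]

end Fermat.Agent.CFT.Pos

end
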