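/-
CFT / POS-F15 (helper65): Claim 4 and the end.
-/
import Fermat.Agent.CFT.Pos.Interface

set_option autoImplicit false

noncomputable section

namespace Fermat.Agent.CFT.Pos

open _root_.Fermat.Agent.CFT.Top _root_.Fermat.Agent.CFT.Top.Cpx Module CategoryTheory

theorem stmt_end (hS : Stmt_sylow) (hC : Stmt_charTriv) (hF : Stmt_subAddPhi) : Stmt_end := by
  intro p _ D lam hctx hperm hdec X hX
  obtain ⟨hfin, U, hU, hUX⟩ := hX
  obtain ⟨U', hU', hχ⟩ := D.χtriv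
  obtain ⟨W, hW, hWU, hWU'⟩ := D.𝒰.dir U hU U' hU'
  have hWn : W.Normal := D.𝒰.normal W hW
  have hWf : W.FiniteIndex := D.𝒰.fin W hW
  have hWχ : ∀ w ∈ W, D.χ w = 1 := fun w hw => hχ w (hWU' hw)
  have hgl : GoodLevel D W := ⟨hW, hWχ⟩
  obtain ⟨H, hWH, hHf, hHp, hHi⟩ := hS p D.G W
  have hHχ : ∀ h ∈ H, D.χ h = 1 := hC p D.G D.χ W H hWχ hHp
  have hHgood : D.Good H := ⟨⟨W, hW, hWH⟩, hHχ⟩
  have hsub : SubAdd W (phi D) := hF p D lam hctx W hgl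
  have hgood : ∀ Y : Rep.{0} (ZMod p) D.G, GoodW W Y → Good D.𝒰 Y :=
    fun Y hY => ⟨hY.1, W, hW, hY.2⟩
  have hpos : ∀ Y : Rep.{0} (ZMod p) D.G, GoodW W Y → 0 ≤ phi D Y := by
    intro Y hY
    obtain ⟨u, a, b, h, _⟩ := hdec Y (hgood Y hY)
    rw [h]
    positivity
  have hXW : GoodW W X := ⟨hfin, fun w hw x => hUX w (hWU hw) x⟩
  have h0 : phi D X = 0 := hsub.eq_zero_of_nonneg p hWH hHp hHi hpos (hperm H hHgood) hXW
  obtain ⟨u, a, b, h, h'⟩ := hdec X (hgood X hXW)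
  rw [h0] at h
  have ha : a = 0 := by omega
  rw [h', ha, add_zero]

end Fermat.Agent.CFT.Pos

end
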