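/-
CFT / POS : A1, the Euler characteristic of a short exact sequence of complexes.
-/
import Fermat.Agent.CFT.Pos.Interface
import Fermat.Agent.CFT.Top.LES

set_option autoImplicit false

noncomputable section

namespace Fermat.Agent.CFT.Pos

open _root_.Fermat.Agent.CFT.Top _root_.Fermat.Agent.CFT.Top.Cpx Module CategoryTheory

/-- rank-nullity at an exact spot. -/
lemma euler_rank_nullity {k : Type} [Field k] {U V W : Type} [AddCommGroup U] [Module k U]
    [AddCommGroup V] [Module k V] [AddCommGroup W] [Module k W] [Module.Finite k V]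
    (f : U →ₗ[k] V) (g : V →ₗ[k] W) (h : ∀ x : V, g x = 0 ↔ ∃ y, f y = x) :
    (finrank k V : ℤ) = finrank k (LinearMap.range g) + finrank k (LinearMap.range f) := by
  have hk : LinearMap.ker g = LinearMap.range f := by
    ext x
    rw [LinearMap.mem_ker, LinearMap.mem_range]
    exact h x
  have := LinearMap.finrank_range_add_finrank_ker g
  rw [hk] at this
  exact_mod_cast this.symm

theorem stmt_euler : Stmt_euler := by
  intro k _ A B C i q hses hA hB hC
  obtain ⟨h0, hq, hd, hi⟩ := stmt_les k A B C i q hses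
  have fA0 := hA 0 (by norm_num)
  have fA1 := hA 1 (by norm_num)
  have fA2 := hA 2 (by norm_num)
  have fB0 := hB 0 (by norm_num)
  have fB1 := hB 1 (by norm_num)
  have fB2 := hB 2 (by norm_num)
  have fC0 := hC 0 (by norm_num)
  have fC1 := hC 1 (by norm_num)
  have a0 : (finrank k (A.H 0) : ℤ) = finrank k (LinearMap.range (i.mapH 0)) := by
    exact_mod_cast (LinearMap.finrank_range_of_inj h0).symm
  have b0 := euler_rank_nullity (i.mapH 0) (q.mapH 0) (hq 0)
  have c0 := euler_rank_nullity (q.mapH 0) (delta i q 0) (hd 0)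
  have a1 := euler_rank_nullity (delta i q 0) (i.mapH 1) (hi 0)
  have b1 := euler_rank_nullity (i.mapH 1) (q.mapH 1) (hq 1)
  have c1 := euler_rank_nullity (q.mapH 1) (delta i q 1) (hd 1)
  have a2 := euler_rank_nullity (delta i q 1) (i.mapH 2) (hi 1)
  have b2 := euler_rank_nullity (i.mapH 2) (q.mapH 2) (hq 2)
  unfold cchi
  linarith

end Fermat.Agent.CFT.Pos

end
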