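/-
CFT / POS, package B5 : finiteness of `H⁰, H¹, H²` of all good modules.
-/
import Fermat.Agent.CFT.Pos.Interface

set_option autoImplicit false

noncomputable section

namespace Fermat.Agent.CFT.Pos

open _root_.Fermat.Agent.CFT.Top _root_.Fermat.Agent.CFT.Top.Cpx Module CategoryTheory

section

variable {k : Type} [Field k] {G : Type} [Group G] (𝒰 : LevelSys G)

lemma fdAll_subsingleton (Z : Rep.{0} k G) (hZ : Subsingleton Z) : FD 𝒰 Z := by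
  intro n _
  have h1 : Subsingleton ((lcCpx 𝒰 Z).X n) := by
    refine ⟨fun a b => ?_⟩
    have : ∀ a b : ↥(lcCochains 𝒰 Z n), a = b := fun a b =>
      Subtype.ext (funext fun g => Subsingleton.elim _ _)
    exact this a b
  have h2 : Subsingleton ((lcCpx 𝒰 Z).H n) := by
    refine ⟨fun a b => ?_⟩
    obtain ⟨a, rfl⟩ := (lcCpx 𝒰 Z).cls_surjective n a
    obtain ⟨b, rfl⟩ := (lcCpx 𝒰 Z).cls_surjective n b
    rw [Subsingleton.elim a b]
  exact Module.Finite.of_finite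

lemma fdAll_H0 (X : Rep.{0} k G) (hX : Module.Finite k X) : Module.Finite k (Hlc 𝒰 X 0) :=
  Module.Finite.equiv (H0Equiv 𝒰 X)

lemma fdAll_retract (hfun : Stmt_HMfun) {X Y : Rep.{0} k G} (i : X ⟶ Y) (r : Y ⟶ X)
    (hri : ∀ x, r.hom (i.hom x) = x) (hY : FD 𝒰 Y) : FD 𝒰 X := by
  intro n hn
  have := hY n hn
  obtain ⟨h1, h2, -, -⟩ := hfun k G 𝒰 n
  refine Module.Finite.of_surjective (HM 𝒰 r n) (fun z => ⟨HM 𝒰 i n z, ?_⟩)
  rw [← h2 X Y X i r (𝟙 X) (fun x => (hri x).symm) z]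
  exact h1 X (𝟙 X) (fun _ => rfl) z

end

theorem stmt_fdAll (hsyl : Stmt_sylow) (hchar : Stmt_charTriv) (hext : Stmt_fdExt)
    (hses : Stmt_ses) (hfun : Stmt_HMfun) : Stmt_fdAll := by
  intro p _ G _ 𝒰 χ hχ hperm X hX
  obtain ⟨U, hU, hχU⟩ := hχ
  obtain ⟨hXfin, U₁, hU₁, hXU₁⟩ := hX
  obtain ⟨W, hW, hWU, hWU₁⟩ := 𝒰.dir U hU U₁ hU₁
  have := 𝒰.normal W hW
  have := 𝒰.fin W hW
  obtain ⟨H, hWH, hHfin, hHp, hHidx⟩ := hsyl p G W
  have hχH : ∀ h ∈ H, χ h = 1 := hchar p G χ W H (fun w hw => hχU w (hWU hw)) hHp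
  have hHopen : 𝒰.IsOpen H := ⟨W, hW, hWH⟩
  refine closure_principle (k := ZMod p) p hWH hHp hHidx (fun Y => FD 𝒰 Y)
    (fun Z hZ => fdAll_subsingleton 𝒰 Z hZ) ?_ ?_ ?_ (X := X) ⟨hXfin, fun w hw => hXU₁ w (hWU₁ hw)⟩
  · intro X₁ X₂ X₃ i q _ h2 _ hs hX₁ hX₃ n hn
    have hdisc : IsDisc 𝒰 X₂ := fun m => ⟨W, hW, fun u hu => h2.2 u hu m⟩
    exact hext (ZMod p) _ _ _ _ _ (hses (ZMod p) G 𝒰 X₁ X₂ X₃ i q hs hdisc) n (hX₁ n hn) (hX₃ n hn)
  · intro X' Y i r _ _ hri hY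
    exact fdAll_retract 𝒰 hfun i r hri hY
  · intro n hn
    have hfin : Finite (G ⧸ H) := Subgroup.finite_quotient_of_finiteIndex
    have hpf : Module.Finite (ZMod p) (perm H : Rep.{0} (ZMod p) G) :=
      inferInstanceAs (Module.Finite (ZMod p) (G ⧸ H → ZMod p))
    interval_cases n
    · exact fdAll_H0 𝒰 _ hpf
    · exact (hperm H hHopen hχH).1
    · exact (hperm H hHopen hχH).2

end Fermat.Agent.CFT.Pos

end

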