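/-
CFT / POS, packages A2, A3 : finiteness of the cohomology of the middle term of a short exact
sequence of complexes, and of finite products.
-/
import Fermat.Agent.CFT.Pos.Interface
import Fermat.Agent.CFT.Top.LES

set_option autoImplicit false

noncomputable section

namespace Fermat.Agent.CFT.Pos

open _root_.Fermat.Agent.CFT.Top _root_.Fermat.Agent.CFT.Top.Cpx Module

/-- A2. finiteness passes to the middle term. -/
theorem stmt_fdExt : Stmt_fdExt := by
  intro k _ A B C i q h n hA hC
  have hex := (stmt_les k A B C i q h).2.1 n
  have hker : LinearMap.ker (q.mapH n) = LinearMap.range (i.mapH n) := by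
    ext x
    rw [LinearMap.mem_ker, LinearMap.mem_range]
    exact hex x
  have h1 : Module.Finite k (LinearMap.ker (q.mapH n)) := by
    rw [hker]
    exact Module.Finite.range _
  have h2 : Module.Finite k (B.H n ⧸ LinearMap.ker (q.mapH n)) :=
    Module.Finite.equiv (q.mapH n).quotKerEquivRange.symm
  exact Module.Finite.of_submodule_quotient (LinearMap.ker (q.mapH n))

/-- A3. finite products: finiteness and dimension. -/
theorem stmt_fdPi : Stmt_fdPi := by
  intro k _ ι _ C n h
  refine ⟨Module.Finite.equiv (piHEquiv C n).symm, ?_⟩
  rw [(piHEquiv C n).finrank_eq, Module.finrank_pi_fintype]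

end Fermat.Agent.CFT.Pos

end
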