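/-
CFT / POS, packages B1, B2, B3 : short exact sequences of complexes, functoriality of `HM`,
inverse morphisms.
-/
import Fermat.Agent.CFT.Pos.Interface

set_option autoImplicit false

noncomputable section

namespace Fermat.Agent.CFT.Pos

open _root_.Fermat.Agent.CFT.Top _root_.Fermat.Agent.CFT.Top.Cpx Module CategoryTheory

theorem stmt_ses : Stmt_ses := by
  intro k _ G _ 𝒰 X₁ X₂ X₃ i q h hd
  exact lcCoeff_isSES 𝒰 i q h.inj h.surj h.exact hd

theorem stmt_HMfun : Stmt_HMfun := by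
  intro k _ G _ 𝒰 n
  refine ⟨?_, ?_, ?_, ?_⟩
  · intro X f hf z
    obtain ⟨c, rfl⟩ := (lcCpx 𝒰 X).cls_surjective n z
    refine congrArg ((lcCpx 𝒰 X).cls n) ?_
    apply Subtype.ext
    apply Subtype.ext
    funext g
    exact hf _
  · intro X Y Z f g h hh z
    obtain ⟨c, rfl⟩ := (lcCpx 𝒰 X).cls_surjective n z
    refine congrArg ((lcCpx 𝒰 Z).cls n) ?_
    apply Subtype.ext
    apply Subtype.ext
    funext g
    exact hh _
  · intro X Y f g h hh z
    obtain ⟨c, rfl⟩ := (lcCpx 𝒰 X).cls_surjective n z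
    refine (congrArg ((lcCpx 𝒰 Y).cls n) ?_).trans (map_add ((lcCpx 𝒰 Y).cls n) _ _)
    apply Subtype.ext
    apply Subtype.ext
    funext g
    exact hh _
  · intro X Y f hf z
    obtain ⟨c, rfl⟩ := (lcCpx 𝒰 X).cls_surjective n z
    refine (congrArg ((lcCpx 𝒰 Y).cls n) ?_).trans (map_zero ((lcCpx 𝒰 Y).cls n))
    apply Subtype.ext
    apply Subtype.ext
    funext g
    exact hf _

theorem stmt_inv : Stmt_inv := by
  intro k _ G _ X Y e he
  let E : X ≃ₗ[k] Y := LinearEquiv.ofBijective e.hom.toLinearMap he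
  have hE : ∀ x, E x = e.hom x := fun _ => rfl
  refine ⟨Rep.ofHom ⟨E.symm.toLinearMap, fun g => LinearMap.ext fun y => ?_⟩, fun x => ?_,
    fun y => ?_⟩
  · change E.symm (Y.ρ g y) = X.ρ g (E.symm y)
    apply E.injective
    rw [E.apply_symm_apply, hE, Rep.hom_comm_apply, ← hE, E.apply_symm_apply]
  · exact E.symm_apply_apply x
  · exact E.apply_symm_apply y

end Fermat.Agent.CFT.Pos
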