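/-
CFT / POS, task POS-D1D2 (helper35): functoriality of `PM`, naturality of the localisation.
`stmt_PMfun : Stmt_PMfun`, `stmt_locNat : Stmt_locNat`.
-/
import Fermat.Agent.CFT.Pos.Interface

set_option autoImplicit false

noncomputable section

namespace Fermat.Agent.CFT.Pos

open _root_.Fermat.Agent.CFT.Top _root_.Fermat.Agent.CFT.Top.Cpx Module CategoryTheory

variable {p : ℕ} [Fact p.Prime] (D : Datum p)

/-- the value of `Pmap` on cochains. -/
lemma FunP_Pmap_apply {X Y : Rep.{0} (ZMod p) D.G} (f : X ⟶ Y) (n : ℕ) (c : (D.locCpx X).X n)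
    (v : D.ι) (g : Fin n → D.Gv v) :
    (show ↥(lcCochains (D.𝒰v v) (Rep.res (D.φ v) Y) n) from (Pmap D f).f n c v).1 g
      = f.hom ((show ↥(lcCochains (D.𝒰v v) (Rep.res (D.φ v) X) n) from c v).1 g) := rfl

/-- extensionality for cochains of the product of the local complexes. -/
lemma FunP_ext {X : Rep.{0} (ZMod p) D.G} {n : ℕ} {c c' : (D.locCpx X).X n}
    (h : ∀ (v : D.ι) (g : Fin n → D.Gv v),
      (show ↥(lcCochains (D.𝒰v v) (Rep.res (D.φ v) X) n) from c v).1 g
        = (show ↥(lcCochains (D.𝒰v v) (Rep.res (D.φ v) X) n) from c' v).1 g) : c = c' :=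
  funext fun v => Subtype.ext (funext fun g => h v g)

theorem stmt_PMfun : Stmt_PMfun := by
  intro p _ D n
  refine ⟨?_, ?_, ?_, ?_⟩
  · intro X f hf z
    obtain ⟨c, rfl⟩ := (D.locCpx X).cls_surjective n z
    rw [Hom.mapH_cls]
    congr 1
    apply Subtype.ext
    apply FunP_ext
    intro v g
    exact hf _
  · intro X Y Z f g h hh z
    obtain ⟨c, rfl⟩ := (D.locCpx X).cls_surjective n z
    rw [Hom.mapH_cls, Hom.mapH_cls, Hom.mapH_cls]
    congr 1
    apply Subtype.ext
    apply FunP_ext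
    intro v a
    exact hh _
  · intro X Y f g h hh z
    obtain ⟨c, rfl⟩ := (D.locCpx X).cls_surjective n z
    rw [Hom.mapH_cls, Hom.mapH_cls, Hom.mapH_cls, ← map_add]
    congr 1
    apply Subtype.ext
    apply FunP_ext
    intro v a
    exact hh _
  · intro X Y f hf z
    obtain ⟨c, rfl⟩ := (D.locCpx X).cls_surjective n z
    rw [Hom.mapH_cls, ← map_zero ((D.locCpx Y).cls n)]
    congr 1
    apply Subtype.ext
    apply FunP_ext
    intro v a
    exact hf _

theorem stmt_locNat : Stmt_locNat := by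
  intro p _ D X Y f n x
  obtain ⟨c, rfl⟩ := (lcCpx D.𝒰 X).cls_surjective n x
  rfl

end Fermat.Agent.CFT.Pos

end
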