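/-
CFT / POS, package F11 : (GE) for all good modules (`Stmt_GEall`).
-/
import Fermat.Agent.CFT.Pos.Interface
import Fermat.Agent.CFT.Top.LES

set_option autoImplicit false

noncomputable section

namespace Fermat.Agent.CFT.Pos

open _root_.Fermat.Agent.CFT.Top _root_.Fermat.Agent.CFT.Top.Cpx Module CategoryTheory

/-- linear algebra: a perfect pairing (seen from the right) represents all linear forms on the right
factor by elements of the (finite dimensional) left factor. -/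
lemma GEall_repr {k V W : Type*} [Field k] [AddCommGroup V] [Module k V] [AddCommGroup W]
    [Module k W] [Module.Finite k V] (B : V →ₗ[k] W →ₗ[k] k)
    (hinj : ∀ w, (∀ v, B v w = 0) → w = 0)
    (hsurj : ∀ φ : Module.Dual k V, ∃ w, ∀ v, B v w = φ v) (Ψ : Module.Dual k W) :
    ∃ v, ∀ w, B v w = Ψ w := by
  have hbij : Function.Bijective B.flip := by
    constructor
    · rw [injective_iff_map_eq_zero]
      intro w hw
      exact hinj w fun v => by
        have := LinearMap.congr_fun hw v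
        simpa using this
    · intro φ
      obtain ⟨w, hw⟩ := hsurj φ
      exact ⟨w, LinearMap.ext fun v => by simpa using hw v⟩
  let Te := LinearEquiv.ofBijective B.flip hbij
  refine ⟨(Module.evalEquiv k V).symm (Ψ ∘ₗ Te.symm.toLinearMap), fun w => ?_⟩
  have h1 : B ((Module.evalEquiv k V).symm (Ψ ∘ₗ Te.symm.toLinearMap)) w =
      Module.evalEquiv k V ((Module.evalEquiv k V).symm (Ψ ∘ₗ Te.symm.toLinearMap)) (Te w) := rfl
  rw [h1, LinearEquiv.apply_symm_apply]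
  simp

/-- linear algebra: a linear form vanishing on the kernel of `S` factors through `S`. -/
lemma GEall_factor {k V W : Type*} [Field k] [AddCommGroup V] [Module k V] [AddCommGroup W]
    [Module k W] (S : V →ₗ[k] W) (ψ : Module.Dual k V) (h : ∀ v, S v = 0 → ψ v = 0) :
    ∃ Ψ : Module.Dual k W, ∀ v, Ψ (S v) = ψ v := by
  have h1 : ψ ∈ LinearMap.range S.dualMap := by
    rw [LinearMap.range_dualMap_eq_dualAnnihilator_ker, Submodule.mem_dualAnnihilator]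
    exact fun v hv => h v hv
  obtain ⟨Ψ, hΨ⟩ := h1
  exact ⟨Ψ, fun v => LinearMap.congr_fun hΨ v⟩

/-- **F11** : (GE) for all good modules. -/
theorem stmt_GEall (hB8 : Stmt_splitClosure) (hF10 : Stmt_GEsplit) (hD8 : Stmt_dual)
    (hB1 : Stmt_ses) (hD7 : Stmt_loc0inj) (hD5 : Stmt_adj) (hD2 : Stmt_locNat)
    (hD1 : Stmt_PMfun) : Stmt_GEall := by
  intro p _ D lam ctx hperm X hX
  obtain ⟨hXfin, U₁, hU₁, hU₁X⟩ := hX
  obtain ⟨U₂, hU₂, hU₂χ⟩ := D.χtriv
  obtain ⟨W, hW, hWU₁, hWU₂⟩ := D.𝒰.dir U₁ hU₁ U₂ hU₂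
  have hWn := D.𝒰.normal W hW
  have hWf := D.𝒰.fin W hW
  have hWχ : ∀ w ∈ W, D.χ w = 1 := fun w hw => hU₂χ w (hWU₂ hw)
  have hWgood : GoodLevel D W := ⟨hW, hWχ⟩
  have hXW : GoodW W X := ⟨hXfin, fun w hw x => hU₁X w (hWU₁ hw) x⟩
  have hgood : ∀ Y : Rep.{0} (ZMod p) D.G, GoodW W Y → Good D.𝒰 Y := fun Y hY =>
    ⟨hY.1, W, hW, hY.2⟩
  obtain ⟨hPid, hPcomp, -, hPzero⟩ := hD1 p D 2
  -- (GE) for `F = tw W X`
  have hGEF : GE D lam (tw W X) := by
    refine hB8 p D.G W (GE D lam) ?_ ?_ (hperm W hWgood) X hXW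
    · intro Z hZ z _
      refine ⟨0, ?_⟩
      rw [map_zero, ← hPid Z (𝟙 Z) (fun x => rfl) z]
      exact (hPzero Z Z (𝟙 Z) (fun x => Subsingleton.elim _ _) z).symm
    · intro X₁ X₂ X₃ i q s r _ _ _ h1 h2 h3 hP1 hP3
      exact hF10 p D lam X₁ X₂ X₃ i q s r h1 h2 h3 hP1 hP3
  -- the sequence `0 → K → F → X → 0` and its dual
  have hFW : GoodW W (tw W X) := goodW_tw le_rfl hXW
  have hKW : GoodW W (kerRep (twSum W X)) := goodW_ker _ hFW
  have hses := isSES_ker (twSum W X) (twSum_surjective W X)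
  obtain ⟨hdses, hdgood, -⟩ := hD8 (ZMod p) D.G D.χ
  have hses' := hdses _ _ _ _ _ hses
  have hFd : GoodW W ((tw W X).dualTwist D.χ) := hdgood W _ hWχ hFW
  have hcses := hB1 (ZMod p) D.G D.𝒰 _ _ _ _ _ hses' (hgood _ hFd).2.isDisc
  obtain ⟨-, hles, -, -⟩ := stmt_les _ _ _ _ _ _ hcses
  intro z hz
  -- lift `z`
  obtain ⟨z', hz'⟩ := ctx.loc.rex _ _ (twSum W X) (hgood _ hFW) (hgood _ hXW)
    (twSum_surjective W X) z
  -- the linear form on `H⁰(F†)`
  obtain ⟨Ψ, hΨ⟩ := GEall_factor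
    ((locH D (dg D (kerRep (twSum W X))) 0) ∘ₗ (HM D.𝒰 (dag D.χ (kerι (twSum W X))) 0))
    ((pairD D lam (tw W X) z') ∘ₗ (locH D (dg D (tw W X)) 0)) (by
      intro η hη
      have h1 : HM D.𝒰 (dag D.χ (kerι (twSum W X))) 0 η = 0 :=
        hD7 p D ctx.ne _ (by rw [map_zero]; exact hη)
      obtain ⟨γ, rfl⟩ := (hles 0 η).1 h1
      show pairD D lam (tw W X) z' (locH D (dg D (tw W X)) 0 (HM D.𝒰 (dag D.χ (twSum W X)) 0 γ)) = 0
      rw [hD2, ← hD5, hz']
      exact hz γ)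
  have hKfd : Module.Finite (ZMod p) (Pl D (kerRep (twSum W X)) 2) :=
    ctx.loc.fd _ (hgood _ hKW) 2 le_rfl
  obtain ⟨z'', hz''⟩ := GEall_repr (pairD D lam (kerRep (twSum W X)))
    (ctx.loc.inj _ (hgood _ hKW)) (ctx.loc.surj _ (hgood _ hKW)) Ψ
  obtain ⟨g, hg⟩ := hGEF (z' - PM D (kerι (twSum W X)) 2 z'') (by
    intro η
    rw [map_sub, LinearMap.sub_apply, hD5, ← hD2, hz'', sub_eq_zero]
    exact (hΨ η).symm)
  refine ⟨HM D.𝒰 (twSum W X) 2 g, ?_⟩
  rw [hD2, hg, map_sub, hz', ← hPcomp _ _ _ (kerι (twSum W X)) (twSum W X) 0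
    (fun x => (x.2 : (twSum W X).hom x.1 = 0).symm) z'', hPzero _ _ 0 (fun x => rfl), sub_zero]

end Fermat.Agent.CFT.Pos

end
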