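/-
CFT / POS-F10 : (GE) is inherited by direct sums.
-/
import Fermat.Agent.CFT.Pos.Interface

set_option autoImplicit false

noncomputable section

namespace Fermat.Agent.CFT.Pos

open _root_.Fermat.Agent.CFT.Top _root_.Fermat.Agent.CFT.Top.Cpx Module CategoryTheory

/-- the push-forward of a class orthogonal to `H⁰` is orthogonal to `H⁰`. -/
lemma GEsplit_perp (hnat : Stmt_locNat) (hadj : Stmt_adj) {p : ℕ} [Fact p.Prime] (D : Datum p)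
    (lam : Lam D) {X Y : Rep.{0} (ZMod p) D.G} (f : X ⟶ Y) (z : Pl D X 2)
    (hz : ∀ γ : Hlc D.𝒰 (dg D X) 0, pairD D lam X z (locH D (dg D X) 0 γ) = 0)
    (γ : Hlc D.𝒰 (dg D Y) 0) : pairD D lam Y (PM D f 2 z) (locH D (dg D Y) 0 γ) = 0 := by
  rw [hadj p D lam X Y f z, ← hnat p D _ _ (dag D.χ f) 0 γ]
  exact hz _

theorem stmt_GEsplit (hPM : Stmt_PMfun) (hnat : Stmt_locNat) (hadj : Stmt_adj) :
    Stmt_GEsplit := by
  intro p _ D lam X₁ X₂ X₃ i q s r _ _ hsum h1 h3 z hz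
  obtain ⟨g₁, hg₁⟩ := h1 (PM D r 2 z) (GEsplit_perp hnat hadj D lam r z hz)
  obtain ⟨g₃, hg₃⟩ := h3 (PM D q 2 z) (GEsplit_perp hnat hadj D lam q z hz)
  refine ⟨HM D.𝒰 i 2 g₁ + HM D.𝒰 s 2 g₃, ?_⟩
  obtain ⟨hid, hcomp, hadd, -⟩ := hPM p D 2
  rw [map_add, hnat p D _ _ i 2 g₁, hnat p D _ _ s 2 g₃, hg₁, hg₃,
    ← hcomp _ _ _ r i (r ≫ i) (fun _ => rfl) z, ← hcomp _ _ _ q s (q ≫ s) (fun _ => rfl) z,
    ← hadd _ _ (r ≫ i) (q ≫ s) (𝟙 X₂) (fun x => (hsum x).symm) z]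
  exact hid _ (𝟙 X₂) (fun _ => rfl) z

end Fermat.Agent.CFT.Pos

end
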