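/-
CFT / POS-F6 : weak reciprocity implies strong reciprocity (`Stmt_GRs`).
-/
import Fermat.Agent.CFT.Pos.Interface

set_option autoImplicit false

noncomputable section

namespace Fermat.Agent.CFT.Pos

open _root_.Fermat.Agent.CFT.Top _root_.Fermat.Agent.CFT.Top.Cpx Module CategoryTheory

section GRsLin

variable {k : Type} [Field k]

/-- a linear form vanishing on a subspace and not at a given vector outside. -/
lemma GRs_exists_form {V : Type} [AddCommGroup V] [Module k V] (Y : Submodule k V) (x : V)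
    (hx : x ∉ Y) : ∃ c : V →ₗ[k] k, Y ≤ LinearMap.ker c ∧ c x ≠ 0 := by
  obtain ⟨c, hc, hY⟩ := Submodule.exists_le_ker_of_notMem hx
  exact ⟨c, hY, hc⟩

/-- a nonzero form vanishing on a subspace of codimension at most one has that subspace as
kernel. -/
lemma GRs_ker_eq {V : Type} [AddCommGroup V] [Module k V] [Module.Finite k V]
    (Y : Submodule k V) (l : V →ₗ[k] k) (hl : l ≠ 0) (hY : Y ≤ LinearMap.ker l)
    (hd : finrank k V ≤ finrank k Y + 1) : LinearMap.ker l = Y := by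
  have h1 : finrank k (LinearMap.ker l) + 1 = finrank k V :=
    Module.Dual.finrank_ker_add_one_of_ne_zero hl
  exact (Submodule.eq_of_le_of_finrank_le hY (by omega)).symm

end GRsLin

section GRsPi

variable {k : Type} [Field k] {ι : Type} [DecidableEq ι] (C : ι → Cpx k) (n : ℕ)

/-- the inclusion of the factor at `v` in the cohomology of a product. -/
def GRsInc (v : ι) : (C v).H n →ₗ[k] (pi C).H n :=
  (piHEquiv C n).symm.toLinearMap ∘ₗ LinearMap.single k (fun v => (C v).H n) v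

lemma GRsInc_proj (v w : ι) (y : (C v).H n) :
    (piProj C w).mapH n (GRsInc C n v y) = (Pi.single v y : ∀ v, (C v).H n) w := by
  rw [← piHEquiv_apply]
  simp [GRsInc]

lemma GRs_sum_inc [Fintype ι] (z : (pi C).H n) : ∑ v, GRsInc C n v ((piProj C v).mapH n z) = z := by
  apply (piHEquiv C n).injective
  rw [map_sum]
  funext w
  rw [Finset.sum_apply]
  simp only [piHEquiv_apply, GRsInc_proj]
  rw [Finset.sum_eq_single w]
  · simp
  · intro b _ hb
    simp [hb.symm]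
  · intro h
    exact absurd (Finset.mem_univ w) h

end GRsPi

section GRsMain

variable {p : ℕ} [Fact p.Prime] (D : Datum p)

lemma GRs_isMu : IsMu D.χ D.mu := by
  refine ⟨finrank_self (ZMod p), fun g m => ?_⟩
  rfl

lemma GRs_good_mu : Good D.𝒰 D.mu := by
  refine ⟨inferInstanceAs (Module.Finite (ZMod p) (ZMod p)), ?_⟩
  obtain ⟨U, hU, hχ⟩ := D.χtriv
  refine ⟨U, hU, fun u hu m => ?_⟩
  rw [(GRs_isMu D).2 u m, hχ u hu]
  simp

lemma GRs_good_ker : D.Good D.χ.ker := by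
  obtain ⟨U, hU, hχ⟩ := D.χtriv
  exact ⟨⟨U, hU, fun u hu => MonoidHom.mem_ker.2 (hχ u hu)⟩, fun h hh => MonoidHom.mem_ker.1 hh⟩

lemma GRs_good_perm (H : Subgroup D.G) (hH : D.Good H) :
    H.FiniteIndex ∧ Good D.𝒰 (perm H : Rep.{0} (ZMod p) D.G) := by
  obtain ⟨⟨U, hU, hUH⟩, -⟩ := hH
  have hn : U.Normal := D.𝒰.normal U hU
  have hf : U.FiniteIndex := D.𝒰.fin U hU
  have hfH : H.FiniteIndex := Subgroup.finiteIndex_of_le hUH
  have h := goodW_perm (k := ZMod p) hUH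
  exact ⟨hfH, h.1, U, hU, h.2⟩

lemma GRs_proj_loc (X : Rep.{0} (ZMod p) D.G) (n : ℕ) (x : Hlc D.𝒰 X n) (w : D.ι) :
    prV D X w n (locH D X n x) = (lcRes (D.φ w) (D.cont w) X).mapH n x := by
  obtain ⟨c, rfl⟩ := (lcCpx D.𝒰 X).cls_surjective n x
  rfl

end GRsMain

/-- **F6.** weak reciprocity implies strong reciprocity. -/
theorem stmt_GRs (hB10 : Stmt_eqHomPerm) (hD2 : Stmt_locNat) : Stmt_GRs := by
  classical
  intro p _ D hI hY hrex hfd
  -- the surjection `perm H → μ`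
  obtain ⟨hfin, hgP⟩ := GRs_good_perm D D.χ.ker (GRs_good_ker D)
  obtain ⟨-, e, he⟩ := hB10 (ZMod p) D.G D.χ D.mu (GRs_isMu D) D.χ.ker
    (fun h hh => MonoidHom.mem_ker.1 hh)
  set q : (perm D.χ.ker : Rep.{0} (ZMod p) D.G) ⟶ D.mu := ofEq e with hq
  have hqs : Function.Surjective q.hom := he
  have hf : Function.Surjective (PM D q 2) := hrex _ _ q hgP (GRs_good_mu D) hqs
  set Ymu : Submodule (ZMod p) (Pl D D.mu 2) := LinearMap.range (locH D D.mu 2) with hYmu
  set YH : Submodule (ZMod p) (Pl D (perm D.χ.ker) 2) :=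
    LinearMap.range (locH D (perm D.χ.ker) 2) with hYH
  -- `Y_μ` contains no nonzero element of a factor
  have hnot : ∀ (v : D.ι) (y : (D.locCpxAt D.mu v).H 2), y ≠ 0 →
      GRsInc (fun v => D.locCpxAt D.mu v) 2 v y ∉ Ymu := by
    rintro v y hy ⟨x, hx⟩
    apply hy
    have h1 : ∀ w, (lcRes (D.φ w) (D.cont w) D.mu).mapH 2 x
        = (Pi.single v y : ∀ v, (D.locCpxAt D.mu v).H 2) w := by
      intro w
      rw [← GRs_proj_loc, hx]
      exact GRsInc_proj _ 2 v w y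
    have h2 := hI.gr v x (fun w hw => by rw [h1 w]; simp [hw])
    rw [h1 v] at h2
    simpa using h2
  -- a form
  obtain ⟨v₀⟩ := hI.ne
  obtain ⟨y₀, hy₀⟩ := @exists_ne _ (hI.ln3 v₀) (0 : (D.locCpxAt D.mu v₀).H 2)
  obtain ⟨c, hcY, hc⟩ := GRs_exists_form Ymu _ (hnot v₀ y₀ hy₀)
  have hfdP : Module.Finite (ZMod p) (Pl D (perm D.χ.ker) 2) := hfd _ hgP 2 le_rfl
  have hl : c ∘ₗ PM D q 2 ≠ 0 := by
    intro h0
    obtain ⟨z, hz⟩ := hf (GRsInc (fun v => D.locCpxAt D.mu v) 2 v₀ y₀)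
    apply hc
    rw [← hz]
    exact LinearMap.congr_fun h0 z
  have hlY : YH ≤ LinearMap.ker (c ∘ₗ PM D q 2) := by
    rintro _ ⟨x, rfl⟩
    rw [LinearMap.mem_ker, LinearMap.comp_apply, ← hD2 p D _ _ q 2 x]
    exact hcY ⟨_, rfl⟩
  have hker : LinearMap.ker (c ∘ₗ PM D q 2) = YH :=
    GRs_ker_eq YH _ hl hlY (hY _ (GRs_good_ker D))
  have hkerc : LinearMap.ker c = Ymu := by
    apply le_antisymm _ hcY
    intro z hz
    obtain ⟨z', rfl⟩ := hf z
    have : z' ∈ YH := by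
      rw [← hker]
      exact hz
    obtain ⟨x, rfl⟩ := this
    exact ⟨HM D.𝒰 q 2 x, hD2 p D _ _ q 2 x⟩
  refine ⟨fun v => c ∘ₗ GRsInc (fun v => D.locCpxAt D.mu v) 2 v, fun v h0 => ?_, fun x => ?_⟩
  · obtain ⟨y, hy⟩ := @exists_ne _ (hI.ln3 v) (0 : (D.locCpxAt D.mu v).H 2)
    apply hnot v y hy
    rw [← hkerc]
    exact LinearMap.congr_fun h0 y
  · have h1 : c (locH D D.mu 2 x) = 0 := hcY ⟨x, rfl⟩
    rw [← GRs_sum_inc (fun v => D.locCpxAt D.mu v) 2 (locH D D.mu 2 x), map_sum] at h1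
    rw [← h1]
    refine Finset.sum_congr rfl fun v _ => ?_
    rw [LinearMap.comp_apply, ← GRs_proj_loc]

end Fermat.Agent.CFT.Pos

end
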