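/-
CFT / POS : work package D10 of `Pos/Interface.lean` (helper25): invariance under isomorphisms.
-/
import Fermat.Agent.CFT.Pos.Interface

set_option autoImplicit false

noncomputable section

namespace Fermat.Agent.CFT.Pos

open _root_.Fermat.Agent.CFT.Top _root_.Fermat.Agent.CFT.Top.Cpx Module CategoryTheory

/-- D10. invariance under isomorphisms. -/
theorem stmt_isoInv (hH : Stmt_HMfun) (hI : Stmt_inv) (hP : Stmt_PMfun) (hL : Stmt_locNat) :
    Stmt_isoInv := by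
  intro p _ D X Y e he n
  obtain ⟨e', h1, h2⟩ := hI (ZMod p) D.G X Y e he
  obtain ⟨hid, hcomp, -, -⟩ := hH (ZMod p) D.G D.𝒰 n
  obtain ⟨pid, pcomp, -, -⟩ := hP p D n
  have a1 : ∀ z, HM D.𝒰 e' n (HM D.𝒰 e n z) = z := fun z => by
    rw [← hcomp X Y X e e' (𝟙 X) (fun x => (h1 x).symm) z]
    exact hid X (𝟙 X) (fun x => rfl) z
  have a2 : ∀ z, HM D.𝒰 e n (HM D.𝒰 e' n z) = z := fun z => by
    rw [← hcomp Y X Y e' e (𝟙 Y) (fun x => (h2 x).symm) z]
    exact hid Y (𝟙 Y) (fun x => rfl) z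
  have b1 : ∀ z, PM D e' n (PM D e n z) = z := fun z => by
    rw [← pcomp X Y X e e' (𝟙 X) (fun x => (h1 x).symm) z]
    exact pid X (𝟙 X) (fun x => rfl) z
  have b2 : ∀ z, PM D e n (PM D e' n z) = z := fun z => by
    rw [← pcomp Y X Y e' e (𝟙 Y) (fun x => (h2 x).symm) z]
    exact pid Y (𝟙 Y) (fun x => rfl) z
  have hE : Function.Bijective (HM D.𝒰 e n) :=
    ⟨Function.LeftInverse.injective a1, Function.RightInverse.surjective a2⟩
  have hF : Function.Bijective (PM D e n) :=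
    ⟨Function.LeftInverse.injective b1, Function.RightInverse.surjective b2⟩
  refine ⟨hE, hF, ?_, ?_⟩
  · let E : Hlc D.𝒰 X n ≃ₗ[ZMod p] Hlc D.𝒰 Y n := LinearEquiv.ofBijective (HM D.𝒰 e n) hE
    have hmap : (D.Sha X n).map (E : Hlc D.𝒰 X n →ₗ[ZMod p] Hlc D.𝒰 Y n) = D.Sha Y n := by
      ext y
      constructor
      · rintro ⟨x, hx, rfl⟩
        have hx' : locH D X n x = 0 := hx
        show locH D Y n (HM D.𝒰 e n x) = 0
        rw [hL p D X Y e n x, hx', map_zero]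
      · intro hy
        have hy' : locH D Y n y = 0 := hy
        refine ⟨HM D.𝒰 e' n y, ?_, a2 y⟩
        show locH D X n (HM D.𝒰 e' n y) = 0
        rw [hL p D Y X e' n y, hy', map_zero]
    exact ⟨(E.submoduleMap (D.Sha X n)).trans (LinearEquiv.ofEq _ _ hmap)⟩
  · let F : Pl D X n ≃ₗ[ZMod p] Pl D Y n := LinearEquiv.ofBijective (PM D e n) hF
    have hmap : (LinearMap.range (locH D X n)).map (F : Pl D X n →ₗ[ZMod p] Pl D Y n)
        = LinearMap.range (locH D Y n) := by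
      ext y
      constructor
      · rintro ⟨_, ⟨x, rfl⟩, rfl⟩
        exact ⟨HM D.𝒰 e n x, hL p D X Y e n x⟩
      · rintro ⟨x, rfl⟩
        refine ⟨locH D X n (HM D.𝒰 e' n x), ⟨_, rfl⟩, ?_⟩
        show PM D e n (locH D X n (HM D.𝒰 e' n x)) = _
        rw [← hL p D X Y e n, a2]
    exact ⟨(F.submoduleMap (LinearMap.range (locH D X n))).trans (LinearEquiv.ofEq _ _ hmap)⟩

end Fermat.Agent.CFT.Pos

end
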