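import Fermat.Agent.CFT.Pos.Interface

/-!
# CFT / POS C4, C5 : `H⁰(Y') = Hom_G(Y, M)`; local duality as a perfect pairing (helper2)
-/

set_option autoImplicit false

noncomputable section

namespace Fermat.Agent.CFT.Pos

open _root_.Fermat.Agent.CFT.Top _root_.Fermat.Agent.CFT.Top.Cpx Module CategoryTheory

theorem stmt_bridgeB : Stmt_bridgeB := by
  intro k _ G _ 𝒰 Y' Y M β hβ hbij
  constructor
  · intro η η' h
    apply val0_injective 𝒰 Y'
    apply hbij.1
    exact congrArg Subtype.val h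
  · intro e
    obtain ⟨y', hy'⟩ := hbij.2 e.1
    have hinv : ∀ g : G, Y'.ρ g y' = y' := by
      intro g
      apply hbij.1
      apply LinearMap.ext
      intro y
      have hy : Y.ρ g (Y.ρ g⁻¹ y) = y := by
        rw [← Module.End.mul_apply, ← map_mul, mul_inv_cancel, map_one, Module.End.one_apply]
      have h1 := hβ g y' (Y.ρ g⁻¹ y)
      rw [hy, hy'] at h1
      rw [h1, ← e.2 g, hy, hy']
    refine ⟨cls0 𝒰 Y' ⟨y', hinv⟩, ?_⟩
    apply Subtype.ext
    show β (val0 𝒰 Y' (cls0 𝒰 Y' ⟨y', hinv⟩)) = e.1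
    rw [val0_cls0, hy']

theorem stmt_LDB (hB : Stmt_bridgeB) : Stmt_LDB := by
  intro k _ G _ 𝒰 Y' Y M β hβ lam hbij hY hM hperf
  have hb := hB k G 𝒰 Y' Y M β hβ hbij
  constructor
  · intro η hη
    apply hb.1
    rw [map_zero]
    rw [← Module.forall_dual_apply_eq_zero_iff k]
    intro ψ
    obtain ⟨z, rfl⟩ := hperf.2 ψ
    exact hη z
  · intro φ
    have hfin : Module.Finite k (EqHom Y M) := inferInstance
    let α := LinearEquiv.ofBijective (alphaE 𝒰 M lam Y) hperf
    let Ψ : Module.Dual k (Module.Dual k (EqHom Y M)) := φ ∘ₗ α.symm.toLinearMap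
    obtain ⟨e, he⟩ := (Module.evalEquiv k (EqHom Y M)).surjective Ψ
    obtain ⟨η, hη⟩ := hb.2 e
    refine ⟨η, fun z => ?_⟩
    have h1 : Ψ (α z) = φ z := by
      show φ (α.symm (α z)) = φ z
      rw [LinearEquiv.symm_apply_apply]
    rw [← h1, ← he, pairB_apply, hη]
    rfl

end Fermat.Agent.CFT.Pos

end
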