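/-
CFT / POS-C3 : dévissage of local duality.
-/
import Fermat.Agent.CFT.Pos.Interface

set_option autoImplicit false

noncomputable section

namespace Fermat.Agent.CFT.Pos

open _root_.Fermat.Agent.CFT.Top _root_.Fermat.Agent.CFT.Top.Cpx Module CategoryTheory

section

variable {k : Type} [Field k] {G : Type} [Group G] (𝒰 : LevelSys G)

/-- precomposition with a morphism, on equivariant maps -/
def LDE_pre {X Y : Rep.{0} k G} (f : X ⟶ Y) (M : Rep.{0} k G) : EqHom Y M →ₗ[k] EqHom X M where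
  toFun e := ⟨e.1 ∘ₗ f.hom.toLinearMap, fun g x => by
    have h1 : f.hom (X.ρ g x) = Y.ρ g (f.hom x) := Rep.hom_comm_apply f g x
    show e.1 (f.hom (X.ρ g x)) = M.ρ g (e.1 (f.hom x))
    rw [h1, e.2 g]⟩
  map_add' _ _ := rfl
  map_smul' _ _ := rfl

lemma LDE_pre_apply {X Y : Rep.{0} k G} (f : X ⟶ Y) (M : Rep.{0} k G) (e : EqHom Y M) (x : X) :
    (LDE_pre f M e).1 x = e.1 (f.hom x) := rfl

lemma LDE_HE_eq_HM {X Y : Rep.{0} k G} (e : EqHom X Y) (n : ℕ) : HE 𝒰 e n = HM 𝒰 (ofEq e) n := rfl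

lemma LDE_pre_injective {X Y : Rep.{0} k G} (f : X ⟶ Y) (hf : Function.Surjective f.hom)
    (M : Rep.{0} k G) : Function.Injective (LDE_pre f M) := by
  intro e e' h
  apply Subtype.ext
  apply LinearMap.ext
  intro y
  obtain ⟨x, rfl⟩ := hf y
  exact congrArg (fun z : EqHom X M => z.1 x) h

/-- naturality of `α` -/
lemma LDE_alpha_nat (hF : Stmt_HMfun) (M : Rep.{0} k G) (lam : Hlc 𝒰 M 2 →ₗ[k] k)
    {X Y : Rep.{0} k G} (f : X ⟶ Y) (z : Hlc 𝒰 X 2) (e : EqHom Y M) :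
    alphaE 𝒰 M lam Y (HM 𝒰 f 2 z) e = alphaE 𝒰 M lam X z (LDE_pre f M e) := by
  rw [alphaE_apply, alphaE_apply, LDE_HE_eq_HM, LDE_HE_eq_HM]
  congr 1
  exact ((hF k G 𝒰 2).2.1 _ _ _ f (ofEq e) (ofEq (LDE_pre f M e)) (fun _ => rfl) z).symm

/-- left exactness of `Hom_G(-, M)` -/
lemma LDE_factor {X Y : Rep.{0} k G} (q : X ⟶ Y) (hq : Function.Surjective q.hom)
    (M : Rep.{0} k G) (e' : EqHom X M) (h : LDE_pre (kerι q) M e' = 0) :
    ∃ e : EqHom Y M, LDE_pre q M e = e' := by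
  have hle : LinearMap.ker q.hom.toLinearMap ≤ LinearMap.ker e'.1 := by
    intro x hx
    exact congrArg (fun z : EqHom (kerRep q) M => z.1 ⟨x, hx⟩) h
  have hq' : LinearMap.range q.hom.toLinearMap = ⊤ := LinearMap.range_eq_top.2 hq
  let E : Y →ₗ[k] M := ((LinearMap.ker q.hom.toLinearMap).liftQ e'.1 hle) ∘ₗ
    (q.hom.toLinearMap.quotKerEquivOfSurjective hq).symm.toLinearMap
  have hE : ∀ x : X, E (q.hom x) = e'.1 x := by
    intro x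
    have h1 : (q.hom.toLinearMap.quotKerEquivOfSurjective hq).symm (q.hom x)
        = Submodule.Quotient.mk x := by
      rw [LinearEquiv.symm_apply_eq]
      rfl
    show ((LinearMap.ker q.hom.toLinearMap).liftQ e'.1 hle)
      ((q.hom.toLinearMap.quotKerEquivOfSurjective hq).symm (q.hom x)) = _
    rw [h1]
    rfl
  refine ⟨⟨E, fun g y => ?_⟩, ?_⟩
  · obtain ⟨x, rfl⟩ := hq y
    have h1 : q.hom (X.ρ g x) = Y.ρ g (q.hom x) := Rep.hom_comm_apply q g x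
    rw [← h1, hE, hE, e'.2 g]
  · apply Subtype.ext
    apply LinearMap.ext
    intro x
    exact hE x

lemma LDE_subsingleton (M : Rep.{0} k G) (lam : Hlc 𝒰 M 2 →ₗ[k] k) (Z : Rep.{0} k G)
    (hZ : Subsingleton Z) : PerfE 𝒰 M lam Z := by
  have h1 : Subsingleton (Hlc 𝒰 Z 2) := by
    refine ⟨fun a b => ?_⟩
    obtain ⟨a, rfl⟩ := (lcCpx 𝒰 Z).cls_surjective 2 a
    obtain ⟨b, rfl⟩ := (lcCpx 𝒰 Z).cls_surjective 2 b
    congr 1
    apply Subtype.ext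
    apply Subtype.ext
    funext g
    exact Subsingleton.elim _ _
  have h2 : Subsingleton (EqHom Z M) := by
    refine ⟨fun a b => Subtype.ext (LinearMap.ext fun x => ?_)⟩
    rw [Subsingleton.elim x 0, map_zero, map_zero]
  have h3 : Subsingleton (Module.Dual k (EqHom Z M)) :=
    ⟨fun a b => LinearMap.ext fun x => by rw [Subsingleton.elim x 0, map_zero, map_zero]⟩
  exact ⟨fun a b _ => Subsingleton.elim _ _, fun b => ⟨0, Subsingleton.elim _ _⟩⟩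

end

section

variable {p : ℕ} [Fact p.Prime] {G : Type} [Group G] (𝒰 : LevelSys G)

/-- a good module is covered by a module for which duality holds -/
lemma LDE_cover (hB8 : Stmt_splitClosure) (hC2 : Stmt_LDEsplit) (M : Rep.{0} (ZMod p) G)
    (lam : Hlc 𝒰 M 2 →ₗ[ZMod p] ZMod p)
    (hperm : ∀ U₀ ∈ 𝒰.S, ∃ U ∈ 𝒰.S, U ≤ U₀ ∧ PerfE 𝒰 M lam (perm U))
    (Y : Rep.{0} (ZMod p) G) (hY : Good 𝒰 Y) :
    ∃ (U : Subgroup G) (_ : U.Normal) (_ : U.FiniteIndex), U ∈ 𝒰.S ∧ GoodW U Y ∧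
      PerfE 𝒰 M lam (tw U Y) := by
  obtain ⟨hfin, U₀, hU₀, htriv⟩ := hY
  obtain ⟨U, hU, hle, hP⟩ := hperm U₀ hU₀
  have hn := 𝒰.normal U hU
  have hf := 𝒰.fin U hU
  have hg : GoodW U Y := ⟨hfin, fun u hu x => htriv u (hle hu) x⟩
  refine ⟨U, hn, hf, hU, hg, ?_⟩
  refine hB8 p G U (PerfE 𝒰 M lam) (fun Z hZ => LDE_subsingleton 𝒰 M lam Z hZ) ?_ hP Y hg
  intro X₁ X₂ X₃ i q s r _ _ _ h1 h2 h3 P1 P3
  exact hC2 (ZMod p) G 𝒰 M lam X₁ X₂ X₃ i q s r h1 h2 h3 P1 P3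

lemma LDE_surj (hB8 : Stmt_splitClosure) (hC2 : Stmt_LDEsplit) (hF : Stmt_HMfun)
    (M : Rep.{0} (ZMod p) G) (lam : Hlc 𝒰 M 2 →ₗ[ZMod p] ZMod p)
    (hperm : ∀ U₀ ∈ 𝒰.S, ∃ U ∈ 𝒰.S, U ≤ U₀ ∧ PerfE 𝒰 M lam (perm U))
    (Y : Rep.{0} (ZMod p) G) (hY : Good 𝒰 Y) : Function.Surjective (alphaE 𝒰 M lam Y) := by
  obtain ⟨U, hn, hf, hU, hg, hP⟩ := LDE_cover 𝒰 hB8 hC2 M lam hperm Y hY
  intro φ
  have hinj := LDE_pre_injective (twSum U Y) (twSum_surjective U Y) M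
  obtain ⟨φ', hφ'⟩ := LinearMap.dualMap_surjective_of_injective hinj φ
  obtain ⟨z', hz'⟩ := hP.2 φ'
  refine ⟨HM 𝒰 (twSum U Y) 2 z', ?_⟩
  apply LinearMap.ext
  intro e
  rw [LDE_alpha_nat 𝒰 hF, hz', ← hφ']
  rfl

end

theorem stmt_LDE (hB8 : Stmt_splitClosure) (hC2 : Stmt_LDEsplit) (hF : Stmt_HMfun) :
    Stmt_LDE := by
  intro p _ G _ 𝒰 M lam hRex hperm Y hY
  refine ⟨?_, LDE_surj 𝒰 hB8 hC2 hF M lam hperm Y hY⟩
  obtain ⟨U, hn, hf, hU, hg, hP⟩ := LDE_cover 𝒰 hB8 hC2 M lam hperm Y hY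
  rw [injective_iff_map_eq_zero]
  intro z hz
  have hgF : GoodW U (tw U Y) := goodW_tw le_rfl hg
  have hgK : GoodW U (kerRep (twSum U Y)) := goodW_ker _ hgF
  have hGood : ∀ X : Rep.{0} (ZMod p) G, GoodW U X → Good 𝒰 X :=
    fun X hX => ⟨hX.1, U, hU, hX.2⟩
  obtain ⟨z', rfl⟩ := hRex _ _ (twSum U Y) (hGood _ hgF) hY (twSum_surjective U Y) z
  -- `α_F z'` vanishes on the kernel of the restriction to `K`
  have hann : alphaE 𝒰 M lam (tw U Y) z' ∈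
      (LinearMap.ker (LDE_pre (kerι (twSum U Y)) M)).dualAnnihilator := by
    rw [Submodule.mem_dualAnnihilator]
    intro e' he'
    obtain ⟨e, rfl⟩ := LDE_factor (twSum U Y) (twSum_surjective U Y) M e' he'
    rw [← LDE_alpha_nat 𝒰 hF, hz]
    rfl
  rw [← LinearMap.range_dualMap_eq_dualAnnihilator_ker] at hann
  obtain ⟨ψ, hψ⟩ := hann
  obtain ⟨z'', hz''⟩ := LDE_surj 𝒰 hB8 hC2 hF M lam hperm _ (hGood _ hgK) ψ
  have hzz : z' = HM 𝒰 (kerι (twSum U Y)) 2 z'' := by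
    apply hP.1
    apply LinearMap.ext
    intro e'
    rw [LDE_alpha_nat 𝒰 hF, hz'', ← hψ]
    rfl
  rw [hzz, ← (hF (ZMod p) G 𝒰 2).2.1 _ _ _ (kerι (twSum U Y)) (twSum U Y)
    (kerι (twSum U Y) ≫ twSum U Y) (fun _ => rfl) z'']
  exact (hF (ZMod p) G 𝒰 2).2.2.2 _ _ (kerι (twSum U Y) ≫ twSum U Y)
    (fun x : kerRep (twSum U Y) => x.2) z''

end Fermat.Agent.CFT.Pos

end
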