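/-
CFT / POS : C1, local duality for `perm U`.
-/
import Fermat.Agent.CFT.Pos.Interface

set_option autoImplicit false

noncomputable section

namespace Fermat.Agent.CFT.Pos

open _root_.Fermat.Agent.CFT.Top _root_.Fermat.Agent.CFT.Top.Cpx Module CategoryTheory

/-- a nonzero linear map between one dimensional spaces is bijective. -/
lemma LDEperm_bijective_of_finrank_one {k V W : Type*} [Field k] [AddCommGroup V] [Module k V]
    [AddCommGroup W] [Module k W] (hV : finrank k V = 1) (hW : finrank k W = 1) (f : V →ₗ[k] W)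
    (hf : f ≠ 0) : Function.Bijective f := by
  have : Module.Finite k V := Module.finite_of_finrank_pos (by omega)
  have : Module.Finite k W := Module.finite_of_finrank_pos (by omega)
  have hinj : Function.Injective f := by
    rw [← LinearMap.ker_eq_bot]
    by_contra hne
    have h1 : 0 < finrank k (LinearMap.ker f) := by
      rw [Module.finrank_pos_iff]
      exact Submodule.nontrivial_iff_ne_bot.mpr hne
    have h2 : finrank k (LinearMap.ker f) ≤ finrank k V := Submodule.finrank_le _
    have h3 : LinearMap.ker f = ⊤ := Submodule.eq_top_of_finrank_eq (by omega)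
    exact hf (LinearMap.ker_eq_top.mp h3)
  exact ⟨hinj, (LinearMap.injective_iff_surjective_of_finrank_eq_finrank (hV.trans hW.symm)).mp hinj⟩

/-- **C1**. -/
theorem stmt_LDEperm (h : Stmt_eqHomPerm) : Stmt_LDEperm := by
  intro k _ G _ 𝒰 χ M lam hM hlam hrex U hU hχ hfin
  have : U.Normal := 𝒰.normal U hU
  have : U.FiniteIndex := 𝒰.fin U hU
  obtain ⟨h1, e, he⟩ := h k G χ M hM U hχ
  have hfe : Module.Finite k (EqHom (perm U : Rep.{0} k G) M) :=
    Module.finite_of_finrank_pos (by omega)
  refine LDEperm_bijective_of_finrank_one hfin (by rw [Subspace.dual_finrank_eq, h1]) _ ?_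
  intro h0
  apply hlam
  have hgP : Good 𝒰 (perm U : Rep.{0} k G) :=
    ⟨(goodW_perm (k := k) (le_refl U)).1, U, hU, (goodW_perm (k := k) (le_refl U)).2⟩
  have hgM : Good 𝒰 M := by
    refine ⟨Module.finite_of_finrank_pos (by rw [hM.1]; exact one_pos), U, hU, fun u hu m => ?_⟩
    rw [hM.2, hχ u hu, Units.val_one, one_smul]
  have hs : Function.Surjective (HM 𝒰 (ofEq e) 2) := hrex _ _ (ofEq e) hgP hgM he
  apply LinearMap.ext
  intro w
  obtain ⟨z, rfl⟩ := hs w
  have := congrArg (fun F => F z e) h0
  exact this

end Fermat.Agent.CFT.Pos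

end
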