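/-
CFT / POS, package C2: local duality is inherited by direct sums.
-/
import Fermat.Agent.CFT.Pos.Interface

set_option autoImplicit false

noncomputable section

namespace Fermat.Agent.CFT.Pos

open _root_.Fermat.Agent.CFT.Top _root_.Fermat.Agent.CFT.Top.Cpx Module CategoryTheory

section

variable {k : Type} [Field k] {G : Type} [Group G] (𝒰 : LevelSys G)

/-- precomposition with a morphism, `Hom_G(Y, M) → Hom_G(X, M)`. -/
def LDEsplit_pre (M : Rep.{0} k G) {X Y : Rep.{0} k G} (f : X ⟶ Y) : EqHom Y M →ₗ[k] EqHom X M where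
  toFun e := ⟨e.1 ∘ₗ f.hom.toLinearMap, fun g x => by
    show e.1 (f.hom (X.ρ g x)) = M.ρ g (e.1 (f.hom x))
    rw [Rep.hom_comm_apply f g x, e.2]⟩
  map_add' _ _ := rfl
  map_smul' _ _ := rfl

lemma LDEsplit_pre_apply (M : Rep.{0} k G) {X Y : Rep.{0} k G} (f : X ⟶ Y) (e : EqHom Y M) (x : X) :
    (LDEsplit_pre M f e).1 x = e.1 (f.hom x) := rfl

lemma LDEsplit_HE_pre (M : Rep.{0} k G) {X Y : Rep.{0} k G} (f : X ⟶ Y) (e : EqHom Y M) (n : ℕ)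
    (z : Hlc 𝒰 X n) : HE 𝒰 (LDEsplit_pre M f e) n z = HE 𝒰 e n (HM 𝒰 f n z) := by
  obtain ⟨c, rfl⟩ := (lcCpx 𝒰 X).cls_surjective n z
  rfl

end

theorem stmt_LDEsplit (hF : Stmt_HMfun) : Stmt_LDEsplit := by
  intro k _ G _ 𝒰 M lam X₁ X₂ X₃ i q s r hri hqs hsum h1 h3
  obtain ⟨hid, hcomp, hadd, -⟩ := hF k G 𝒰 2
  have hdec : ∀ z : Hlc 𝒰 X₂ 2,
      z = HM 𝒰 i 2 (HM 𝒰 r 2 z) + HM 𝒰 s 2 (HM 𝒰 q 2 z) := by
    intro z
    rw [← hcomp X₂ X₁ X₂ r i (r ≫ i) (fun x => rfl) z, ← hcomp X₂ X₃ X₂ q s (q ≫ s) (fun x => rfl) z,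
      ← hadd X₂ X₂ (r ≫ i) (q ≫ s) (𝟙 X₂) (fun x => (hsum x).symm) z,
      hid X₂ (𝟙 X₂) (fun x => rfl) z]
  constructor
  · rw [injective_iff_map_eq_zero]
    intro z hz
    have hr : HM 𝒰 r 2 z = 0 := by
      apply h1.1
      rw [map_zero]
      ext e
      rw [alphaE_apply, ← LDEsplit_HE_pre, ← alphaE_apply, hz]
      rfl
    have hq : HM 𝒰 q 2 z = 0 := by
      apply h3.1
      rw [map_zero]
      ext e
      rw [alphaE_apply, ← LDEsplit_HE_pre, ← alphaE_apply, hz]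
      rfl
    rw [hdec z, hr, hq, map_zero, map_zero, add_zero]
  · intro φ
    obtain ⟨z₁, hz₁⟩ := h1.2 (φ ∘ₗ LDEsplit_pre M r)
    obtain ⟨z₃, hz₃⟩ := h3.2 (φ ∘ₗ LDEsplit_pre M q)
    refine ⟨HM 𝒰 i 2 z₁ + HM 𝒰 s 2 z₃, ?_⟩
    ext e
    rw [alphaE_apply, map_add, map_add, ← LDEsplit_HE_pre, ← LDEsplit_HE_pre, ← alphaE_apply,
      ← alphaE_apply, hz₁, hz₃, LinearMap.comp_apply, LinearMap.comp_apply, ← map_add]
    congr 1
    apply Subtype.ext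
    ext x
    show e.1 (i.hom (r.hom x)) + e.1 (s.hom (q.hom x)) = e.1 x
    rw [← map_add, hsum]

end Fermat.Agent.CFT.Pos

end
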