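/-
CFT / POS, task POS-E2 (helper75): from the places to the product, `Stmt_locOK`.
-/
import Fermat.Agent.CFT.Pos.Interface

set_option autoImplicit false

noncomputable section

namespace Fermat.Agent.CFT.Pos

open _root_.Fermat.Agent.CFT.Top _root_.Fermat.Agent.CFT.Top.Cpx Module CategoryTheory

variable {p : ℕ} [Fact p.Prime] (D : Datum p)

/-- the restriction of a good module to a place is good. -/
lemma LocOK_good_res {X : Rep.{0} (ZMod p) D.G} (hX : Good D.𝒰 X) (v : D.ι) :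
    Good (D.𝒰v v) (Rep.res (D.φ v) X) := by
  obtain ⟨hfin, U, hU, hUX⟩ := hX
  obtain ⟨V, hV, hVU⟩ := D.cont v U hU
  exact ⟨hfin, V, hV, fun u hu m => hUX (D.φ v u) (hVU hu) m⟩

/-- components of `PM`. -/
lemma LocOK_prV_PM {X Y : Rep.{0} (ZMod p) D.G} (f : X ⟶ Y) (v : D.ι) (n : ℕ) (z : Pl D X n) :
    prV D Y v n (PM D f n z) = (Vmap D f v).mapH n (prV D X v n z) := by
  obtain ⟨c, rfl⟩ := (D.locCpx X).cls_surjective n z
  rfl

/-- the class with given components -/
def LocOK_mk (X : Rep.{0} (ZMod p) D.G) (n : ℕ) (y : ∀ v, (D.locCpxAt X v).H n) : Pl D X n :=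
  (piHEquiv (fun v => D.locCpxAt X v) n).symm y

lemma LocOK_prV_mk (X : Rep.{0} (ZMod p) D.G) (n : ℕ) (y : ∀ v, (D.locCpxAt X v).H n) (v : D.ι) :
    prV D X v n (LocOK_mk D X n y) = y v := by
  have := (piHEquiv (fun v => D.locCpxAt X v) n).apply_symm_apply y
  exact congrFun this v

lemma LocOK_ext (X : Rep.{0} (ZMod p) D.G) (n : ℕ) {z z' : Pl D X n}
    (h : ∀ v, prV D X v n z = prV D X v n z') : z = z' :=
  (piHEquiv (fun v => D.locCpxAt X v) n).injective (funext h)

/-- E2. from the places to the product. -/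
theorem stmt_locOK (hPi : Stmt_fdPi) (hLDB : Stmt_LDB) : Stmt_locOK := by
  intro p _ D lam hfd hrex hperf
  classical
  -- the local duality statements
  have hloc : ∀ (X : Rep.{0} (ZMod p) D.G), Good D.𝒰 X → ∀ v : D.ι,
      (∀ η : (D.locCpxAt (dg D X) v).H 0, (∀ z, lam v (pairV D X v z η) = 0) → η = 0) ∧
      (∀ φ : Module.Dual (ZMod p) ((D.locCpxAt X v).H 2),
        ∃ η : (D.locCpxAt (dg D X) v).H 0, ∀ z, lam v (pairV D X v z η) = φ z) := by
    intro X hX v
    have hg := LocOK_good_res D hX v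
    exact hLDB (ZMod p) (D.Gv v) (D.𝒰v v) (Rep.res (D.φ v) (dg D X)) (Rep.res (D.φ v) X)
      (Rep.res (D.φ v) D.mu) (evB D.χ X) (fun g e x => evB_equivar D.χ X (D.φ v g) e x) (lam v)
      Function.bijective_id hg.1 (inferInstanceAs (Module.Finite (ZMod p) (ZMod p)))
      (hperf v _ hg)
  refine ⟨?_, ?_, ?_, ?_⟩
  · intro X hX n hn
    exact (hPi (ZMod p) D.ι (fun v => D.locCpxAt X v) n
      (fun v => hfd v _ (LocOK_good_res D hX v) n hn)).1
  · intro X₂ X₃ q h₂ h₃ hq z
    have h1 : ∀ v, ∃ y : (D.locCpxAt X₂ v).H 2, (Vmap D q v).mapH 2 y = prV D X₃ v 2 z := by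
      intro v
      exact hrex v (Rep.res (D.φ v) X₂) (Rep.res (D.φ v) X₃) (Rep.resMap (D.φ v) q)
        (LocOK_good_res D h₂ v) (LocOK_good_res D h₃ v) hq _
    choose y hy using h1
    refine ⟨LocOK_mk D X₂ 2 y, LocOK_ext D X₃ 2 fun v => ?_⟩
    rw [LocOK_prV_PM, LocOK_prV_mk, hy]
  · intro X hX η hη
    refine LocOK_ext D (dg D X) 0 fun v => ?_
    rw [map_zero]
    refine (hloc X hX v).1 _ fun z => ?_
    have h1 := hη (LocOK_mk D X 2 (Pi.single v z))
    rw [pairD_apply, Finset.sum_eq_single v] at h1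
    · rwa [LocOK_prV_mk, Pi.single_eq_same] at h1
    · intro w _ hw
      rw [LocOK_prV_mk, Pi.single_eq_of_ne hw, map_zero, LinearMap.zero_apply, map_zero]
    · intro h
      exact absurd (Finset.mem_univ v) h
  · intro X hX φ
    have h1 : ∀ v, ∃ η : (D.locCpxAt (dg D X) v).H 0, ∀ z, lam v (pairV D X v z η)
        = φ (LocOK_mk D X 2 (Pi.single v z)) := by
      intro v
      exact (hloc X hX v).2 (φ ∘ₗ (piHEquiv (fun v => D.locCpxAt X v) 2).symm.toLinearMap ∘ₗ
        LinearMap.single (ZMod p) (fun v => (D.locCpxAt X v).H 2) v)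
    choose η hη using h1
    refine ⟨LocOK_mk D (dg D X) 0 η, fun z => ?_⟩
    rw [pairD_apply]
    have h2 : z = ∑ v, LocOK_mk D X 2 (Pi.single v (prV D X v 2 z)) := by
      refine LocOK_ext D X 2 fun w => ?_
      rw [map_sum, Finset.sum_eq_single w]
      · rw [LocOK_prV_mk, Pi.single_eq_same]
      · intro v _ hv
        rw [LocOK_prV_mk, Pi.single_eq_of_ne hv.symm]
      · intro h
        exact absurd (Finset.mem_univ w) h
    conv_rhs => rw [h2, map_sum]
    refine Finset.sum_congr rfl fun v _ => ?_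
    rw [LocOK_prV_mk, hη]

end Fermat.Agent.CFT.Pos

end
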