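/-
CFT / POS-C0 : right exactness of `H²` for a "local" group (`Stmt_locRex`), from the Sylow package
(B4, B4'), finiteness (B5), Lemma S (B7) and `h⁰(perm H) = 1` (B9).
-/
import Fermat.Agent.CFT.Pos.Interface

set_option autoImplicit false

noncomputable section

namespace Fermat.Agent.CFT.Pos

open _root_.Fermat.Agent.CFT.Top _root_.Fermat.Agent.CFT.Top.Cpx Module CategoryTheory

/-- three levels have a common refinement. -/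
lemma locRex_level {G : Type} [Group G] (𝒰 : LevelSys G) {U₁ U₂ U₃ : Subgroup G}
    (h₁ : U₁ ∈ 𝒰.S) (h₂ : U₂ ∈ 𝒰.S) (h₃ : U₃ ∈ 𝒰.S) :
    ∃ W ∈ 𝒰.S, W ≤ U₁ ∧ W ≤ U₂ ∧ W ≤ U₃ := by
  obtain ⟨V, hV, hV1, hV2⟩ := 𝒰.dir U₁ h₁ U₂ h₂
  obtain ⟨W, hW, hWV, hW3⟩ := 𝒰.dir V hV U₃ h₃
  exact ⟨W, hW, hWV.trans hV1, hWV.trans hV2, hW3⟩

/-- the Euler characteristic of a permutation module, from the numerical hypotheses. -/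
lemma locRex_chi (h5 : Stmt_h0perm) {p : ℕ} [Fact p.Prime] {G : Type} [Group G] (𝒰 : LevelSys G)
    (H : Subgroup G) [H.FiniteIndex] (ε : ℕ)
    (e1 : finrank (ZMod p) (Hlc 𝒰 (permRep (ZMod p) H) 1) = 2 + ε * H.index)
    (e2 : finrank (ZMod p) (Hlc 𝒰 (permRep (ZMod p) H) 2) = 1) :
    chi 𝒰 (perm H : Rep.{0} (ZMod p) G) = - ((ε : ℤ) * H.index) := by
  have e0 : finrank (ZMod p) (Hlc 𝒰 (perm H : Rep.{0} (ZMod p) G) 0) = 1 := h5 (ZMod p) G 𝒰 H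
  have e1' : finrank (ZMod p) (Hlc 𝒰 (perm H : Rep.{0} (ZMod p) G) 1) = 2 + ε * H.index := e1
  have e2' : finrank (ZMod p) (Hlc 𝒰 (perm H : Rep.{0} (ZMod p) G) 2) = 1 := e2
  show (finrank (ZMod p) (Hlc 𝒰 (perm H : Rep.{0} (ZMod p) G) 0) : ℤ)
      - finrank (ZMod p) (Hlc 𝒰 (perm H : Rep.{0} (ZMod p) G) 1)
      + finrank (ZMod p) (Hlc 𝒰 (perm H : Rep.{0} (ZMod p) G) 2) = _
  rw [e0, e1', e2']
  push_cast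
  ring

/-- C0. right exactness of `H²` for a local group. -/
theorem stmt_locRex (h1 : Stmt_sylow) (h2 : Stmt_charTriv) (h3 : Stmt_fdAll)
    (h4 : Stmt_rightExact) (h5 : Stmt_h0perm) : Stmt_locRex := by
  intro p _ G _ 𝒰 χ hL X₂ X₃ q hX₂ hX₃ hq
  obtain ⟨U₁, hU₁, hχ⟩ := hL.χtriv
  obtain ⟨ε, hnum⟩ := hL.num
  obtain ⟨hf₂, U₂, hU₂, ht₂⟩ := hX₂
  obtain ⟨hf₃, U₃, hU₃, ht₃⟩ := hX₃
  obtain ⟨W, hW, hW1, hW2, hW3⟩ := locRex_level 𝒰 hU₁ hU₂ hU₃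
  have hWn : W.Normal := 𝒰.normal W hW
  have hWf : W.FiniteIndex := 𝒰.fin W hW
  obtain ⟨H, hWH, hHf, hHp, hHidx⟩ := h1 p G W
  have hχW : ∀ w ∈ W, χ w = 1 := fun w hw => hχ w (hW1 hw)
  have hχH : ∀ h ∈ H, χ h = 1 := h2 p G χ W H hχW hHp
  have hoW : 𝒰.IsOpen W := ⟨W, hW, le_rfl⟩
  have hoH : 𝒰.IsOpen H := ⟨W, hW, hWH⟩
  have hFD : ∀ X : Rep.{0} (ZMod p) G, GoodW W X → FD 𝒰 X := by
    intro X hX
    refine h3 p G 𝒰 χ hL.χtriv (fun K hK hχK => ?_) X ⟨hX.1, W, hW, hX.2⟩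
    obtain ⟨a, _, b, _⟩ := hnum K hK hχK
    exact ⟨a, b⟩
  obtain ⟨_, eW1, _, eW2⟩ := hnum W hoW hχW
  obtain ⟨_, eH1, _, eH2⟩ := hnum H hoH hχH
  have hchi : (H.index : ℤ) * chi 𝒰 (perm W : Rep.{0} (ZMod p) G)
      = (W.index : ℤ) * chi 𝒰 (perm H : Rep.{0} (ZMod p) G) := by
    rw [locRex_chi h5 𝒰 W ε eW1 eW2, locRex_chi h5 𝒰 H ε eH1 eH2]
    ring
  exact h4 p G 𝒰 W H hW hWH hHp hHidx hFD hchi X₂ X₃ q
    ⟨hf₂, fun w hw x => ht₂ w (hW2 hw) x⟩ ⟨hf₃, fun w hw x => ht₃ w (hW3 hw) x⟩ hq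

end Fermat.Agent.CFT.Pos

end
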