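/-
CFT / POS, block E (E1, E3): the local hypotheses hold at every place of a datum satisfying
`Inputs2`, and the assembly of the local theory.
-/
import Fermat.Agent.CFT.Pos.Interface

set_option autoImplicit false

noncomputable section

namespace Fermat.Agent.CFT.Pos

open _root_.Fermat.Agent.CFT.Top _root_.Fermat.Agent.CFT.Top.Cpx Module CategoryTheory

/-- the restriction of the character to a place is trivial on some level. -/
lemma Local_χtriv {p : ℕ} [Fact p.Prime] (D : Datum p) (v : D.ι) :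
    ∃ U ∈ (D.𝒰v v).S, ∀ u ∈ U, (D.χ.comp (D.φ v)) u = 1 := by
  obtain ⟨U, hU, hχ⟩ := D.χtriv
  obtain ⟨V, hV, hVU⟩ := D.cont v U hU
  exact ⟨V, hV, fun u hu => hχ _ (hVU hu)⟩

/-- the restriction of `μ` to a place is one dimensional with action through the character. -/
lemma Local_isMu {p : ℕ} [Fact p.Prime] (D : Datum p) (v : D.ι) :
    IsMu (D.χ.comp (D.φ v)) (Rep.res (D.φ v) D.mu) := by
  refine ⟨?_, fun g m => ?_⟩
  · exact Module.finrank_self (ZMod p)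
  · rfl

/-- E1. the hypotheses `LocHyp` hold at every place. -/
theorem stmt_locHyp : Stmt_locHyp := by
  intro p _ D hD v
  refine ⟨⟨Local_χtriv D v, ?_⟩, Local_isMu D v⟩
  obtain ⟨ε, hε⟩ := hD.ln v
  exact ⟨ε, fun H hH hχ => hε H ⟨hH, hχ⟩⟩

/-- E3. assembly of the local theory. -/
theorem stmt_local (hLoc : Stmt_locHyp) (hFd : Stmt_fdAll) (hRex : Stmt_locRex)
    (hPerm : Stmt_LDEperm) (hLDE : Stmt_LDE) (hOK : Stmt_locOK) : Stmt_local := by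
  intro p _ D hD lam hlam
  have hrex : ∀ v : D.ι, Rex (k := ZMod p) (D.𝒰v v) := fun v =>
    hRex p (D.Gv v) (D.𝒰v v) (D.χ.comp (D.φ v)) (hLoc p D hD v).1
  refine hOK p D lam ?_ hrex ?_
  · intro v Y hY
    obtain ⟨hL, -⟩ := hLoc p D hD v
    obtain ⟨ε, hε⟩ := hL.num
    exact hFd p (D.Gv v) (D.𝒰v v) (D.χ.comp (D.φ v)) hL.χtriv
      (fun H hH hχ => ⟨(hε H hH hχ).1, (hε H hH hχ).2.2.1⟩) Y hY
  · intro v Y hY
    obtain ⟨hL, hMu⟩ := hLoc p D hD v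
    obtain ⟨ε, hε⟩ := hL.num
    obtain ⟨U₁, hU₁, hχ₁⟩ := hL.χtriv
    refine hLDE p (D.Gv v) (D.𝒰v v) (Rep.res (D.φ v) D.mu) (lam v) (hrex v) ?_ Y hY
    intro U₀ hU₀
    obtain ⟨U, hU, hUU₀, hUU₁⟩ := (D.𝒰v v).dir U₀ hU₀ U₁ hU₁
    have hχ : ∀ u ∈ U, (D.χ.comp (D.φ v)) u = 1 := fun u hu => hχ₁ u (hUU₁ hu)
    exact ⟨U, hU, hUU₀, hPerm (ZMod p) (D.Gv v) (D.𝒰v v) (D.χ.comp (D.φ v))
      (Rep.res (D.φ v) D.mu) (lam v) hMu (hlam v) (hrex v) U hU hχ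
      (hε U ⟨U, hU, le_rfl⟩ hχ).2.2.2⟩

end Fermat.Agent.CFT.Pos

end
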