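/-
CFT / POS : top assembly.  `Top.Stmt_PT2` from the work packages of `Pos/Interface.lean`.
-/
import Fermat.Agent.CFT.Pos.Interface

set_option autoImplicit false

noncomputable section

namespace Fermat.Agent.CFT.Pos

open _root_.Fermat.Agent.CFT.Top _root_.Fermat.Agent.CFT.Top.Cpx Module CategoryTheory

/-- a nontrivial vector space has a nonzero linear form. -/
lemma exists_dual_ne_zero {k V : Type} [Field k] [AddCommGroup V] [Module k V] [Nontrivial V] :
    ∃ f : V →ₗ[k] k, f ≠ 0 := by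
  obtain ⟨x, hx⟩ := exists_ne (0 : V)
  by_contra h
  have h' : ∀ f : V →ₗ[k] k, f = 0 := fun f => by
    by_contra hf
    exact h ⟨f, hf⟩
  exact hx ((Module.forall_dual_apply_eq_zero_iff k x).1 fun f => by rw [h' f]; rfl)

/-- **Top assembly of the positivity route.** -/
theorem pt2_of_packages (hlocal : Stmt_local) (hfdAll : Stmt_fdAll) (htower : Stmt_tower)
    (hyLower : Stmt_yLower) (hGRs : Stmt_GRs) (hGR : Stmt_GR) (hGEperm : Stmt_GEperm)
    (hGEall : Stmt_GEall) (hdec : Stmt_phiDecomp) (hupper : Stmt_phiPermUpper)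
    (hend : Stmt_end) : Stmt_PT2 := by
  intro p _ D hI N hNfin hNtriv
  have hlam0 : ∃ lam0 : Lam D, ∀ v, lam0 v ≠ 0 := by
    have : ∀ v : D.ι, ∃ f : (D.locCpxAt D.mu v).H 2 →ₗ[ZMod p] ZMod p, f ≠ 0 := fun v => by
      have : Nontrivial ((D.locCpxAt D.mu v).H 2) := hI.ln3 v
      exact exists_dual_ne_zero
    choose f hf using this
    exact ⟨f, hf⟩
  obtain ⟨lam0, h0⟩ := hlam0
  have hloc0 := hlocal p D hI lam0 h0
  have gfd := hfdAll p D.G D.𝒰 D.χ D.χtriv (fun H hH hχ => hI.gf H ⟨hH, hχ⟩)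
  have ctx0 : Ctx D lam0 := ⟨hI.ne, gfd, hloc0⟩
  have tower := htower p D lam0 ctx0 hI.gnm hI.tw
  have ylow := fun H hH => hyLower p D lam0 ctx0 hI.gnp H hH (tower H hH)
  obtain ⟨lam, hlam, hgr0⟩ := hGRs p D hI ylow hloc0.rex hloc0.fd
  have hloc := hlocal p D hI lam hlam
  have ctx : Ctx D lam := ⟨hI.ne, gfd, hloc⟩
  have gr := hGR p D lam hgr0
  have geperm := fun H hH => hGEperm p D lam ctx H hH (gr _) (ylow H hH)
  have geall := hGEall p D lam ctx (fun W hW => geperm W ⟨⟨W, hW.1, le_rfl⟩, hW.2⟩)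
  have dec := hdec p D lam ctx gr geall
  have upper := fun H hH => hupper p D lam ctx hI.gnp H hH (gr _)
  have hfin := hend p D lam ctx upper dec N ⟨hNfin, hNtriv⟩
  have hN : Good D.𝒰 N := ⟨hNfin, hNtriv⟩
  have h2 : Module.Finite (ZMod p) (Hlc D.𝒰 N 2) := gfd N hN 2 le_rfl
  -- the dual is good
  have hN' : Good D.𝒰 (dg D N) := by
    obtain ⟨U, hU, hUN⟩ := hNtriv
    obtain ⟨V, hV, hVχ⟩ := D.χtriv
    obtain ⟨W, hW, h1, h2⟩ := D.𝒰.dir U hU V hV
    refine ⟨inferInstanceAs (Module.Finite (ZMod p) (Module.Dual (ZMod p) N)), W, hW, ?_⟩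
    intro w hw e
    apply LinearMap.ext
    intro x
    show ((D.χ w : ZMod p) • ((e : Module.Dual (ZMod p) N) ∘ₗ N.ρ w⁻¹)) x
      = (e : Module.Dual (ZMod p) N) x
    rw [hVχ w (h2 hw)]
    simp only [Units.val_one, one_smul, LinearMap.comp_apply]
    rw [hUN w⁻¹ (U.inv_mem (h1 hw))]
  have h1 : Module.Finite (ZMod p) (Hlc D.𝒰 (dg D N) 1) := gfd _ hN' 1 (by norm_num)
  exact ⟨inferInstance, inferInstance, hfin⟩

end Fermat.Agent.CFT.Pos

end
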