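/-
CFT / POS : F0, F1, F7 : linear algebra of the perfect pairing `P²(X) × P⁰(X†) → 𝔽_p`.
-/
import Fermat.Agent.CFT.Pos.Interface

set_option autoImplicit false

noncomputable section

namespace Fermat.Agent.CFT.Pos

open _root_.Fermat.Agent.CFT.Top _root_.Fermat.Agent.CFT.Top.Cpx Module CategoryTheory

namespace PerfLin

variable {F P2 P0 H2 H0 : Type*} [Field F] [AddCommGroup P2] [Module F P2]
  [AddCommGroup P0] [Module F P0] [AddCommGroup H2] [Module F H2] [AddCommGroup H0] [Module F H0]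

/-- a pairing which is injective and surjective on the right identifies `P0` with the dual. -/
def equivDual (B : P2 →ₗ[F] P0 →ₗ[F] F) (hinj : ∀ η : P0, (∀ z, B z η = 0) → η = 0)
    (hsurj : ∀ φ : Module.Dual F P2, ∃ η : P0, ∀ z, B z η = φ z) : P0 ≃ₗ[F] Module.Dual F P2 :=
  LinearEquiv.ofBijective B.flip
    ⟨(injective_iff_map_eq_zero _).2 fun η h => hinj η fun z => by
        have := LinearMap.congr_fun h z
        simpa using this,
      fun φ => by
        obtain ⟨η, hη⟩ := hsurj φ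
        exact ⟨η, LinearMap.ext fun z => by simpa using hη z⟩⟩

lemma equivDual_apply (B : P2 →ₗ[F] P0 →ₗ[F] F) (hinj : ∀ η : P0, (∀ z, B z η = 0) → η = 0)
    (hsurj : ∀ φ : Module.Dual F P2, ∃ η : P0, ∀ z, B z η = φ z) (η : P0) (z : P2) :
    equivDual B hinj hsurj η z = B z η := rfl

theorem finrank_eq [FiniteDimensional F P2] (B : P2 →ₗ[F] P0 →ₗ[F] F)
    (hinj : ∀ η : P0, (∀ z, B z η = 0) → η = 0)
    (hsurj : ∀ φ : Module.Dual F P2, ∃ η : P0, ∀ z, B z η = φ z) :
    finrank F P2 = finrank F P0 := by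
  rw [(equivDual B hinj hsurj).finrank_eq, Subspace.dual_finrank_eq]

theorem swap [FiniteDimensional F P2] (B : P2 →ₗ[F] P0 →ₗ[F] F)
    (hinj : ∀ η : P0, (∀ z, B z η = 0) → η = 0)
    (hsurj : ∀ φ : Module.Dual F P2, ∃ η : P0, ∀ z, B z η = φ z)
    (l2 : H2 →ₗ[F] P2) (l0 : H0 →ₗ[F] P0) :
    (∀ z, (∀ γ, B z (l0 γ) = 0) → ∃ g, l2 g = z) ↔
      (∀ η, (∀ g, B (l2 g) η = 0) → ∃ γ, l0 γ = η) := by
  set e := equivDual B hinj hsurj with he
  set Y : Submodule F P2 := LinearMap.range l2 with hY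
  set Z : Submodule F (Module.Dual F P2) := (LinearMap.range l0).map e.toLinearMap with hZ
  have h1 : (∀ z, (∀ γ, B z (l0 γ) = 0) → ∃ g, l2 g = z) ↔ Z.dualCoannihilator ≤ Y := by
    constructor
    · intro h z hz
      rw [Submodule.mem_dualCoannihilator] at hz
      exact h z fun γ => hz (e (l0 γ)) (Submodule.mem_map_of_mem ⟨γ, rfl⟩)
    · intro h z hz
      refine h ?_
      rw [Submodule.mem_dualCoannihilator]
      rintro φ ⟨_, ⟨γ, rfl⟩, rfl⟩
      exact hz γ
  have h2 : (∀ η, (∀ g, B (l2 g) η = 0) → ∃ γ, l0 γ = η) ↔ Y.dualAnnihilator ≤ Z := by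
    constructor
    · intro h φ hφ
      rw [Submodule.mem_dualAnnihilator] at hφ
      obtain ⟨γ, hγ⟩ := h (e.symm φ) fun g => by
        have := hφ (l2 g) ⟨g, rfl⟩
        rwa [← e.apply_symm_apply φ] at this
      exact ⟨e.symm φ, ⟨γ, hγ⟩, e.apply_symm_apply φ⟩
    · intro h η hη
      have : e η ∈ Y.dualAnnihilator := by
        rw [Submodule.mem_dualAnnihilator]
        rintro _ ⟨g, rfl⟩
        exact hη g
      obtain ⟨η', ⟨γ, hγ⟩, hη'⟩ := h this
      exact ⟨γ, by rw [hγ]; exact e.injective hη'⟩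
  rw [h1, h2]
  constructor
  · intro h
    calc Y.dualAnnihilator ≤ Z.dualCoannihilator.dualAnnihilator :=
          Submodule.dualAnnihilator_anti h
      _ = Z := Subspace.dualCoannihilator_dualAnnihilator_eq
  · intro h
    calc Z.dualCoannihilator ≤ Y.dualAnnihilator.dualCoannihilator :=
          Submodule.dualCoannihilator_anti h
      _ = Y := Subspace.dualAnnihilator_dualCoannihilator_eq

theorem upper [FiniteDimensional F P2] (B : P2 →ₗ[F] P0 →ₗ[F] F)
    (hinj : ∀ η : P0, (∀ z, B z η = 0) → η = 0)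
    (hsurj : ∀ φ : Module.Dual F P2, ∃ η : P0, ∀ z, B z η = φ z)
    (l2 : H2 →ₗ[F] P2) (l0 : H0 →ₗ[F] P0) (hl0 : Function.Injective l0)
    (hperp : ∀ g γ, B (l2 g) (l0 γ) = 0) :
    finrank F (LinearMap.range l2) + finrank F H0 ≤ finrank F P2 := by
  set e := equivDual B hinj hsurj with he
  have hle : LinearMap.range (e.toLinearMap ∘ₗ l0) ≤ (LinearMap.range l2).dualAnnihilator := by
    rintro _ ⟨γ, rfl⟩
    rw [Submodule.mem_dualAnnihilator]
    rintro _ ⟨g, rfl⟩
    exact hperp g γ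
  have h1 : finrank F (LinearMap.range (e.toLinearMap ∘ₗ l0)) = finrank F H0 :=
    LinearMap.finrank_range_of_inj (e.injective.comp hl0)
  have h2 := Submodule.finrank_mono hle
  have h3 := Subspace.finrank_add_finrank_dualAnnihilator_eq (LinearMap.range l2)
  omega

end PerfLin

theorem stmt_GEswap : Stmt_GEswap := by
  intro p _ D lam hL X hX
  have : Module.Finite (ZMod p) (Pl D X 2) := hL.fd X hX 2 le_rfl
  exact PerfLin.swap (pairD D lam X) (hL.inj X hX) (hL.surj X hX) (locH D X 2)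
    (locH D (dg D X) 0)

theorem stmt_p2p0 : Stmt_p2p0 := by
  intro p _ D lam hL X hX
  have : Module.Finite (ZMod p) (Pl D X 2) := hL.fd X hX 2 le_rfl
  exact PerfLin.finrank_eq (pairD D lam X) (hL.inj X hX) (hL.surj X hX)

theorem stmt_yUpper (h0 : Stmt_loc0inj) : Stmt_yUpper := by
  intro p _ D lam hC X hX hGR
  have : Module.Finite (ZMod p) (Pl D X 2) := hC.loc.fd X hX 2 le_rfl
  exact PerfLin.upper (pairD D lam X) (hC.loc.inj X hX) (hC.loc.surj X hX) (locH D X 2)
    (locH D (dg D X) 0) (h0 p D hC.ne (dg D X)) hGR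

end Fermat.Agent.CFT.Pos

end
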