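/-
CFT / POS-D9 : `(perm H)† ≅ perm H` when `χ|H = 1`.
-/
import Fermat.Agent.CFT.Pos.Interface

set_option autoImplicit false

noncomputable section

namespace Fermat.Agent.CFT.Pos

open _root_.Fermat.Agent.CFT.Top _root_.Fermat.Agent.CFT.Top.Cpx Module CategoryTheory

attribute [local instance] fintypeQuot

section

variable {k : Type} [Field k] {G : Type} [Group G] (χ : G →* kˣ) (H : Subgroup G)
  (hχ : ∀ h ∈ H, χ h = 1)

/-- `χ` as a function on `G ⧸ H`. -/
def PermDual_chibar : G ⧸ H → kˣ :=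
  fun c => Quotient.liftOn' c (fun g => χ g) (fun a b hab => by
    have h0 : a⁻¹ * b ∈ H := QuotientGroup.leftRel_apply.mp hab
    have h1 := hχ _ h0
    rw [map_mul, map_inv, inv_mul_eq_one] at h1
    exact h1)

lemma PermDual_chibar_smul (g : G) (c : G ⧸ H) :
    PermDual_chibar χ H hχ (g • c) = χ g * PermDual_chibar χ H hχ c := by
  induction c using QuotientGroup.induction_on with
  | H a => exact map_mul χ g a

variable [H.FiniteIndex]

/-- the pairing `T(φ)(F) = ∑_c χ(c) φ(c) F(c)`. -/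
def PermDual_T : (G ⧸ H → k) →ₗ[k] Module.Dual k (G ⧸ H → k) :=
  LinearMap.mk₂ k (fun φ F => ∑ c : G ⧸ H, (PermDual_chibar χ H hχ c : k) * φ c * F c)
    (fun φ φ' F => by simp [mul_add, add_mul, Finset.sum_add_distrib])
    (fun a φ F => by
      simp only [Pi.smul_apply, smul_eq_mul, Finset.mul_sum]
      exact Finset.sum_congr rfl fun c _ => by ring)
    (fun φ F F' => by simp [mul_add, Finset.sum_add_distrib])
    (fun a φ F => by
      simp only [Pi.smul_apply, smul_eq_mul, Finset.mul_sum]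
      exact Finset.sum_congr rfl fun c _ => by ring)

lemma PermDual_T_apply (φ F : G ⧸ H → k) :
    PermDual_T χ H hχ φ F = ∑ c : G ⧸ H, (PermDual_chibar χ H hχ c : k) * φ c * F c := rfl

lemma PermDual_T_comm (g : G) (φ F : G ⧸ H → k) :
    PermDual_T χ H hχ (fun c => φ (g⁻¹ • c)) F =
      (χ g : k) * PermDual_T χ H hχ φ (fun c => F (g • c)) := by
  rw [PermDual_T_apply, PermDual_T_apply, Finset.mul_sum]
  refine Fintype.sum_equiv (MulAction.toPerm g⁻¹) _ _ fun c => ?_
  show _ = (χ g : k) * ((PermDual_chibar χ H hχ (g⁻¹ • c) : k) * φ (g⁻¹ • c) * F (g • g⁻¹ • c))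
  rw [smul_inv_smul]
  have h1 : (PermDual_chibar χ H hχ c : k) = (χ g : k) * (PermDual_chibar χ H hχ (g⁻¹ • c) : k) := by
    rw [← Units.val_mul, ← PermDual_chibar_smul, smul_inv_smul]
  rw [h1]
  ring

lemma PermDual_T_bijective : Function.Bijective (PermDual_T χ H hχ) := by
  classical
  constructor
  · intro φ φ' h
    funext c
    have h1 := LinearMap.congr_fun h (Pi.single c 1)
    rw [PermDual_T_apply, PermDual_T_apply] at h1
    simp only [Pi.single_apply, mul_ite, mul_one, mul_zero, Finset.sum_ite_eq', Finset.mem_univ,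
      if_true] at h1
    exact mul_left_cancel₀ (Units.ne_zero _) h1
  · intro f
    refine ⟨fun c => ((PermDual_chibar χ H hχ c)⁻¹ : kˣ) * f (fun j => if c = j then 1 else 0), ?_⟩
    apply LinearMap.ext
    intro F
    rw [PermDual_T_apply, LinearMap.pi_apply_eq_sum_univ f F]
    refine Finset.sum_congr rfl fun c _ => ?_
    rw [← mul_assoc, Units.mul_inv, one_mul, smul_eq_mul, mul_comm]

end

theorem stmt_permDual : Stmt_permDual := by
  intro k _ G _ χ H _ hχ
  refine ⟨Rep.ofHom ⟨(PermDual_T χ H hχ : (G ⧸ H → k) →ₗ[k] Module.Dual k (G ⧸ H → k)),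
    fun g => ?_⟩, PermDual_T_bijective χ H hχ⟩
  apply LinearMap.ext
  intro φ
  apply LinearMap.ext
  intro F
  have h := PermDual_T_comm χ H hχ g φ F
  have e : (fun c : G ⧸ H => F (g • c)) = (fun c : G ⧸ H => F (g⁻¹⁻¹ • c)) := by
    rw [inv_inv]
  rw [e] at h
  exact h

end Fermat.Agent.CFT.Pos

end

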