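/-
CFT / POS : B9, B10.  `H⁰(perm H)` and `Hom_G(perm H, M)` are one dimensional.
-/
import Fermat.Agent.CFT.Pos.Interface

set_option autoImplicit false

noncomputable section

namespace Fermat.Agent.CFT.Pos

open _root_.Fermat.Agent.CFT.Top _root_.Fermat.Agent.CFT.Top.Cpx Module CategoryTheory

section

variable {k : Type} [Field k] {G : Type} [Group G]

lemma PermHom_rho_apply (H : Subgroup G) (g : G) (F : G ⧸ H → k) (c : G ⧸ H) :
    (perm H : Rep.{0} k G).ρ g F c = F (g⁻¹ • c) := rfl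

/-- the invariants of `perm H` are one dimensional. -/
lemma PermHom_finrank_invariants (H : Subgroup G) :
    finrank k (perm H : Rep.{0} k G).ρ.invariants = 1 := by
  rw [finrank_eq_one_iff']
  refine ⟨⟨(fun _ => (1 : k) : G ⧸ H → k), fun g => rfl⟩, ?_, ?_⟩
  · intro h
    have h1 := congrArg (fun z : (perm H : Rep.{0} k G).ρ.invariants =>
      (z.1 : G ⧸ H → k) ((1 : G) : G ⧸ H)) h
    exact one_ne_zero h1
  · rintro ⟨w, hw⟩
    refine ⟨(w : G ⧸ H → k) ((1 : G) : G ⧸ H), Subtype.ext (funext fun c => ?_)⟩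
    induction c using QuotientGroup.induction_on with
    | H g =>
      have h1 := congrFun (hw g) (g : G ⧸ H)
      rw [PermHom_rho_apply] at h1
      have h2 : g⁻¹ • (g : G ⧸ H) = ((1 : G) : G ⧸ H) := by
        show ((g⁻¹ * g : G) : G ⧸ H) = _
        rw [inv_mul_cancel]
      rw [h2] at h1
      show (w : G ⧸ H → k) ((1 : G) : G ⧸ H) • (1 : k) = (w : G ⧸ H → k) (g : G ⧸ H)
      rw [smul_eq_mul, mul_one, h1]

end

/-- B9. -/
theorem stmt_h0perm : Stmt_h0perm := by
  intro k _ G _ 𝒰 H _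
  rw [← (H0Equiv 𝒰 (perm H : Rep.{0} k G)).finrank_eq]
  exact PermHom_finrank_invariants H

section

variable {k : Type} [Field k] {G : Type} [Group G] (χ : G →* kˣ) (H : Subgroup G)

/-- the character as a function on `G ⧸ H`. -/
def PermHom_chiBar (c : G ⧸ H) : k := (χ c.out : k)

variable {χ H}

lemma PermHom_chiBar_mk (hχ : ∀ h ∈ H, χ h = 1) (g : G) :
    PermHom_chiBar χ H (g : G ⧸ H) = (χ g : k) := by
  obtain ⟨h, hh⟩ := QuotientGroup.mk_out_eq_mul H g
  unfold PermHom_chiBar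
  rw [hh, map_mul, hχ _ h.2, mul_one]

lemma PermHom_chiBar_smul (hχ : ∀ h ∈ H, χ h = 1) (g : G) (c : G ⧸ H) :
    PermHom_chiBar χ H (g • c) = (χ g : k) * PermHom_chiBar χ H c := by
  induction c using QuotientGroup.induction_on with
  | H g' =>
    have h2 : g • (g' : G ⧸ H) = ((g * g' : G) : G ⧸ H) := rfl
    rw [h2, PermHom_chiBar_mk hχ, PermHom_chiBar_mk hχ, map_mul, Units.val_mul]

/-- the delta function. -/
def PermHom_delta [DecidableEq (G ⧸ H)] (c : G ⧸ H) : G ⧸ H → k := Pi.single c 1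

lemma PermHom_rho_delta [DecidableEq (G ⧸ H)] (g : G) (c : G ⧸ H) :
    (perm H : Rep.{0} k G).ρ g (PermHom_delta c : G ⧸ H → k) = PermHom_delta (g • c) := by
  funext c'
  rw [PermHom_rho_apply]
  unfold PermHom_delta
  by_cases h : c' = g • c
  · subst h
    rw [inv_smul_smul, Pi.single_eq_same, Pi.single_eq_same]
  · rw [Pi.single_eq_of_ne h, Pi.single_eq_of_ne]
    intro h'
    exact h (by rw [← h', smul_inv_smul])

/-- an equivariant map on `perm H` is determined by its value at the delta function at `1`. -/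
lemma PermHom_eq_zero [DecidableEq (G ⧸ H)] [Fintype (G ⧸ H)] (M : Rep.{0} k G)
    (e : (G ⧸ H → k) →ₗ[k] M)
    (he : ∀ (g : G) (F : G ⧸ H → k), e ((perm H : Rep.{0} k G).ρ g F) = M.ρ g (e F))
    (h0 : e (PermHom_delta ((1 : G) : G ⧸ H)) = 0) : e = 0 := by
  apply LinearMap.ext
  intro F
  rw [LinearMap.pi_apply_eq_sum_univ e F]
  rw [LinearMap.zero_apply]
  apply Finset.sum_eq_zero
  intro c _
  induction c using QuotientGroup.induction_on with
  | H g =>
    have h1 : (fun j : G ⧸ H => if (g : G ⧸ H) = j then (1 : k) else 0)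
        = (perm H : Rep.{0} k G).ρ g (PermHom_delta ((1 : G) : G ⧸ H) : G ⧸ H → k) := by
      rw [PermHom_rho_delta]
      have h2 : g • ((1 : G) : G ⧸ H) = (g : G ⧸ H) := by
        show ((g * 1 : G) : G ⧸ H) = _
        rw [mul_one]
      rw [h2]
      funext j
      unfold PermHom_delta
      rw [Pi.single_apply]
      simp only [eq_comm]
    rw [h1, he, h0, map_zero, smul_zero]

end

/-- B10. -/
theorem stmt_eqHomPerm : Stmt_eqHomPerm := by
  classical
  intro k _ G _ χ M hM H _ hχ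
  obtain ⟨hM1, hMρ⟩ := hM
  have : Fintype (G ⧸ H) := Fintype.ofFinite _
  obtain ⟨m₀, hm₀, hgen⟩ := finrank_eq_one_iff'.1 hM1
  -- the basic equivariant map
  let e₀ : (G ⧸ H → k) →ₗ[k] M :=
    ∑ c : G ⧸ H, (LinearMap.proj c : (G ⧸ H → k) →ₗ[k] k).smulRight (PermHom_chiBar χ H c • m₀)
  have e₀_apply : ∀ F : G ⧸ H → k, e₀ F = ∑ c : G ⧸ H, F c • (PermHom_chiBar χ H c • m₀) := by
    intro F
    simp [e₀, LinearMap.sum_apply]
  have e₀_eq : ∀ (g : G) (F : G ⧸ H → k),
      e₀ ((perm H : Rep.{0} k G).ρ g F) = M.ρ g (e₀ F) := by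
    intro g F
    rw [e₀_apply, e₀_apply, hMρ, Finset.smul_sum]
    rw [← Equiv.sum_comp (MulAction.toPerm (g : G))]
    apply Finset.sum_congr rfl
    intro c _
    rw [PermHom_rho_apply]
    show F (g⁻¹ • (g • c)) • (PermHom_chiBar χ H (g • c) • m₀) = _
    rw [inv_smul_smul, PermHom_chiBar_smul hχ, smul_smul, smul_smul, smul_smul]
    congr 1
    ring
  have e₀_delta : e₀ (PermHom_delta ((1 : G) : G ⧸ H)) = m₀ := by
    rw [e₀_apply, Finset.sum_eq_single ((1 : G) : G ⧸ H)]
    · unfold PermHom_delta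
      rw [Pi.single_eq_same, one_smul, PermHom_chiBar_mk hχ, map_one, Units.val_one, one_smul]
    · intro c _ hc
      unfold PermHom_delta
      rw [Pi.single_eq_of_ne hc, zero_smul]
    · intro h
      exact absurd (Finset.mem_univ _) h
  let E₀ : EqHom (perm H : Rep.{0} k G) M := ⟨e₀, e₀_eq⟩
  refine ⟨?_, E₀, ?_⟩
  · rw [finrank_eq_one_iff']
    refine ⟨E₀, ?_, ?_⟩
    · intro h
      apply hm₀
      rw [← e₀_delta]
      have h1 : e₀ = 0 := congrArg Subtype.val h
      rw [h1, LinearMap.zero_apply]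
    · rintro ⟨w, hw⟩
      obtain ⟨a, ha⟩ := hgen ((w : (G ⧸ H → k) →ₗ[k] M) (PermHom_delta ((1 : G) : G ⧸ H)))
      refine ⟨a, Subtype.ext ?_⟩
      show a • e₀ = w
      rw [← sub_eq_zero]
      apply PermHom_eq_zero M
      · intro g F
        have h1 := hw g F
        have h2 := e₀_eq g F
        simp only [LinearMap.sub_apply, LinearMap.smul_apply, map_sub, map_smul]
        rw [h2]
        congr 1
      · rw [LinearMap.sub_apply, LinearMap.smul_apply, e₀_delta, ha, sub_self]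
  · intro m
    obtain ⟨a, ha⟩ := hgen m
    refine ⟨a • (PermHom_delta ((1 : G) : G ⧸ H) : G ⧸ H → k), ?_⟩
    show e₀ _ = m
    rw [map_smul, e₀_delta, ha]

end Fermat.Agent.CFT.Pos

end
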