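/-
CFT / POS-B11 : `stmt_permLe : Stmt_permLe` (helper86).

`f(perm W) ≤ [H:W] f(perm H)` for `W ◁ H` of `p`-power index, `W₀ ≤ W` normal in `G`.
`perm W ≅ twB H (perm W) B`, `B` = functions on `G ⧸ W` supported on `H ⧸ W`; the filtration of
`Pos/Dev.lean` only needs the `p`-power condition on `B`.
-/
import Fermat.Agent.CFT.Pos.Interface

set_option autoImplicit false

noncomputable section

namespace Fermat.Agent.CFT.Pos

open Module CategoryTheory

variable {k : Type} [Field k] {G : Type} [Group G]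

/-- `exists_stepData` with the `p`-power condition on `B` only. -/
theorem PermLe_exists_stepData (p : ℕ) [Fact p.Prime] [CharP k p] [Finite k] (H : Subgroup G)
    (X : Rep.{0} k G) [Module.Finite k X] (B : Submodule k X) (hB : B ≠ ⊥)
    (stable : ∀ h ∈ H, ∀ b ∈ B, X.ρ h b ∈ B)
    (hp : ∀ h ∈ H, ∃ n : ℕ, ∀ x ∈ B, X.ρ (h ^ p ^ n) x = x) : Nonempty (StepData H X B) := by
  classical
  let σ₀ : Representation k H B :=
    Representation.subrepresentation (X.ρ.comp H.subtype) B fun h b hb => stable h.1 h.2 b hb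
  have hσ₀ : ∀ (h : H) (b : B), ((σ₀ h b : B) : X) = X.ρ h.1 b.1 := fun _ _ => rfl
  have : Nontrivial B := Submodule.nontrivial_iff_ne_bot.2 hB
  have : Nontrivial (Dual k B) := by
    apply Module.nontrivial_of_finrank_pos (R := k)
    rw [Subspace.dual_finrank_eq]
    exact Module.finrank_pos
  have : Finite (Dual k B) := Module.finite_of_finite k
  obtain ⟨l, hl0, hl⟩ := exists_fixed_ne_zero p σ₀.dual (by
    intro h
    obtain ⟨n, hn⟩ := hp h.1 h.2
    refine ⟨n, LinearMap.ext fun f => LinearMap.ext fun b => ?_⟩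
    change f (σ₀ (h ^ p ^ n)⁻¹ b) = f b
    congr 1
    refine Subtype.ext ?_
    rw [hσ₀]
    have h1 : X.ρ (((h ^ p ^ n)⁻¹ : H) : G) b.1 = X.ρ (h.1 ^ p ^ n)⁻¹ (X.ρ (h.1 ^ p ^ n) b.1) := by
      rw [hn _ b.2]; rfl
    rw [h1, ← Module.End.mul_apply, ← map_mul, inv_mul_cancel, map_one, Module.End.one_apply])
  obtain ⟨ℓ, hℓ⟩ := LinearMap.exists_extend l
  have hℓ' : ∀ b : B, ℓ b.1 = l b := fun b => LinearMap.congr_fun hℓ b
  obtain ⟨b, hb⟩ : ∃ b : B, l b ≠ 0 := by
    by_contra hcon
    push Not at hcon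
    exact hl0 (LinearMap.ext hcon)
  refine ⟨⟨ℓ, (l b)⁻¹ • b.1, B.smul_mem _ b.2, ?_, stable, ?_⟩⟩
  · rw [map_smul, hℓ', smul_eq_mul, inv_mul_cancel₀ hb]
  · intro h hh b' hb'
    have h1 := LinearMap.congr_fun (hl ⟨h, hh⟩⁻¹) ⟨b', hb'⟩
    change l (σ₀ (⟨h, hh⟩⁻¹)⁻¹ ⟨b', hb'⟩) = l ⟨b', hb'⟩ at h1
    rw [inv_inv] at h1
    rw [← hℓ' ⟨b', hb'⟩, ← hℓ'] at h1
    exact h1

/-- `SubAdd.twB_le` with the `p`-power condition on `B` only. -/
theorem PermLe_twB_le (p : ℕ) [Fact p.Prime] [CharP k p] [Finite k] {W H : Subgroup G} [W.Normal]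
    [H.FiniteIndex] {f : Rep.{0} k G → ℤ} (hf : SubAdd W f) (hWH : W ≤ H)
    {X : Rep.{0} k G} (hX : GoodW W X) (B : Submodule k X)
    (stable : ∀ h ∈ H, ∀ b ∈ B, X.ρ h b ∈ B)
    (hp : ∀ h ∈ H, ∃ n : ℕ, ∀ x ∈ B, X.ρ (h ^ p ^ n) x = x) :
    f (twB H X B) ≤ finrank k B * f (perm H) := by
  have := hX.1
  induction hn : finrank k B generalizing B with
  | zero =>
    have hB : B = ⊥ := Submodule.finrank_eq_zero.1 hn
    subst hB
    have key : ∀ F : twSub H X ⊥, ∀ c, F.1 c = 0 := by
      intro F c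
      induction c using QuotientGroup.induction_on with
      | H g =>
        have h1 := F.2 g
        rw [Submodule.mem_bot] at h1
        have h2 : X.ρ g (X.ρ g⁻¹ (F.1 (g : G ⧸ H))) = F.1 (g : G ⧸ H) := by
          rw [← Module.End.mul_apply, ← map_mul, mul_inv_cancel, map_one, Module.End.one_apply]
        rw [← h2, h1, map_zero]
    have hs : Subsingleton (twB H X ⊥) :=
      ⟨fun F F' => Subtype.ext (funext fun c => (key F c).trans (key F' c).symm)⟩
    rw [hf.zero]
    simp
  | succ n ih =>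
    have hB : B ≠ ⊥ := by
      rintro rfl
      simp at hn
    obtain ⟨D⟩ := PermLe_exists_stepData p H X B hB stable hp
    have h1 := D.finrank_B'
    have h2 := ih D.B' D.B'_stable
      (fun h hh => (hp h hh).imp fun _ hm x hx => hm x hx.1) (by omega)
    have h3 := hf.sub _ _ (goodW_twB hWH hX _) (goodW_twB hWH hX _) (goodW_perm hWH) D.isSES
    push_cast
    linarith

/-- functions on `G ⧸ W` supported on the image of `H`. -/
def PermLe_B (W H : Subgroup G) : Submodule k (perm W : Rep.{0} k G) where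
  carrier := {φ | ∀ g : G, g ∉ H → φ (g : G ⧸ W) = 0}
  add_mem' := by
    intro φ ψ hφ hψ g hg
    change φ (g : G ⧸ W) + ψ (g : G ⧸ W) = 0
    rw [hφ g hg, hψ g hg, add_zero]
  zero_mem' := fun _ _ => rfl
  smul_mem' := by
    intro a φ hφ g hg
    change a • φ (g : G ⧸ W) = 0
    rw [hφ g hg, smul_zero]

lemma PermLe_mem_B {W H : Subgroup G} {φ : G ⧸ W → k} :
    φ ∈ (PermLe_B W H : Submodule k (perm W : Rep.{0} k G)) ↔
      ∀ g : G, g ∉ H → φ (g : G ⧸ W) = 0 := Iff.rfl

lemma PermLe_perm_ρ (W : Subgroup G) (g : G) (φ : G ⧸ W → k) (d : G ⧸ W) :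
    (perm W : Rep.{0} k G).ρ g φ d = φ (g⁻¹ • d) := rfl

lemma PermLe_B_stable (W H : Subgroup G) : ∀ h ∈ H, ∀ b ∈ (PermLe_B W H : Submodule k _),
    (perm W : Rep.{0} k G).ρ h b ∈ (PermLe_B W H : Submodule k _) := by
  intro h hh b hb g hg
  rw [PermLe_perm_ρ]
  exact hb (h⁻¹ * g) fun hc => hg (by simpa using H.mul_mem hh hc)

lemma PermLe_B_triv {W H : Subgroup G} (hWH : W ≤ H) (hN : (W.subgroupOf H).Normal) :
    ∀ w ∈ W, ∀ b ∈ (PermLe_B W H : Submodule k _), (perm W : Rep.{0} k G).ρ w b = b := by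
  intro w hw b hb
  funext d
  induction d using QuotientGroup.induction_on with
  | H g =>
    rw [PermLe_perm_ρ]
    by_cases hg : g ∈ H
    · congr 1
      change ((w⁻¹ * g : G) : G ⧸ W) = (g : G ⧸ W)
      rw [QuotientGroup.eq]
      have h1 := hN.conj_mem ⟨w, hWH hw⟩ (Subgroup.mem_subgroupOf.2 hw) ⟨g, hg⟩⁻¹
      have h2 : g⁻¹ * w * g ∈ W := by simpa [Subgroup.mem_subgroupOf] using h1
      simpa [mul_assoc] using h2
    · rw [hb g hg]
      exact hb (w⁻¹ * g) fun hc => hg (by simpa using H.mul_mem (hWH hw) hc)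

lemma PermLe_pow_mem {p m : ℕ} {W H : Subgroup G} (hN : (W.subgroupOf H).Normal)
    (hm : W.relIndex H = p ^ m) : ∀ h ∈ H, h ^ p ^ m ∈ W := by
  intro h hh
  have h1 : ((⟨h, hh⟩ : H) : H ⧸ W.subgroupOf H) ^ Nat.card (H ⧸ W.subgroupOf H) = 1 :=
    pow_card_eq_one'
  rw [← Subgroup.index_eq_card, ← Subgroup.relIndex, hm, ← QuotientGroup.mk_pow,
    QuotientGroup.eq_one_iff, Subgroup.mem_subgroupOf] at h1
  simpa using h1

lemma PermLe_card (W H : Subgroup G) :
    Nat.card {d : G ⧸ W // ∃ h ∈ H, (h : G ⧸ W) = d} = W.relIndex H := by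
  rw [Subgroup.relIndex, Subgroup.index_eq_card]
  symm
  refine Nat.card_eq_of_bijective
    (Quotient.lift (fun h : H => (⟨(h.1 : G ⧸ W), h.1, h.2, rfl⟩ :
      {d : G ⧸ W // ∃ h ∈ H, (h : G ⧸ W) = d})) ?_) ⟨?_, ?_⟩
  · intro a b hab
    refine Subtype.ext ?_
    change ((a.1 : G) : G ⧸ W) = ((b.1 : G) : G ⧸ W)
    rw [QuotientGroup.eq]
    exact Subgroup.mem_subgroupOf.1 (QuotientGroup.leftRel_apply.1 hab)
  · intro a b
    induction a using QuotientGroup.induction_on with
    | H a =>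
      induction b using QuotientGroup.induction_on with
      | H b =>
        intro hab
        have h1 : ((a.1 : G) : G ⧸ W) = ((b.1 : G) : G ⧸ W) := congrArg Subtype.val hab
        rw [QuotientGroup.eq] at h1 ⊢
        exact Subgroup.mem_subgroupOf.2 h1
  · rintro ⟨_, h, hh, rfl⟩
    exact ⟨((⟨h, hh⟩ : H) : H ⧸ W.subgroupOf H), rfl⟩

lemma PermLe_finrank_B {W H : Subgroup G} [W.FiniteIndex] (hWH : W ≤ H) :
    finrank k (PermLe_B W H : Submodule k (perm W : Rep.{0} k G)) = W.relIndex H := by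
  classical
  let S := {d : G ⧸ W // ∃ h ∈ H, (h : G ⧸ W) = d}
  have : Fintype S := Fintype.ofFinite _
  let e : (PermLe_B W H : Submodule k (perm W : Rep.{0} k G)) ≃ₗ[k] (S → k) :=
    { toFun := fun b s => b.1 s.1
      map_add' := fun _ _ => rfl
      map_smul' := fun _ _ => rfl
      invFun := fun ψ => ⟨fun d => if h : ∃ h ∈ H, (h : G ⧸ W) = d then ψ ⟨d, h⟩ else 0, by
        intro g hg
        refine dif_neg ?_
        rintro ⟨h, hh, hd⟩
        rw [QuotientGroup.eq] at hd
        exact hg (by simpa using H.mul_mem hh (hWH hd))⟩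
      left_inv := fun b => Subtype.ext (funext fun d => by
        by_cases h : ∃ h ∈ H, (h : G ⧸ W) = d
        · exact dif_pos h
        · refine (dif_neg h).trans ?_
          induction d using QuotientGroup.induction_on with
          | H g => exact (b.2 g fun hg => h ⟨g, hg, rfl⟩).symm)
      right_inv := fun ψ => funext fun s => dif_pos s.2 }
  rw [e.finrank_eq, Module.finrank_fintype_fun_eq_card, ← Nat.card_eq_fintype_card, PermLe_card]

/-- the underlying function of the isomorphism `perm W ≅ twB H (perm W) B`. -/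
def PermLe_fun {W H : Subgroup G} (hWH : W ≤ H) (φ : G ⧸ W → k) : G ⧸ H → (G ⧸ W → k) := by
  classical
  exact fun c d => if Subgroup.quotientMapOfLE hWH d = c then φ d else 0

lemma PermLe_fun_mk {W H : Subgroup G} (hWH : W ≤ H) (φ : G ⧸ W → k) (g x : G) :
    PermLe_fun hWH φ (g : G ⧸ H) (x : G ⧸ W) = by
      classical exact if g⁻¹ * x ∈ H then φ (x : G ⧸ W) else 0 := by
  classical
  unfold PermLe_fun
  rw [Subgroup.quotientMapOfLE_apply_mk]
  by_cases h : g⁻¹ * x ∈ H
  · rw [if_pos h, if_pos (QuotientGroup.eq.2 h).symm]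
  · rw [if_neg h, if_neg fun hc => h (QuotientGroup.eq.1 hc.symm)]

lemma PermLe_fun_mem {W H : Subgroup G} (hWH : W ≤ H) (φ : G ⧸ W → k) :
    PermLe_fun hWH φ ∈ twSub H (perm W : Rep.{0} k G) (PermLe_B W H) := by
  classical
  intro g x hx
  rw [PermLe_perm_ρ, inv_inv]
  change PermLe_fun hWH φ (g : G ⧸ H) ((g * x : G) : G ⧸ W) = 0
  rw [PermLe_fun_mk, if_neg (by simpa using hx)]

/-- the isomorphism `perm W ≅ twB H (perm W) B`. -/
def PermLe_iso {W H : Subgroup G} (hWH : W ≤ H) :
    (perm W : Rep.{0} k G) ⟶ twB H (perm W) (PermLe_B W H) :=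
  Rep.ofHom ⟨{ toFun := fun φ => ⟨PermLe_fun hWH φ, PermLe_fun_mem hWH φ⟩
               map_add' := fun φ ψ => Subtype.ext (funext fun c => funext fun d => by
                 classical
                 change PermLe_fun hWH (φ + ψ) c d = PermLe_fun hWH φ c d + PermLe_fun hWH ψ c d
                 unfold PermLe_fun
                 split_ifs
                 · rfl
                 · rw [add_zero])
               map_smul' := fun a φ => Subtype.ext (funext fun c => funext fun d => by
                 classical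
                 change PermLe_fun hWH (a • φ) c d = a • PermLe_fun hWH φ c d
                 unfold PermLe_fun
                 split_ifs
                 · rfl
                 · rw [smul_zero]) }, fun g => LinearMap.ext fun φ => Subtype.ext (funext fun c =>
                   funext fun d => by
                 classical
                 induction c using QuotientGroup.induction_on with
                 | H c =>
                 induction d using QuotientGroup.induction_on with
                 | H d =>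
                 change PermLe_fun hWH ((perm W : Rep.{0} k G).ρ g φ) (c : G ⧸ H) (d : G ⧸ W)
                   = PermLe_fun hWH φ ((g⁻¹ * c : G) : G ⧸ H) ((g⁻¹ * d : G) : G ⧸ W)
                 rw [PermLe_fun_mk, PermLe_fun_mk]
                 have h1 : (g⁻¹ * c)⁻¹ * (g⁻¹ * d) = c⁻¹ * d := by group
                 rw [h1]
                 rfl)⟩

lemma PermLe_iso_coe {W H : Subgroup G} (hWH : W ≤ H) (φ : G ⧸ W → k) :
    (((PermLe_iso hWH).hom φ : twSub H (perm W : Rep.{0} k G) (PermLe_B W H)) :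
      G ⧸ H → (G ⧸ W → k)) = PermLe_fun hWH φ := rfl

lemma PermLe_iso_bijective {W H : Subgroup G} (hWH : W ≤ H) :
    Function.Bijective (PermLe_iso (k := k) hWH).hom := by
  classical
  constructor
  · intro φ ψ h
    funext d
    induction d using QuotientGroup.induction_on with
    | H x =>
      have h1 : PermLe_fun hWH φ (x : G ⧸ H) (x : G ⧸ W) = PermLe_fun hWH ψ (x : G ⧸ H) (x : G ⧸ W) :=
        congrFun (congrFun (congrArg Subtype.val h) (x : G ⧸ H)) (x : G ⧸ W)
      rw [PermLe_fun_mk, PermLe_fun_mk, if_pos (by simp), if_pos (by simp)] at h1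
      exact h1
  · intro F
    refine ⟨fun d => F.1 (Subgroup.quotientMapOfLE hWH d) d, Subtype.ext (funext fun c =>
      funext fun d => ?_)⟩
    rw [PermLe_iso_coe]
    induction c using QuotientGroup.induction_on with
    | H g =>
      induction d using QuotientGroup.induction_on with
      | H x =>
        rw [PermLe_fun_mk]
        by_cases h : g⁻¹ * x ∈ H
        · rw [if_pos h, Subgroup.quotientMapOfLE_apply_mk, (QuotientGroup.eq.2 h : (g : G ⧸ H) = x)]
        · rw [if_neg h]
          have h1 := F.2 g (g⁻¹ * x) h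
          rw [PermLe_perm_ρ, inv_inv] at h1
          have h2 : g • (((g⁻¹ * x : G) : G ⧸ W)) = (x : G ⧸ W) := by
            change ((g * (g⁻¹ * x) : G) : G ⧸ W) = (x : G ⧸ W)
            rw [mul_inv_cancel_left]
          rw [h2] at h1
          exact h1.symm

/-- **B11.** -/
theorem stmt_permLe : Stmt_permLe := by
  intro p _ G _ W₀ W H _ _ f hf h0W hWH hN ⟨m, hm⟩
  have : W.FiniteIndex := Subgroup.finiteIndex_of_le h0W
  have : H.FiniteIndex := Subgroup.finiteIndex_of_le hWH
  have hX : GoodW W₀ (perm W : Rep.{0} (ZMod p) G) := goodW_perm h0W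
  have h1 := PermLe_twB_le p hf (h0W.trans hWH) hX (PermLe_B W H) (PermLe_B_stable W H)
    (fun h hh => ⟨m, PermLe_B_triv hWH hN _ (PermLe_pow_mem hN hm h hh)⟩)
  rw [PermLe_finrank_B hWH] at h1
  rwa [← hf.iso (PermLe_iso hWH) (PermLe_iso_bijective hWH) hX
    (goodW_twB (h0W.trans hWH) hX _)] at h1

end Fermat.Agent.CFT.Pos

end
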