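/-
CFT / POS : work package F14 (Claim 3: the decomposition of `φ`).
-/
import Fermat.Agent.CFT.Pos.DBlock

set_option autoImplicit false

noncomputable section

namespace Fermat.Agent.CFT.Pos

open _root_.Fermat.Agent.CFT.Top _root_.Fermat.Agent.CFT.Top.Cpx Module CategoryTheory

/-- the Tate dual of a good module is good. -/
lemma Good.dg {p : ℕ} [Fact p.Prime] (D : Datum p) {X : Rep.{0} (ZMod p) D.G}
    (h : Good D.𝒰 X) : Good D.𝒰 (dg D X) :=
  have := h.1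
  ⟨inferInstanceAs (Module.Finite (ZMod p) (Module.Dual (ZMod p) X)), Inst.isTrivOn_dual D h.2⟩

/-- the pure bookkeeping of Claim 3. -/
lemma phiDecomp_numerics
    (s1 s2 s1' s2' g g' p0 p1 p2 a0 a0' h1 h1' h2 h2' y y' : ℕ)
    (hh1 : g + s1 = h1) (hh1' : g' + s1' = h1')
    (hh2 : y + s2 = h2) (hh2' : y' + s2' = h2')
    (hy : y + a0' = p2) (hy' : y' + a0 = p0)
    (hu : g + g' ≤ p1) (hc1 : s1' ≤ s2) (hc1' : s1 ≤ s2') :
    ∃ u a b : ℕ,
      ((a0 : ℤ) - h1 + h2) + ((a0' : ℤ) - h1' + h2') - ((p0 : ℤ) - p1 + p2) = u + a + b ∧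
        s2 = s1' + a := by
  refine ⟨p1 - (g + g'), s2 - s1', s2' - s1, ?_, ?_⟩ <;> omega

/-- F14. -/
theorem stmt_phiDecomp (hc1 : Stmt_claim1) (hc2 : Stmt_claim2) (hsw : Stmt_GEswap)
    (hp : Stmt_p2p0) (hiso : Stmt_isoInv) : Stmt_phiDecomp := by
  intro p _ D lam ctx gr ge X hX
  have hX' : Good D.𝒰 (dg D X) := hX.dg D
  have hX'' : Good D.𝒰 (dg D (dg D X)) := hX'.dg D
  have hne := ctx.ne
  have := hX.1
  -- finiteness
  have f1 : Module.Finite (ZMod p) (Hlc D.𝒰 X 1) := ctx.gfd X hX 1 (by norm_num)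
  have f2 : Module.Finite (ZMod p) (Hlc D.𝒰 X 2) := ctx.gfd X hX 2 le_rfl
  have f1' : Module.Finite (ZMod p) (Hlc D.𝒰 (dg D X) 1) := ctx.gfd _ hX' 1 (by norm_num)
  have f2' : Module.Finite (ZMod p) (Hlc D.𝒰 (dg D X) 2) := ctx.gfd _ hX' 2 le_rfl
  have fp2 : Module.Finite (ZMod p) (Pl D X 2) := ctx.loc.fd X hX 2 le_rfl
  have fp2' : Module.Finite (ZMod p) (Pl D (dg D X) 2) := ctx.loc.fd _ hX' 2 le_rfl
  -- rank-nullity
  have r1 := LinearMap.finrank_range_add_finrank_ker (locH D X 1)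
  have r2 := LinearMap.finrank_range_add_finrank_ker (locH D X 2)
  have r1' := LinearMap.finrank_range_add_finrank_ker (locH D (dg D X) 1)
  have r2' := LinearMap.finrank_range_add_finrank_ker (locH D (dg D X) 2)
  -- duality counts
  have hy := finrank_range_add_of_perp (locH D X 2) (locH D (dg D X) 0) (pairD D lam X)
    (stmt_loc0inj p D hne _) (ctx.loc.inj X hX) (ctx.loc.surj X hX) (gr X)
    ((hsw p D lam ctx.loc X hX).1 (ge X hX))
  have hy' := finrank_range_add_of_perp (locH D (dg D X) 2) (locH D (dg D (dg D X)) 0)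
    (pairD D lam (dg D X))
    (stmt_loc0inj p D hne _) (ctx.loc.inj _ hX') (ctx.loc.surj _ hX') (gr _)
    ((hsw p D lam ctx.loc _ hX').1 (ge _ hX'))
  -- biduality
  have hbij : Function.Bijective (ddag D.χ X).hom := ddag_bijective D.χ X
  have i0 := hiso p D X _ (ddag D.χ X) hbij 0
  have i1 := hiso p D X _ (ddag D.χ X) hbij 1
  have e0 : finrank (ZMod p) (Hlc D.𝒰 X 0) = finrank (ZMod p) (Hlc D.𝒰 (dg D (dg D X)) 0) :=
    (LinearEquiv.ofBijective _ i0.1).finrank_eq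
  have e0p : finrank (ZMod p) (Pl D X 0) = finrank (ZMod p) (Pl D (dg D (dg D X)) 0) :=
    (LinearEquiv.ofBijective _ i0.2.1).finrank_eq
  obtain ⟨es⟩ := i1.2.2.1
  have e1 : finrank (ZMod p) (D.Sha X 1) = finrank (ZMod p) (D.Sha (dg D (dg D X)) 1) :=
    es.finrank_eq
  have hp' := hp p D lam ctx.loc _ hX'
  have c1 := hc1 p D lam ctx gr ge X hX
  have c1' := hc1 p D lam ctx gr ge _ hX'
  have c2 := hc2 p D lam ctx gr X hX
  rw [← e0, hp', ← e0p] at hy'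
  rw [← e1] at c1'
  exact phiDecomp_numerics _ _ _ _ _ _ _ _ _ _ _ _ _ _ _ _ _ r1 r1' r2 r2' hy hy' c2 c1 c1'

end Fermat.Agent.CFT.Pos

end
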