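/-
CFT / POS-B7 : right exactness of `H²` from numerics (Lemma S).
-/
import Fermat.Agent.CFT.Pos.Interface

set_option autoImplicit false

noncomputable section

namespace Fermat.Agent.CFT.Pos

open _root_.Fermat.Agent.CFT.Top _root_.Fermat.Agent.CFT.Top.Cpx Module CategoryTheory

theorem stmt_rightExact (hE : Stmt_euler) (hS : Stmt_ses) (hF : Stmt_HMfun)
    (hC : Stmt_subAddChi) : Stmt_rightExact := by
  intro p _ G _ 𝒰 W H _ _ _ hW hWH hp hH hFD hnum X₂ X₃ q h2 h3 hq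
  have hf : SubAdd W (chi (k := ZMod p) 𝒰) := hC (ZMod p) G 𝒰 W hW hFD
  have h1 : GoodW W (kerRep q) := goodW_ker q h2
  have hs := isSES_ker q hq
  have hst := hs.tw H
  have g1 : GoodW W (tw H (kerRep q)) := goodW_tw hWH h1
  have g2 : GoodW W (tw H X₂) := goodW_tw hWH h2
  have g3 : GoodW W (tw H X₃) := goodW_tw hWH h3
  have e1 := hf.tw_eq p hWH hp hnum h1
  have e2 := hf.tw_eq p hWH hp hnum h2
  have e3 := hf.tw_eq p hWH hp hnum h3
  have := h2.1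
  have hdim := finrank_ker_add q hq
  have hdisc : IsDisc 𝒰 (tw H X₂) := fun m => ⟨W, hW, fun u hu => g2.2 u hu m⟩
  have hses := hS (ZMod p) G 𝒰 _ _ _ _ _ hst hdisc
  have heul := hE (ZMod p) _ _ _ _ _ hses (hFD _ g1) (hFD _ g2) (hFD _ g3)
  have hzero : (finrank (ZMod p) (Hlc 𝒰 (tw H X₃) 2) : ℤ)
      = finrank (ZMod p) (LinearMap.range (HM 𝒰 (twMap H q) 2)) := by
    have hd : (finrank (ZMod p) (kerRep q) : ℤ) + finrank (ZMod p) X₃ = finrank (ZMod p) X₂ := by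
      exact_mod_cast hdim
    have h0 : chi 𝒰 (tw H (kerRep q)) + chi 𝒰 (tw H X₃) - chi 𝒰 (tw H X₂) = 0 := by
      rw [e1, e2, e3, ← hd]; ring
    have h4 : chi 𝒰 (tw H (kerRep q)) + chi 𝒰 (tw H X₃) - chi 𝒰 (tw H X₂)
        = (finrank (ZMod p) (Hlc 𝒰 (tw H X₃) 2) : ℤ)
          - finrank (ZMod p) (LinearMap.range (HM 𝒰 (twMap H q) 2)) := heul
    linarith
  have hfin : Module.Finite (ZMod p) (Hlc 𝒰 (tw H X₃) 2) := hFD _ g3 2 le_rfl
  have htop : LinearMap.range (HM 𝒰 (twMap H q) 2) = ⊤ :=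
    Submodule.eq_top_of_finrank_eq (by exact_mod_cast hzero.symm)
  intro z
  obtain ⟨y, hy⟩ := LinearMap.range_eq_top.1 htop (HM 𝒰 (twConst H X₃) 2 z)
  refine ⟨HM 𝒰 (twAvg H X₂) 2 y, ?_⟩
  obtain ⟨hid, hcomp, -, -⟩ := hF (ZMod p) G 𝒰 2
  rw [← hcomp _ _ _ (twAvg H X₂) q (twMap H q ≫ twAvg H X₃) (fun F => twAvg_twMap H q F) y,
    hcomp _ _ _ (twMap H q) (twAvg H X₃) (twMap H q ≫ twAvg H X₃) (fun F => rfl) y, hy,
    ← hcomp _ _ _ (twConst H X₃) (twAvg H X₃) (𝟙 X₃)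
      (fun x => (twAvg_twConst H hH X₃ x).symm) z]
  exact hid _ (𝟙 X₃) (fun x => rfl) z

end Fermat.Agent.CFT.Pos

end
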