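/-
CFT / POS : B8, closure under split extensions.
-/
import Fermat.Agent.CFT.Pos.Interface

set_option autoImplicit false

noncomputable section

namespace Fermat.Agent.CFT.Pos

open _root_.Fermat.Agent.CFT.Top _root_.Fermat.Agent.CFT.Top.Cpx Module CategoryTheory

/-- a section of a short exact sequence gives a retraction. -/
theorem splitClosure_exists_retraction {k : Type} [Field k] {G : Type} [Group G]
    {X₁ X₂ X₃ : Rep.{0} k G} (i : X₁ ⟶ X₂) (q : X₂ ⟶ X₃) (h : IsSES i q) (s : X₃ ⟶ X₂)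
    (hs : ∀ x, q.hom (s.hom x) = x) :
    ∃ r : X₂ ⟶ X₁, (∀ x, r.hom (i.hom x) = x) ∧ ∀ x, i.hom (r.hom x) + s.hom (q.hom x) = x := by
  have h1 : ∀ x : X₂, ∃ a : X₁, i.hom a = x - s.hom (q.hom x) := by
    intro x
    apply (h.exact _).1
    rw [map_sub, hs, sub_self]
  choose r0 hr0 using h1
  let rl : X₂ →ₗ[k] X₁ :=
    { toFun := r0
      map_add' := by
        intro x y
        apply h.inj
        rw [map_add, hr0, hr0, hr0, map_add, map_add]
        abel
      map_smul' := by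
        intro a x
        apply h.inj
        simp only [RingHom.id_apply]
        rw [map_smul, hr0, hr0, map_smul, map_smul, smul_sub] }
  have hrl : ∀ g : G, rl ∘ₗ X₂.ρ g = X₁.ρ g ∘ₗ rl := by
    intro g
    refine LinearMap.ext fun x => ?_
    apply h.inj
    show i.hom (r0 (X₂.ρ g x)) = i.hom (X₁.ρ g (r0 x))
    rw [hr0, Rep.hom_comm_apply q, Rep.hom_comm_apply s, Rep.hom_comm_apply i, hr0, map_sub]
  refine ⟨Rep.ofHom ⟨rl, hrl⟩, fun x => ?_, fun x => ?_⟩
  · apply h.inj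
    show i.hom (r0 (i.hom x)) = i.hom x
    rw [hr0, (h.exact (i.hom x)).2 ⟨x, rfl⟩, map_zero, sub_zero]
  · show i.hom (r0 x) + s.hom (q.hom x) = x
    rw [hr0, sub_add_cancel]

/-- B8. -/
theorem stmt_splitClosure : Stmt_splitClosure := by
  intro p _ G _ W _ _ P h0 hsplit hperm X hX
  have h1 : P (twB W X ⊤) :=
    twB_induction p (le_refl W) (fun h hh => ⟨0, by simpa using hh⟩) hX (fun Y _ => P Y) h0
      (fun Y' Y i q _ hY' hY hs hsec ih => by
        obtain ⟨s, hsq⟩ := hsec hX.2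
        obtain ⟨r, hr1, hr2⟩ := splitClosure_exists_retraction i q hs s hsq
        exact hsplit Y' Y (perm W) i q s r hY' hY (goodW_perm le_rfl) hr1 hsq hr2 ih hperm) ⊤
      (fun _ _ _ _ => Submodule.mem_top)
  have hses : IsSES (twVal W X ⊤) (0 : tw W X ⟶ zeroRep) :=
    ⟨(twVal_top_bijective W X).1, fun x => ⟨0, Subsingleton.elim _ _⟩,
      fun x => ⟨fun _ => (twVal_top_bijective W X).2 x, fun _ => Subsingleton.elim _ _⟩⟩
  obtain ⟨r, hr1, hr2⟩ := splitClosure_exists_retraction (twVal W X ⊤) (0 : tw W X ⟶ zeroRep) hses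
    (0 : zeroRep ⟶ tw W X) (fun _ => Subsingleton.elim _ _)
  exact hsplit _ _ _ (twVal W X ⊤) (0 : tw W X ⟶ zeroRep) 0 r (goodW_twB le_rfl hX _)
    (goodW_tw le_rfl hX) (goodW_of_subsingleton W _) hr1 (fun _ => Subsingleton.elim _ _) hr2 h1
    (h0 _ inferInstance)

end Fermat.Agent.CFT.Pos

end
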