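/-
CFT / POS, B6: the truncated Euler characteristic `χ` is subadditive.
-/
import Fermat.Agent.CFT.Pos.Interface

set_option autoImplicit false

noncomputable section

namespace Fermat.Agent.CFT.Pos

open _root_.Fermat.Agent.CFT.Top _root_.Fermat.Agent.CFT.Top.Cpx Module CategoryTheory

/-- B6. `χ` is subadditive. -/
theorem stmt_subAddChi (hE : Stmt_euler) (hS : Stmt_ses) (hF : Stmt_HMfun) : Stmt_subAddChi := by
  intro k _ G _ 𝒰 W hW hFD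
  have key : ∀ {X₁ X₂ X₃ : Rep.{0} k G} (i : X₁ ⟶ X₂) (q : X₂ ⟶ X₃), GoodW W X₁ → GoodW W X₂ →
      GoodW W X₃ → IsSES i q →
      chi 𝒰 X₁ + chi 𝒰 X₃ - chi 𝒰 X₂
        = (finrank k (Hlc 𝒰 X₃ 2) : ℤ) - finrank k (LinearMap.range (HM 𝒰 q 2)) := by
    intro X₁ X₂ X₃ i q h₁ h₂ h₃ hs
    have hdisc : IsDisc 𝒰 X₂ := fun m => ⟨W, hW, fun u hu => h₂.2 u hu m⟩
    exact hE k _ _ _ _ _ (hS k G 𝒰 X₁ X₂ X₃ i q hs hdisc) (hFD X₁ h₁) (hFD X₂ h₂) (hFD X₃ h₃)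
  refine ⟨?_, ?_⟩
  · intro X₁ X₂ X₃ i q h₁ h₂ h₃ hs
    have h := key i q h₁ h₂ h₃ hs
    have : Module.Finite k (Hlc 𝒰 X₃ 2) := hFD X₃ h₃ 2 le_rfl
    have hle : finrank k (LinearMap.range (HM 𝒰 q 2)) ≤ finrank k (Hlc 𝒰 X₃ 2) :=
      Submodule.finrank_le _
    have hle' : (finrank k (LinearMap.range (HM 𝒰 q 2)) : ℤ) ≤ finrank k (Hlc 𝒰 X₃ 2) := by
      exact_mod_cast hle
    linarith
  · intro X₁ X₂ X₃ i q h₁ h₂ h₃ hs hsplit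
    obtain ⟨s, hsq⟩ := hsplit
    have h := key i q h₁ h₂ h₃ hs
    obtain ⟨hid, hcomp, -, -⟩ := hF k G 𝒰 2
    have hsurj : Function.Surjective (HM 𝒰 q 2) := fun z =>
      ⟨HM 𝒰 s 2 z, by
        rw [← hcomp X₃ X₂ X₃ s q (𝟙 X₃) (fun x => (hsq x).symm) z]
        exact hid X₃ (𝟙 X₃) (fun _ => rfl) z⟩
    rw [LinearMap.range_eq_top.2 hsurj, finrank_top] at h
    linarith

end Fermat.Agent.CFT.Pos

end
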