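/-
CFT / POS, package F2 : `φ` is subadditive.
-/
import Fermat.Agent.CFT.Pos.Interface

set_option autoImplicit false

noncomputable section

namespace Fermat.Agent.CFT.Pos

open _root_.Fermat.Agent.CFT.Top _root_.Fermat.Agent.CFT.Top.Cpx Module CategoryTheory

/-- a section of `q` gives a retraction of `i`. -/
lemma subAddPhi_retraction {k : Type} [Field k] {G : Type} [Group G] {X₁ X₂ X₃ : Rep.{0} k G}
    (i : X₁ ⟶ X₂) (q : X₂ ⟶ X₃) (hs : IsSES i q) (s : X₃ ⟶ X₂)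
    (hsq : ∀ x, q.hom (s.hom x) = x) : ∃ r : X₂ ⟶ X₁, ∀ x, r.hom (i.hom x) = x := by
  have hex : ∀ x : X₂, ∃ a : X₁, i.hom a = x - s.hom (q.hom x) := fun x =>
    (hs.exact _).1 (by rw [map_sub, hsq, sub_self])
  choose r hr using hex
  let rl : X₂ →ₗ[k] X₁ :=
    { toFun := r
      map_add' := fun x y => hs.inj (by
        rw [map_add, hr, hr, hr, map_add, map_add]; abel)
      map_smul' := fun a x => hs.inj (by
        rw [map_smul, hr, hr, map_smul, map_smul, RingHom.id_apply, smul_sub]) }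
  refine ⟨Rep.ofHom ⟨rl, fun g => LinearMap.ext fun x => hs.inj ?_⟩, fun x => hs.inj ?_⟩
  · show i.hom (r (X₂.ρ g x)) = i.hom (X₁.ρ g (r x))
    rw [hr, Rep.hom_comm_apply i, hr, Rep.hom_comm_apply q, Rep.hom_comm_apply s, map_sub]
  · show i.hom (r (i.hom x)) = i.hom x
    rw [hr, (hs.exact (i.hom x)).2 ⟨x, rfl⟩, map_zero, sub_zero]

/-- `χ_loc` is additive. -/
lemma subAddPhi_chiLoc (heul : Stmt_euler) (hP : Stmt_Pses) {p : ℕ} [Fact p.Prime] (D : Datum p)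
    (lam : Lam D) (hloc : LocOK D lam) {W : Subgroup D.G} (hW : W ∈ D.𝒰.S)
    {X₁ X₂ X₃ : Rep.{0} (ZMod p) D.G} (i : X₁ ⟶ X₂) (q : X₂ ⟶ X₃) (h1 : GoodW W X₁)
    (h2 : GoodW W X₂) (h3 : GoodW W X₃) (hs : IsSES i q) :
    chiLoc D X₂ = chiLoc D X₁ + chiLoc D X₃ := by
  have g1 : Good D.𝒰 X₁ := ⟨h1.1, W, hW, h1.2⟩
  have g2 : Good D.𝒰 X₂ := ⟨h2.1, W, hW, h2.2⟩
  have g3 : Good D.𝒰 X₃ := ⟨h3.1, W, hW, h3.2⟩
  have h5 := heul (ZMod p) _ _ _ _ _ (hP p D X₁ X₂ X₃ i q hs g2.2) (hloc.fd X₁ g1) (hloc.fd X₂ g2)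
    (hloc.fd X₃ g3)
  have h6 : LinearMap.range ((Pmap D q).mapH 2) = ⊤ :=
    LinearMap.range_eq_top.2 (hloc.rex X₂ X₃ q g2 g3 hs.surj)
  rw [h6, finrank_top, sub_self] at h5
  have h7 : chiLoc D X₁ + chiLoc D X₃ - chiLoc D X₂ = 0 := h5
  omega

theorem stmt_subAddPhi (heul : Stmt_euler) (hchi : Stmt_subAddChi) (hP : Stmt_Pses)
    (hdual : Stmt_dual) : Stmt_subAddPhi := by
  intro p _ D lam hctx W hW
  have hsub : SubAdd W (chi (k := ZMod p) D.𝒰) :=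
    hchi (ZMod p) D.G D.𝒰 W hW.1 (fun X hX => hctx.gfd X ⟨hX.1, W, hW.1, hX.2⟩)
  obtain ⟨hd1, hd2, -⟩ := hdual (ZMod p) D.G D.χ
  refine ⟨?_, ?_⟩
  · intro X₁ X₂ X₃ i q h1 h2 h3 hs
    have e1 := hsub.sub i q h1 h2 h3 hs
    have e2 : chi D.𝒰 (dg D X₂) ≤ chi D.𝒰 (dg D X₃) + chi D.𝒰 (dg D X₁) :=
      hsub.sub (dag D.χ q) (dag D.χ i) (hd2 W X₃ hW.2 h3) (hd2 W X₂ hW.2 h2)
        (hd2 W X₁ hW.2 h1) (hd1 X₁ X₂ X₃ i q hs)
    have e3 := subAddPhi_chiLoc heul hP D lam hctx.loc hW.1 i q h1 h2 h3 hs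
    unfold phi
    omega
  · intro X₁ X₂ X₃ i q h1 h2 h3 hs hsec
    obtain ⟨s, hsq⟩ := hsec
    obtain ⟨r, hr⟩ := subAddPhi_retraction i q hs s hsq
    have e1 := hsub.split i q h1 h2 h3 hs ⟨s, hsq⟩
    have e2 : chi D.𝒰 (dg D X₂) = chi D.𝒰 (dg D X₃) + chi D.𝒰 (dg D X₁) :=
      hsub.split (dag D.χ q) (dag D.χ i) (hd2 W X₃ hW.2 h3) (hd2 W X₂ hW.2 h2)
      (hd2 W X₁ hW.2 h1) (hd1 X₁ X₂ X₃ i q hs) ⟨dag D.χ r, fun e => by
        apply LinearMap.ext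
        intro x
        show (e : Module.Dual (ZMod p) X₁) (r.hom (i.hom x)) = (e : Module.Dual (ZMod p) X₁) x
        rw [hr]⟩
    have e3 := subAddPhi_chiLoc heul hP D lam hctx.loc hW.1 i q h1 h2 h3 hs
    unfold phi
    omega

end Fermat.Agent.CFT.Pos

end

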