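import Fermat.Agent.CFT.Pos.Interface

/-!
# POS-B4: Sylow above a normal subgroup; characters of `p`-power order
-/

namespace Fermat.Agent.CFT.Pos

theorem stmt_sylow : Stmt_sylow := by
  intro p _ G _ W _ _
  have : Finite (G ⧸ W) := Subgroup.finite_quotient_of_finiteIndex
  obtain ⟨P⟩ : Nonempty (Sylow p (G ⧸ W)) := inferInstance
  have hidx : ((P : Subgroup (G ⧸ W)).comap (QuotientGroup.mk' W)).index
      = (P : Subgroup (G ⧸ W)).index :=
    Subgroup.index_comap_of_surjective _ (QuotientGroup.mk'_surjective W)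
  refine ⟨(P : Subgroup (G ⧸ W)).comap (QuotientGroup.mk' W), ?_, ?_, ?_, ?_⟩
  · intro w hw
    rw [Subgroup.mem_comap]
    have : QuotientGroup.mk' W w = 1 := by
      rw [QuotientGroup.mk'_apply, QuotientGroup.eq_one_iff]; exact hw
    rw [this]; exact one_mem _
  · refine ⟨?_⟩
    rw [hidx]
    exact Subgroup.FiniteIndex.index_ne_zero
  · intro h hh
    rw [Subgroup.mem_comap] at hh
    obtain ⟨n, hn⟩ := P.isPGroup' ⟨_, hh⟩
    refine ⟨n, ?_⟩
    have h2 : (QuotientGroup.mk' W h) ^ p ^ n = 1 := by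
      have := congrArg Subtype.val hn
      simpa using this
    rw [← map_pow, QuotientGroup.mk'_apply, QuotientGroup.eq_one_iff] at h2
    exact h2
  · rw [hidx]
    intro h0
    rw [ZMod.natCast_eq_zero_iff] at h0
    exact P.not_dvd_index h0

theorem stmt_charTriv : Stmt_charTriv := by
  intro p _ G _ χ W H hW hH h hh
  obtain ⟨n, hn⟩ := hH h hh
  have h1 : (χ h) ^ p ^ n = 1 := by rw [← map_pow]; exact hW _ hn
  have h2 : (χ h) ^ (p - 1) = 1 := ZMod.units_pow_card_sub_one_eq_one p (χ h)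
  have hp : p.Prime := Fact.out
  have hcop : Nat.Coprime (p ^ n) (p - 1) := by
    apply Nat.Coprime.pow_left
    rw [Nat.coprime_comm]
    have : Nat.Coprime (p - 1) (p - 1 + 1) := by simp
    rwa [Nat.sub_add_cancel hp.one_le] at this
  have h3 : orderOf (χ h) ∣ Nat.gcd (p ^ n) (p - 1) :=
    Nat.dvd_gcd (orderOf_dvd_of_pow_eq_one h1) (orderOf_dvd_of_pow_eq_one h2)
  rw [hcop] at h3
  exact orderOf_eq_one_iff.mp (Nat.dvd_one.mp h3)

end Fermat.Agent.CFT.Pos

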