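/-
CFT / POS, packages F4, F5, F8: the tower argument and the numerics of `perm H`.
-/
import Fermat.Agent.CFT.Pos.Interface

set_option autoImplicit false

noncomputable section

namespace Fermat.Agent.CFT.Pos

open _root_.Fermat.Agent.CFT.Top _root_.Fermat.Agent.CFT.Top.Cpx Module CategoryTheory

section

variable {p : ℕ} [Fact p.Prime] (D : Datum p)

/-- a good subgroup has finite index, and contains a good level. -/
lemma Tower_exists_level {H : Subgroup D.G} (hH : D.Good H) :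
    ∃ U : Subgroup D.G, GoodLevel D U ∧ U ≤ H := by
  obtain ⟨⟨U, hU, hUH⟩, hχ⟩ := hH
  exact ⟨U, ⟨hU, fun u hu => hχ u (hUH hu)⟩, hUH⟩

lemma Tower_finiteIndex {H : Subgroup D.G} (hH : D.Good H) : H.FiniteIndex := by
  obtain ⟨⟨U, hU, hUH⟩, -⟩ := hH
  have := D.𝒰.fin U hU
  exact Subgroup.finiteIndex_of_le hUH

lemma Tower_good_perm {H : Subgroup D.G} (hH : D.Good H) :
    Good D.𝒰 (perm H : Rep.{0} (ZMod p) D.G) := by
  have hfi := Tower_finiteIndex D hH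
  obtain ⟨⟨U, hU, hUH⟩, -⟩ := hH
  have := D.𝒰.normal U hU
  have h := goodW_perm (k := ZMod p) hUH
  exact ⟨h.1, U, hU, h.2⟩

/-- rank-nullity for `locH 2`. -/
lemma Tower_rank_nullity (X : Rep.{0} (ZMod p) D.G) (h : Module.Finite (ZMod p) (Hlc D.𝒰 X 2)) :
    finrank (ZMod p) (LinearMap.range (locH D X 2)) + finrank (ZMod p) (D.Sha X 2)
      = finrank (ZMod p) (Hlc D.𝒰 X 2) :=
  LinearMap.finrank_range_add_finrank_ker (locH D X 2)

/-- the explicit value of `φ(perm H)`. -/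
lemma Tower_phi_eq (hP : Stmt_phiPerm) (h0 : Stmt_h0perm) (lam : Lam D) (hC : Ctx D lam)
    {H : Subgroup D.G} (hH : D.Good H) :
    phi D (perm H) = 2 - 2 * (D.hdim (permRep (ZMod p) H) 1 : ℤ)
      + 2 * (D.hdim (permRep (ZMod p) H) 2 : ℤ) - 2 * (D.pdim (permRep (ZMod p) H) 2 : ℤ)
      + (D.pdim (permRep (ZMod p) H) 1 : ℤ) := by
  have hfi := Tower_finiteIndex D hH
  obtain ⟨h1, h2, -⟩ := hP p D lam hC H hH
  have h3 := h0 (ZMod p) D.G D.𝒰 H
  rw [h1]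
  have e1 : chi D.𝒰 (perm H : Rep.{0} (ZMod p) D.G)
      = (finrank (ZMod p) (Hlc D.𝒰 (perm H : Rep.{0} (ZMod p) D.G) 0) : ℤ)
        - (D.hdim (permRep (ZMod p) H) 1 : ℤ) + (D.hdim (permRep (ZMod p) H) 2 : ℤ) := rfl
  have e2 : chiLoc D (perm H : Rep.{0} (ZMod p) D.G)
      = (finrank (ZMod p) (Pl D (perm H) 0) : ℤ)
        - (D.pdim (permRep (ZMod p) H) 1 : ℤ) + (D.pdim (permRep (ZMod p) H) 2 : ℤ) := rfl
  have e3 : (finrank (ZMod p) (Pl D (perm H) 0) : ℤ) = (D.pdim (permRep (ZMod p) H) 2 : ℤ) := by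
    rw [h2]
    rfl
  rw [e1, e2, e3, h3]
  push_cast
  ring

end

/-- F4. -/
theorem stmt_tower (hP : Stmt_phiPerm) (hL : Stmt_permLe) (hS : Stmt_subAddPhi)
    (h0 : Stmt_h0perm) : Stmt_tower := by
  intro p _ D lam hC hGN hTW H hH
  obtain ⟨W, hWo, hWH, hWn, hWp, hW2⟩ := hTW H hH
  have hWg : D.Good W := ⟨hWo, fun w hw => hH.2 w (hWH hw)⟩
  obtain ⟨U, hU, hUW⟩ := Tower_exists_level D hWg
  have hUn := D.𝒰.normal U hU.1
  have hUf := D.𝒰.fin U hU.1
  have hle := hL p D.G U W H (phi D) (hS p D lam hC U hU) hUW hWH hWn hWp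
  have hphi := Tower_phi_eq D hP h0 lam hC hWg
  have hgn := hGN W hWg
  have hr : 0 < W.relIndex H := by
    obtain ⟨m, hm⟩ := hWp
    rw [hm]
    exact pow_pos (Fact.out : p.Prime).pos m
  by_contra hneg
  push Not at hneg
  have h1 : (W.relIndex H : ℤ) * phi D (perm H) ≤ -(W.relIndex H : ℤ) := by
    have hr' : (0 : ℤ) < (W.relIndex H : ℤ) := by exact_mod_cast hr
    nlinarith
  have h2 : (2 * D.hdim (permRep (ZMod p) W) 1 : ℤ)
      ≤ 2 * D.hdim (permRep (ZMod p) W) 2 + D.pdim (permRep (ZMod p) W) 1 := by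
    exact_mod_cast hgn
  have h3 : (2 * D.pdim (permRep (ZMod p) W) 2 : ℤ) < W.relIndex H + 2 := by
    exact_mod_cast hW2
  linarith

/-- F5. -/
theorem stmt_yLower (hP : Stmt_phiPerm) (h0 : Stmt_h0perm) : Stmt_yLower := by
  intro p _ D lam hC hGN H hH hpos
  have hphi := Tower_phi_eq D hP h0 lam hC hH
  have hgn := hGN H hH
  have hfd : Module.Finite (ZMod p) (Hlc D.𝒰 (perm H : Rep.{0} (ZMod p) D.G) 2) :=
    hC.gfd _ (Tower_good_perm D hH) 2 le_rfl
  have hrn := Tower_rank_nullity D (perm H : Rep.{0} (ZMod p) D.G) hfd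
  have h2 : (2 * D.shadim (permRep (ZMod p) H) 2 + D.pdim (permRep (ZMod p) H) 1 : ℤ)
      ≤ 2 * D.hdim (permRep (ZMod p) H) 1 := by
    exact_mod_cast hgn
  have h3 : (finrank (ZMod p) (LinearMap.range (locH D (perm H) 2)) : ℤ)
      + (D.shadim (permRep (ZMod p) H) 2 : ℤ) = (D.hdim (permRep (ZMod p) H) 2 : ℤ) := by
    exact_mod_cast hrn
  have h4 : (D.pdim (permRep (ZMod p) H) 2 : ℤ)
      ≤ (finrank (ZMod p) (LinearMap.range (locH D (perm H) 2)) : ℤ) + 1 := by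
    linarith
  exact_mod_cast h4

/-- F8. -/
theorem stmt_phiPermUpper (hP : Stmt_phiPerm) (hY : Stmt_yUpper) (h0 : Stmt_h0perm) :
    Stmt_phiPermUpper := by
  intro p _ D lam hC hGN H hH hGR
  have hphi := Tower_phi_eq D hP h0 lam hC hH
  have hgn := hGN H hH
  have hgood := Tower_good_perm D hH
  have hfd : Module.Finite (ZMod p) (Hlc D.𝒰 (perm H : Rep.{0} (ZMod p) D.G) 2) :=
    hC.gfd _ hgood 2 le_rfl
  have hrn := Tower_rank_nullity D (perm H : Rep.{0} (ZMod p) D.G) hfd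
  have hy := hY p D lam hC (perm H) hgood hGR
  rw [(hP p D lam hC H hH).2.2] at hy
  have h2 : (2 * D.shadim (permRep (ZMod p) H) 2 + D.pdim (permRep (ZMod p) H) 1 : ℤ)
      ≤ 2 * D.hdim (permRep (ZMod p) H) 1 := by
    exact_mod_cast hgn
  have h3 : (finrank (ZMod p) (LinearMap.range (locH D (perm H) 2)) : ℤ)
      + (D.shadim (permRep (ZMod p) H) 2 : ℤ) = (D.hdim (permRep (ZMod p) H) 2 : ℤ) := by
    exact_mod_cast hrn
  have h4 : (finrank (ZMod p) (LinearMap.range (locH D (perm H) 2)) : ℤ) + 1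
      ≤ (D.pdim (permRep (ZMod p) H) 2 : ℤ) := by
    exact_mod_cast hy
  linarith

end Fermat.Agent.CFT.Pos

end
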