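/-
CFT / POS : final assembly.  `Top.Stmt_PT2` (abstract Poitou-Tate duality, dimension form).
-/
import Fermat.Agent.CFT.Pos.Main
import Fermat.Agent.CFT.Pos.Claim1I
import Fermat.Agent.CFT.Pos.DBlock
import Fermat.Agent.CFT.Pos.Efface
import Fermat.Agent.CFT.Pos.End
import Fermat.Agent.CFT.Pos.Euler
import Fermat.Agent.CFT.Pos.FdAll
import Fermat.Agent.CFT.Pos.FdCpx
import Fermat.Agent.CFT.Pos.Fun
import Fermat.Agent.CFT.Pos.FunP
import Fermat.Agent.CFT.Pos.GEall
import Fermat.Agent.CFT.Pos.GEperm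
import Fermat.Agent.CFT.Pos.GEsplit
import Fermat.Agent.CFT.Pos.IsoInv
import Fermat.Agent.CFT.Pos.LDB
import Fermat.Agent.CFT.Pos.LDE
import Fermat.Agent.CFT.Pos.LDEperm
import Fermat.Agent.CFT.Pos.LDEsplit
import Fermat.Agent.CFT.Pos.LocOK
import Fermat.Agent.CFT.Pos.LocRex
import Fermat.Agent.CFT.Pos.Local
import Fermat.Agent.CFT.Pos.PerfLin
import Fermat.Agent.CFT.Pos.PermDual
import Fermat.Agent.CFT.Pos.PermHom
import Fermat.Agent.CFT.Pos.PhiDecomp
import Fermat.Agent.CFT.Pos.PhiPerm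
import Fermat.Agent.CFT.Pos.RightExact
import Fermat.Agent.CFT.Pos.SplitClosure
import Fermat.Agent.CFT.Pos.SubAddChi
import Fermat.Agent.CFT.Pos.Sylow
import Fermat.Agent.CFT.Pos.Tower
import Fermat.Agent.CFT.Pos.PermLe
import Fermat.Agent.CFT.Pos.SubAddPhi
import Fermat.Agent.CFT.Pos.GRs

set_option autoImplicit false

namespace Fermat.Agent.CFT.Pos

open _root_.Fermat.Agent.CFT.Top

/-- everything except B11, F2, F6. -/
theorem pt2_of_three (hpermLe : Stmt_permLe) (hsubAddPhi : Stmt_subAddPhi) (hGRs : Stmt_GRs) :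
    Stmt_PT2 := by
  have hsubChi := stmt_subAddChi stmt_euler stmt_ses stmt_HMfun
  have hrex := stmt_rightExact stmt_euler stmt_ses stmt_HMfun hsubChi
  have hfdAll := stmt_fdAll stmt_sylow stmt_charTriv stmt_fdExt stmt_ses stmt_HMfun
  have hlocRex := stmt_locRex stmt_sylow stmt_charTriv hfdAll hrex stmt_h0perm
  have hLDEperm := stmt_LDEperm stmt_eqHomPerm
  have hLDE := stmt_LDE stmt_splitClosure (stmt_LDEsplit stmt_HMfun) stmt_HMfun
  have hlocOK := stmt_locOK stmt_fdPi (stmt_LDB stmt_bridgeB)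
  have hlocal := stmt_local stmt_locHyp hfdAll hlocRex hLDEperm hLDE hlocOK
  have hiso := stmt_isoInv stmt_HMfun stmt_inv stmt_PMfun stmt_locNat
  have hphiPerm := stmt_phiPerm stmt_permDual hiso stmt_p2p0 stmt_h0perm
  have htower := stmt_tower hphiPerm hpermLe hsubAddPhi stmt_h0perm
  have hyLower := stmt_yLower hphiPerm stmt_h0perm
  have hupper := stmt_phiPermUpper hphiPerm (stmt_yUpper stmt_loc0inj) stmt_h0perm
  have hGEperm := stmt_GEperm hphiPerm stmt_loc0inj
  have hGEsplit := stmt_GEsplit stmt_PMfun stmt_locNat stmt_adj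
  have hGEall := stmt_GEall stmt_splitClosure hGEsplit stmt_dual stmt_ses stmt_loc0inj stmt_adj
    stmt_locNat stmt_PMfun
  have heff := stmt_effaceDual stmt_HMfun
  have hc1 := stmt_claim1 heff stmt_dual stmt_ses stmt_Pses stmt_locNat stmt_locDelta stmt_adj
    stmt_loc0inj stmt_GEswap
  have hc2 := stmt_claim2 heff stmt_dual stmt_ses stmt_Pses stmt_locDelta stmt_adj
  have hdec := stmt_phiDecomp hc1 hc2 stmt_GEswap stmt_p2p0 hiso
  have hend := stmt_end stmt_sylow stmt_charTriv hsubAddPhi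
  exact pt2_of_packages hlocal hfdAll htower hyLower hGRs stmt_GR hGEperm hGEall hdec hupper hend

/-- **Abstract Poitou-Tate duality (dimension form), positivity route: UNCONDITIONAL.** -/
theorem stmt_PT2 : Stmt_PT2 :=
  pt2_of_three stmt_permLe
    (stmt_subAddPhi stmt_euler (stmt_subAddChi stmt_euler stmt_ses stmt_HMfun) stmt_Pses stmt_dual)
    (stmt_GRs stmt_eqHomPerm stmt_locNat)

end Fermat.Agent.CFT.Pos
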