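/-
CFT / POS : F9, (GE) for `perm H` by counting dimensions.
-/
import Fermat.Agent.CFT.Pos.Interface

set_option autoImplicit false

noncomputable section

namespace Fermat.Agent.CFT.Pos

open _root_.Fermat.Agent.CFT.Top _root_.Fermat.Agent.CFT.Top.Cpx Module CategoryTheory

lemma GEperm_good {p : ℕ} [Fact p.Prime] (D : Datum p) (H : Subgroup D.G) (hH : D.Good H) :
    Good D.𝒰 (perm H : Rep.{0} (ZMod p) D.G) := by
  obtain ⟨⟨U, hU, hUH⟩, _⟩ := hH
  have := D.𝒰.normal U hU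
  have := D.𝒰.fin U hU
  have : H.FiniteIndex := Subgroup.finiteIndex_of_le hUH
  obtain ⟨h1, h2⟩ := goodW_perm (k := ZMod p) hUH
  exact ⟨h1, U, hU, h2⟩

theorem stmt_GEperm (h3 : Stmt_phiPerm) (h7 : Stmt_loc0inj) : Stmt_GEperm := by
  intro p _ D lam hC H hH hGR hdim z hz
  have hgood := GEperm_good D H hH
  have hfin : Module.Finite (ZMod p) (Pl D (perm H) 2) := hC.loc.fd _ hgood 2 le_rfl
  have h1 : finrank (ZMod p) (Hlc D.𝒰 (dg D (perm H)) 0) = 1 := (h3 p D lam hC H hH).2.2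
  let Ψ : Pl D (perm H) 2 →ₗ[ZMod p] Module.Dual (ZMod p) (Hlc D.𝒰 (dg D (perm H)) 0) :=
    (pairD D lam (perm H)).compl₂ (locH D (dg D (perm H)) 0)
  have hΨ : ∀ z γ, Ψ z γ = pairD D lam (perm H) z (locH D (dg D (perm H)) 0 γ) :=
    fun _ _ => rfl
  have hle : LinearMap.range (locH D (perm H) 2) ≤ LinearMap.ker Ψ := by
    rintro _ ⟨g, rfl⟩
    rw [LinearMap.mem_ker]
    exact LinearMap.ext fun γ => hGR g γ
  have hpos : 0 < finrank (ZMod p) (LinearMap.range Ψ) := by
    obtain ⟨γ, hγ⟩ : ∃ γ : Hlc D.𝒰 (dg D (perm H)) 0, γ ≠ 0 := by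
      by_contra hcon
      have hsub : Subsingleton (Hlc D.𝒰 (dg D (perm H)) 0) :=
        ⟨fun a b => by
          have ha : a = 0 := by_contra fun h => hcon ⟨a, h⟩
          have hb : b = 0 := by_contra fun h => hcon ⟨b, h⟩
          rw [ha, hb]⟩
      rw [finrank_zero_of_subsingleton] at h1
      exact zero_ne_one h1
    have hη : locH D (dg D (perm H)) 0 γ ≠ 0 := by
      intro h
      apply hγ
      apply h7 p D hC.ne (dg D (perm H))
      rw [h, map_zero]
    obtain ⟨z0, hz0⟩ : ∃ z0, pairD D lam (perm H) z0 (locH D (dg D (perm H)) 0 γ) ≠ 0 := by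
      by_contra hcon
      exact hη (hC.loc.inj _ hgood _ fun z => by_contra fun h => hcon ⟨z, h⟩)
    rw [Module.finrank_pos_iff_exists_ne_zero]
    refine ⟨⟨Ψ z0, z0, rfl⟩, ?_⟩
    intro h
    apply hz0
    have h' : Ψ z0 = 0 := congrArg Subtype.val h
    rw [← hΨ, h']
    rfl
  have hrk := LinearMap.finrank_range_add_finrank_ker Ψ
  have hfk : finrank (ZMod p) (LinearMap.ker Ψ)
      ≤ finrank (ZMod p) (LinearMap.range (locH D (perm H) 2)) := by omega
  have heq := Submodule.eq_of_le_of_finrank_le hle hfk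
  have hzker : z ∈ LinearMap.ker Ψ := by
    rw [LinearMap.mem_ker]
    exact LinearMap.ext fun γ => hz γ
  rw [← heq] at hzker
  exact hzker

end Fermat.Agent.CFT.Pos

end
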