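/-
CFT / Pos : the purely linear-algebraic core of the "positivity" route to S55 (report #602).
All statements are about finite diagrams of vector spaces over a field.
-/
import Mathlib

set_option autoImplicit false

namespace Fermat.Agent.CFT.Pos

open Module

variable {F : Type*} [Field F]

/-- **Counting lemma A.**  `β : W × Ξ → F` bilinear, `f : W → U`, `g : Ξ → V` linear.
If `β w ξ = 0` whenever `f w = 0`, and `g ξ = 0` whenever `β · ξ = 0`, then
`rank g ≤ rank f`. -/
theorem range_of_pairing
    {W Ξ U V : Type*} [AddCommGroup W] [Module F W] [AddCommGroup Ξ] [Module F Ξ]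
    [AddCommGroup U] [Module F U] [AddCommGroup V] [Module F V]
    [FiniteDimensional F U]
    (β : W →ₗ[F] Ξ →ₗ[F] F) (f : W →ₗ[F] U) (g : Ξ →ₗ[F] V)
    (h1 : ∀ w, f w = 0 → ∀ ξ, β w ξ = 0)
    (h2 : ∀ ξ, (∀ w, β w ξ = 0) → g ξ = 0) :
    FiniteDimensional F (LinearMap.range g) ∧
      finrank F (LinearMap.range g) ≤ finrank F (LinearMap.range f) := by
  classical
  -- `β` factors through `range f`
  let fr : W →ₗ[F] LinearMap.range f := f.rangeRestrict
  have hfr : Function.Surjective fr := LinearMap.surjective_rangeRestrict f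
  -- the map `ε : Ξ → Dual (range f)`
  have hker : LinearMap.ker fr ≤ LinearMap.ker β := by
    intro w hw
    have hw' : f w = 0 := by
      have := congrArg Subtype.val (LinearMap.mem_ker.1 hw)
      simpa [fr] using this
    refine LinearMap.mem_ker.2 ?_
    ext ξ
    exact h1 w hw' ξ
  obtain ⟨s, hs⟩ := fr.exists_rightInverse_of_surjective (LinearMap.range_eq_top.2 hfr)
  -- `γ : range f → Ξ → F`
  let γ : LinearMap.range f →ₗ[F] Ξ →ₗ[F] F := β ∘ₗ s
  have hγ : ∀ w ξ, γ (fr w) ξ = β w ξ := by
    intro w ξ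
    have h0 : fr (s (fr w) - w) = 0 := by
      rw [map_sub]
      have := LinearMap.congr_fun hs (fr w)
      simp only [LinearMap.comp_apply, LinearMap.id_apply] at this
      rw [this, sub_self]
    have h3 := hker (LinearMap.mem_ker.2 h0)
    have h4 : β (s (fr w) - w) ξ = 0 := by
      rw [LinearMap.mem_ker.1 h3]; rfl
    rw [map_sub, LinearMap.sub_apply, sub_eq_zero] at h4
    exact h4
  let ε : Ξ →ₗ[F] Dual F (LinearMap.range f) := γ.flip
  have hε : LinearMap.ker ε ≤ LinearMap.ker g := by
    intro ξ hξ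
    refine LinearMap.mem_ker.2 (h2 ξ fun w => ?_)
    rw [← hγ w ξ]
    have := LinearMap.congr_fun (LinearMap.mem_ker.1 hξ) (fr w)
    simpa [ε] using this
  -- `range g` is a quotient of `range ε`
  have h5 : FiniteDimensional F (LinearMap.range g) ∧
      finrank F (LinearMap.range g) ≤ finrank F (LinearMap.range ε) := by
    -- g factors through ε
    let gq : (Ξ ⧸ LinearMap.ker ε) →ₗ[F] V := (LinearMap.ker ε).liftQ g hε
    have hr : LinearMap.range gq = LinearMap.range g := Submodule.range_liftQ _ _ _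
    have e1 : (Ξ ⧸ LinearMap.ker ε) ≃ₗ[F] LinearMap.range ε := ε.quotKerEquivRange
    have : Module.Finite F (Ξ ⧸ LinearMap.ker ε) := Module.Finite.equiv e1.symm
    rw [← hr, ← e1.finrank_eq]
    exact ⟨inferInstance, LinearMap.finrank_range_le gq⟩
  refine ⟨h5.1, ?_⟩
  calc finrank F (LinearMap.range g) ≤ finrank F (LinearMap.range ε) := h5.2
    _ ≤ finrank F (Dual F (LinearMap.range f)) := Submodule.finrank_le _
    _ = finrank F (LinearMap.range f) := Subspace.dual_finrank_eq

/-- **Counting lemma B.**  `β : U × V → F` bilinear, `Z ≤ U`, `R ≤ V` orthogonal, `g : V → V₂`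
with `g v = 0` whenever `β · v = 0`.  Then `dim Z + dim g(R) ≤ dim U`. -/
theorem finrank_add_finrank_map_le_of_orthogonal
    {U V V₂ : Type*} [AddCommGroup U] [Module F U] [AddCommGroup V] [Module F V]
    [AddCommGroup V₂] [Module F V₂] [FiniteDimensional F U]
    (β : U →ₗ[F] V →ₗ[F] F) (Z : Submodule F U) (R : Submodule F V) (g : V →ₗ[F] V₂)
    (h1 : ∀ z ∈ Z, ∀ r ∈ R, β z r = 0)
    (h2 : ∀ v, (∀ u, β u v = 0) → g v = 0) :
    finrank F Z + finrank F (R.map g) ≤ finrank F U := by
  classical
  let ε : V →ₗ[F] Dual F U := β.flip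
  have hε : LinearMap.ker ε ≤ LinearMap.ker g := by
    intro v hv
    refine LinearMap.mem_ker.2 (h2 v fun u => ?_)
    have := LinearMap.congr_fun (LinearMap.mem_ker.1 hv) u
    simpa [ε] using this
  have h3 : R.map ε ≤ Z.dualAnnihilator := by
    rintro _ ⟨r, hr, rfl⟩
    rw [Submodule.mem_dualAnnihilator]
    intro z hz
    simpa [ε] using h1 z hz r hr
  have h4 : finrank F (R.map g) ≤ finrank F (R.map ε) := by
    -- apply lemma on restricted maps
    let gR : R →ₗ[F] V₂ := g ∘ₗ R.subtype
    let εR : R →ₗ[F] Dual F U := ε ∘ₗ R.subtype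
    have hg : LinearMap.range gR = R.map g := by
      simp [gR, LinearMap.range_comp]
    have he : LinearMap.range εR = R.map ε := by
      simp [εR, LinearMap.range_comp]
    have hk : LinearMap.ker εR ≤ LinearMap.ker gR := by
      intro r hr
      have : (r : V) ∈ LinearMap.ker ε := by
        simpa [εR] using hr
      simpa [gR] using hε this
    let gq : (R ⧸ LinearMap.ker εR) →ₗ[F] V₂ := (LinearMap.ker εR).liftQ gR hk
    have hr : LinearMap.range gq = LinearMap.range gR := Submodule.range_liftQ _ _ _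
    have e1 : (R ⧸ LinearMap.ker εR) ≃ₗ[F] LinearMap.range εR := εR.quotKerEquivRange
    have : Module.Finite F (R ⧸ LinearMap.ker εR) := Module.Finite.equiv e1.symm
    rw [← hg, ← he, ← hr, ← e1.finrank_eq]
    exact LinearMap.finrank_range_le gq
  have h5 := Subspace.finrank_add_finrank_dualAnnihilator_eq Z
  have h6 : finrank F (R.map ε) ≤ finrank F Z.dualAnnihilator := Submodule.finrank_mono h3
  omega

end Fermat.Agent.CFT.Pos
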