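/-
CFT / POS, task POS-F3 (helper47): `φ(perm H)`, `p⁰ = p²`, `h⁰` of the dual.
-/
import Fermat.Agent.CFT.Pos.Interface

set_option autoImplicit false

noncomputable section

namespace Fermat.Agent.CFT.Pos

open _root_.Fermat.Agent.CFT.Top _root_.Fermat.Agent.CFT.Top.Cpx Module CategoryTheory

theorem PhiPerm_finrank_eq {k V W : Type} [Field k] [AddCommGroup V] [Module k V] [AddCommGroup W]
    [Module k W] (f : V →ₗ[k] W) (hf : Function.Bijective f) : finrank k V = finrank k W :=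
  (LinearEquiv.ofBijective f hf).finrank_eq

theorem stmt_phiPerm (h1 : Stmt_permDual) (h2 : Stmt_isoInv) (h3 : Stmt_p2p0) (h4 : Stmt_h0perm) :
    Stmt_phiPerm := by
  intro p _ D lam hC H hH
  obtain ⟨U, hU, hUH⟩ := hH.1
  have hUn := D.𝒰.normal U hU
  have hUf := D.𝒰.fin U hU
  have hHf : H.FiniteIndex := Subgroup.finiteIndex_of_le hUH
  obtain ⟨e, he⟩ := h1 (ZMod p) D.G D.χ H hH.2
  have hgoodW : GoodW U (perm H : Rep.{0} (ZMod p) D.G) := goodW_perm hUH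
  have hgood : Good D.𝒰 (perm H : Rep.{0} (ZMod p) D.G) := ⟨hgoodW.1, U, hU, hgoodW.2⟩
  have hH' : ∀ n, finrank (ZMod p) (Hlc D.𝒰 (perm H : Rep.{0} (ZMod p) D.G) n)
      = finrank (ZMod p) (Hlc D.𝒰 (dg D (perm H)) n) := fun n =>
    PhiPerm_finrank_eq _ (h2 p D _ _ e he n).1
  have hP' : ∀ n, finrank (ZMod p) (Pl D (perm H) n)
      = finrank (ZMod p) (Pl D (dg D (perm H)) n) := fun n =>
    PhiPerm_finrank_eq _ (h2 p D _ _ e he n).2.1
  refine ⟨?_, ?_, ?_⟩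
  · unfold phi
    have : chi D.𝒰 (dg D (perm H)) = chi D.𝒰 (perm H : Rep.{0} (ZMod p) D.G) := by
      unfold chi cchi
      rw [← hH' 0, ← hH' 1, ← hH' 2]
    rw [this]
    ring
  · rw [hP' 0, h3 p D lam hC.loc _ hgood]
  · rw [← hH' 0]
    exact h4 (ZMod p) D.G D.𝒰 H

end Fermat.Agent.CFT.Pos

end
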